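/-
M59 / box [C] Mazur at `q = 2`, HESSE PORT, cluster C-MONO (helper28).  Prefix `m59h2_`.

HILBERT 90 ON THE HESSE COVER FOR ANY EXPONENT: twin of `twfm_unif` (`TW/Easy/Mono/Unif.lean`) with the
Hesse cover `hs_E L' h3 N = F_{lcm(9, 3N)}(L')` (`ssm_f9'`) in place of the Legendre cover.  The
cover-free cells `twfm_descent`, `twfm_pack_one`, `twfm_first` are reused verbatim.

* `m59h2_s44mr_defOver_hsE` : `hs_E ℚ̄ h3 N` is defined over `ℚ`;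
* `m59h2_s44mr_isModel_hsE` : `hs_E L' h3' N` is a model of `hs_E ℚ̄ h3 N`;
* `m59h2_twfm_unif`         : `Φ = c · φ₃(fv1) · g ^ p ∈ hs_E L' h3 N` fixed by `H|L'` over EVERY large normal
                              number field `L'`, compatibly, with rational zeros and poles.
-/
import Mathlib
import Fermat.Agent.TW.Easy.Mono.Unif
import Fermat.Agent.SS.Model.F9
import Fermat.Agent.SS.Model.BaseChangeHes
import Fermat.Agent.M59.Hesse2.Mono.HesCI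

set_option autoImplicit false
set_option linter.unusedSectionVars false
set_option linter.style.haveILetI false
set_option linter.unusedVariables false

noncomputable section

namespace Fermat.Agent.M59

open ModularCurve AlgebraicCurve Fermat.Agent.JT3 Fermat.Agent.SS Fermat.Agent.S28
  IntermediateField Fermat.Agent.S44 Fermat.Agent.TW

local notation "Qb" => AlgebraicClosure ℚ

section Rational

/-- the Hesse field over `ℚ̄` is defined over `ℚ`. -/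
theorem m59h2_s44mr_defOver_hsE (h3 : (3 : Qb) ≠ 0) (N : ℕ) [NeZero N] :
    s44mr_DefOver (hs_E Qb h3 N) ∅ := by
  rw [ssm_f9' Qb h3 N]
  haveI : NeZero (Nat.lcm 9 (3 * N)) :=
    ⟨Nat.lcm_ne_zero (by norm_num) (Nat.mul_ne_zero (by norm_num) (NeZero.ne N))⟩
  exact s44mr_defOver_full _

universe u

/-- the Hesse field over `L'` is a model of the one over `ℚ̄`. -/
theorem m59h2_s44mr_isModel_hsE (L' : Type u) [Field L'] [Algebra L' Qb] [CharZero L']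
    (h3' : (3 : L') ≠ 0) (h3 : (3 : Qb) ≠ 0) (N : ℕ) [NeZero N] :
    s44mr_IsModel L' (hs_E L' h3' N) (hs_E Qb h3 N) := by
  rw [ssm_f9' Qb h3 N, ssm_f9' L' h3' N]
  haveI : NeZero (Nat.lcm 9 (3 * N)) :=
    ⟨Nat.lcm_ne_zero (by norm_num) (Nat.mul_ne_zero (by norm_num) (NeZero.ne N))⟩
  exact s44mr_isModel_full L' _

end Rational

section Unif

variable (N : ℕ) [NeZero N] {p : ℕ}

local notation "FN" => modularFunctionFieldBar N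

attribute [local instance] s44kq_lsAction

set_option synthInstance.maxHeartbeats 400000
set_option maxHeartbeats 1000000

/-- **(K-UNIF-tame), HESSE COVER**: Hilbert 90 on the Hesse cover for a class `V ∈ J₀(N)[p]` fixed by a
subgroup `H ≤ G_ℚ`, ANY exponent `p ≠ 0` (twin of `twfm_unif`). -/
theorem m59h2_twfm_unif (hp0 : p ≠ 0) {ζ : Qb} (hζ : IsPrimitiveRoot ζ p) (H : Subgroup s44_G)
    (V : JZero N) (hH : ∀ σ ∈ H, σ • V = V) (hV : p • V = 0) :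
    ∃ (T₂ : Finset Qb) (fV : FN) (cbar : Qb) (gbar Φbar : LaurentSeries Qb),
      s44f_Rep N p V fV ∧
      ∀ L' : IntermediateField ℚ Qb, FiniteDimensional ℚ L' → ∀ _ : Normal ℚ L',
        (↑T₂ : Set Qb) ⊆ L' → ∀ h3 : (3 : ↥L') ≠ 0,
        ∃ (fv1 : ↥(lg_F ↥L' N)) (c : ↥L') (g Φ : ↥(hs_E ↥L' h3 N)),
          ssm_al_iotaF ↥L' N fv1 = fV ∧ c ≠ 0 ∧ g ≠ 0 ∧
          (Φ : LaurentSeries ↥L') = algebraMap ↥L' (LaurentSeries ↥L') c *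
            hs_phi ↥L' (fv1 : LaurentSeries ↥L') * (g : LaurentSeries ↥L') ^ p ∧
          (∀ σ : ↥(s44mn_G H L'),
            coeffMap (((σ : ↥L' ≃ₐ[ℚ] ↥L') : ↥L' ≃ₐ[ℚ] ↥L') : ↥L' →+* ↥L')
              (Φ : LaurentSeries ↥L') = (Φ : LaurentSeries ↥L')) ∧
          algebraMap ↥L' Qb c = cbar ∧ ssm_al_iota ↥L' (g : LaurentSeries ↥L') = gbar ∧
          ssm_al_iota ↥L' (Φ : LaurentSeries ↥L') = Φbar ∧
          ∀ v : Place ↥L' ↥(hs_E ↥L' h3 N), v.ord Φ ≠ 0 → ss_RatPlace v := by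
  classical
  obtain ⟨fV, hfV⟩ := s44b_rep_exists N hV
  obtain ⟨T0, hT0⟩ := twfm_first N hp0 hζ H V hH hfV
  obtain ⟨L₁, hfd₁, hn₁, hT0L₁, -⟩ := s44b_exists_nf N ∅ T0
  haveI := hfd₁
  haveI := hn₁
  have h3₁ : (3 : ↥L₁) ≠ 0 := three_ne_zero
  have h3b : (3 : Qb) ≠ 0 := three_ne_zero
  obtain ⟨T₁, hT₁⟩ := s44kv_exists_gen L₁
  obtain ⟨fv1, c₁, g₁, hfv1, hc₁, hg₁, hfix₁⟩ := hT0 L₁ hfd₁ hn₁ hT0L₁
  -- the invariant function on the Hesse cover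
  set Φ₀ : LaurentSeries ↥L₁ := algebraMap ↥L₁ (LaurentSeries ↥L₁) c₁ *
    (fv1 : LaurentSeries ↥L₁) * (g₁ : LaurentSeries ↥L₁) ^ p with hΦ₀
  have hΦ₀F : Φ₀ ∈ lg_F ↥L₁ N :=
    mul_mem (mul_mem ((lg_F ↥L₁ N).algebraMap_mem c₁) fv1.2) (pow_mem g₁.2 p)
  have hΦ₁E : hs_phi ↥L₁ Φ₀ ∈ hs_E ↥L₁ h3₁ N := hs_phi_mem_E ↥L₁ h3₁ N hΦ₀F
  have hΦ₁ : hs_phi ↥L₁ Φ₀ = algebraMap ↥L₁ (LaurentSeries ↥L₁) c₁ *
      hs_phi ↥L₁ (fv1 : LaurentSeries ↥L₁) * hs_phi ↥L₁ (g₁ : LaurentSeries ↥L₁) ^ p := by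
    rw [hΦ₀, map_mul, map_mul, map_pow, AlgHom.commutes]
  -- rationality over `ℚ̄`
  have hΦbE : ssm_al_iota ↥L₁ (hs_phi ↥L₁ Φ₀) ∈ hs_E Qb h3b N :=
    ssm_bch_mem_E h3₁ h3b _ N hΦ₁E
  haveI : FiniteDimensional Qb⟮(hs_muE h3b N - 1 : hs_E Qb h3b N)⟯ (hs_E Qb h3b N) :=
    ssm_glh_finite h3b N
  obtain ⟨s, hs⟩ := s44mr_rational_model.{0} (m59h2_s44mr_defOver_hsE h3b N)
    (hs_muE h3b N - 1 : hs_E Qb h3b N) ⟨ssm_al_iota ↥L₁ (hs_phi ↥L₁ Φ₀), hΦbE⟩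
  refine ⟨T₁ ∪ s, fV, algebraMap ↥L₁ Qb c₁,
    ssm_al_iota ↥L₁ (hs_phi ↥L₁ (g₁ : LaurentSeries ↥L₁)), ssm_al_iota ↥L₁ (hs_phi ↥L₁ Φ₀), hfV,
    ?_⟩
  intro L' hfd hn hsub h3
  haveI := hfd
  haveI := hn
  have hle : L₁ ≤ L' := hT₁ L' fun a ha => hsub (by
    rw [Finset.mem_coe] at ha ⊢
    exact Finset.mem_union_left _ ha)
  obtain ⟨ρ, hρ⟩ := s44kv_exists_rho H hle
  have hgE : coeffMap (s44kv_incl hle) (hs_phi ↥L₁ (g₁ : LaurentSeries ↥L₁)) ∈ hs_E ↥L' h3 N :=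
    ssm_bch_mem_E h3₁ h3 _ N (hs_phi_mem_E ↥L₁ h3₁ N g₁.2)
  have hΦE : coeffMap (s44kv_incl hle) (hs_phi ↥L₁ Φ₀) ∈ hs_E ↥L' h3 N :=
    ssm_bch_mem_E h3₁ h3 _ N hΦ₁E
  refine ⟨ssm_al_bcF (s44kv_incl hle) N fv1, s44kv_incl hle c₁, ⟨_, hgE⟩, ⟨_, hΦE⟩,
    (s44kv_iotaF_bcF N hle fv1).trans hfv1, ?_, ?_, ?_, ?_, s44kv_incl_algebraMap hle c₁,
    s44kv_iota_incl hle _, s44kv_iota_incl hle _, ?_⟩
  · exact (_root_.map_ne_zero _).2 hc₁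
  · intro h0
    have h1 := congrArg Subtype.val h0
    have h2 : coeffMap (s44kv_incl hle) (hs_phi ↥L₁ (g₁ : LaurentSeries ↥L₁)) = 0 := h1
    rw [_root_.map_eq_zero, _root_.map_eq_zero] at h2
    exact hg₁ (Subtype.ext h2)
  · show coeffMap (s44kv_incl hle) (hs_phi ↥L₁ Φ₀) = _
    rw [hΦ₁, map_mul, map_mul, map_pow, s44kq_coeffMap_algebraMap, hs_coeffMap_phi]
    rfl
  · intro σ'
    show coeffMap (((σ' : ↥L' ≃ₐ[ℚ] ↥L') : ↥L' ≃ₐ[ℚ] ↥L') : ↥L' →+* ↥L')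
      (coeffMap (s44kv_incl hle) (hs_phi ↥L₁ Φ₀)) = coeffMap (s44kv_incl hle) (hs_phi ↥L₁ Φ₀)
    have h1 := s44kq_coeffMap_smul (s44kv_incl hle) ρ hρ σ' (hs_phi ↥L₁ Φ₀)
    have h2 : ρ σ' • hs_phi ↥L₁ Φ₀ = hs_phi ↥L₁ Φ₀ := by
      show coeffMap (((ρ σ' : ↥L₁ ≃ₐ[ℚ] ↥L₁) : ↥L₁ ≃ₐ[ℚ] ↥L₁) : ↥L₁ →+* ↥L₁) (hs_phi ↥L₁ Φ₀) = _
      rw [hs_coeffMap_phi, hfix₁ (ρ σ')]
    rw [h2] at h1
    exact h1
  · intro v hv
    have hrange : (↑s : Set Qb) ⊆ Set.range (algebraMap ↥L' Qb) := fun a ha =>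
      ⟨⟨a, hsub (by
        rw [Finset.mem_coe] at ha ⊢
        exact Finset.mem_union_right _ ha)⟩, rfl⟩
    exact hs ↥L' (hs_E ↥L' h3 N) (by simp) hrange (m59h2_s44mr_isModel_hsE ↥L' h3 h3b N) ⟨_, hΦE⟩
      (s44kv_iota_incl hle _) v hv

end Unif

end Fermat.Agent.M59
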