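/-
M59 / box [C] Mazur at `q = 2`, HESSE PORT, cluster B-UDIV (helper28).  Prefix `m59h2_`.

THE HESSE `j`-CHART, abstract algebra: twin of `S44/Mono/CentreChart.lean` (sections `Leg`, `FunField`).

`A0` a ring in which `3` is invertible (`u * 27 = 1`), `F0 ⊇ A0` a field, `x, μ = x + 1, j₃ ∈ F0` with the
Hesse relation `27 μ³ (μ³ + 8)³ = j₃ (μ³ − 1)³`, `s := μ³ − 1 ≠ 0`.  Then

* `s`, `s⁻¹`, `μ`, `x` are integral over `A0[j₃]` (`(s + 1)(s + 9)³ = u j₃ s³`, `μ³ = s + 1`);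
* the `j₃`-chart `S := fc_chart A0 {j₃}` contains the `x`-chart `B := fc_chart A0 {x}` and `S = B[1/s]`:
  `m59h2_hc_clear`;
* `m59h2_hc_j3q_mem` : `W j₃ ∈ S` from the integrality package of `(x, W x)`, `(t, W t)`,
  `t = μ² + μ + 1`;
* (function-field case, `A0` a DVR, `x` transcendental) `S` is a chart over `A0[x]` in the sense of
  `ssm_tp_Chart`: `m59h2_hc_chart`.
-/
import Mathlib
import Fermat.Agent.S44.Mono.CentreChart

set_option autoImplicit false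
set_option linter.unusedSectionVars false
set_option linter.style.haveILetI false
set_option linter.unusedVariables false

namespace Fermat.Agent.M59

open Polynomial Fermat.Agent.JT3 Fermat.Agent.SS Fermat.Agent.S44

universe v

section Poly

variable {A0 : Type*} [CommRing A0] {F0 : Type v} [Field F0] [Algebra A0 F0]

/-- a root of a monic quartic with coefficients in `T` is integral over `T`. -/
theorem m59h2_hc_integral_quartic (T : Subalgebra A0 F0) {y a b c d : F0} (ha : a ∈ T) (hb : b ∈ T)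
    (hc : c ∈ T) (hd : d ∈ T) (h : y ^ 4 = a * y ^ 3 + b * y ^ 2 + c * y + d) : IsIntegral T y := by
  refine ⟨X ^ 4 - (C (⟨a, ha⟩ : T) * X ^ 3 + C (⟨b, hb⟩ : T) * X ^ 2 + C (⟨c, hc⟩ : T) * X +
    C (⟨d, hd⟩ : T)), monic_X_pow_sub ?_, ?_⟩
  · refine lt_of_le_of_lt (degree_add_le _ _) (max_lt (lt_of_le_of_lt (degree_add_le _ _)
      (max_lt (lt_of_le_of_lt (degree_add_le _ _) (max_lt ?_ ?_)) ?_)) ?_)
    · exact lt_of_le_of_lt (degree_C_mul_X_pow_le 3 _) (by norm_num)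
    · exact lt_of_le_of_lt (degree_C_mul_X_pow_le 2 _) (by norm_num)
    · exact lt_of_le_of_lt (degree_C_mul_X_le _) (by norm_num)
    · exact lt_of_le_of_lt degree_C_le (by norm_num)
  · rw [eval₂_sub, eval₂_add, eval₂_add, eval₂_add, eval₂_mul, eval₂_mul, eval₂_mul, eval₂_pow,
      eval₂_pow, eval₂_pow, eval₂_X, eval₂_C, eval₂_C, eval₂_C, eval₂_C]
    show y ^ 4 - (a * y ^ 3 + b * y ^ 2 + c * y + d) = 0
    rw [h, sub_self]

end Poly

section Hes

variable {A0 : Type*} [CommRing A0] {F0 : Type v} [Field F0] [Algebra A0 F0] {x mu j3 : F0}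

variable (u : A0) (hu : u * 27 = 1)

include hu in
theorem m59h2_hc_u_mul : algebraMap A0 F0 u * 27 = 1 := by
  have := congrArg (algebraMap A0 F0) hu
  rw [map_mul, map_one] at this
  rw [← this, map_ofNat]

include hu in
/-- the Hesse relation in terms of `s = μ³ − 1`, normalised. -/
theorem m59h2_hc_rel (hhes : 27 * mu ^ 3 * (mu ^ 3 + 8) ^ 3 = j3 * (mu ^ 3 - 1) ^ 3) :
    ((mu ^ 3 - 1) + 1) * ((mu ^ 3 - 1) + 9) ^ 3 = algebraMap A0 F0 u * j3 * (mu ^ 3 - 1) ^ 3 := by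
  have hu' := m59h2_hc_u_mul (F0 := F0) u hu
  calc ((mu ^ 3 - 1) + 1) * ((mu ^ 3 - 1) + 9) ^ 3
      = (algebraMap A0 F0 u * 27) * (mu ^ 3 * (mu ^ 3 + 8) ^ 3) := by rw [hu']; ring
    _ = algebraMap A0 F0 u * (27 * mu ^ 3 * (mu ^ 3 + 8) ^ 3) := by ring
    _ = algebraMap A0 F0 u * j3 * (mu ^ 3 - 1) ^ 3 := by rw [hhes]; ring

theorem m59h2_hc_ofNat_mem (T : Subalgebra A0 F0) (n : ℕ) [n.AtLeastTwo] :
    (OfNat.ofNat n : F0) ∈ T := by
  have : (OfNat.ofNat n : F0) = algebraMap A0 F0 (OfNat.ofNat n) :=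
    (map_ofNat (algebraMap A0 F0) n).symm
  rw [this]; exact Subalgebra.algebraMap_mem _ _

include hu in
/-- `s = μ³ − 1` is integral over `A0[j₃]`. -/
theorem m59h2_hc_s_integral
    (hhes : 27 * mu ^ 3 * (mu ^ 3 + 8) ^ 3 = j3 * (mu ^ 3 - 1) ^ 3) :
    IsIntegral (Algebra.adjoin A0 ({j3} : Set F0)) (mu ^ 3 - 1) := by
  have hj : j3 ∈ Algebra.adjoin A0 ({j3} : Set F0) := Algebra.subset_adjoin rfl
  have hum : algebraMap A0 F0 u ∈ Algebra.adjoin A0 ({j3} : Set F0) :=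
    Subalgebra.algebraMap_mem _ u
  refine m59h2_hc_integral_quartic (Algebra.adjoin A0 ({j3} : Set F0))
    (a := algebraMap A0 F0 u * j3 - 28) (b := -270) (c := -972) (d := -729)
    (sub_mem (mul_mem hum hj) (m59h2_hc_ofNat_mem _ 28)) (neg_mem (m59h2_hc_ofNat_mem _ 270))
    (neg_mem (m59h2_hc_ofNat_mem _ 972)) (neg_mem (m59h2_hc_ofNat_mem _ 729)) ?_
  have h2 := m59h2_hc_rel u hu hhes
  linear_combination h2

include hu in
/-- `s⁻¹ = (μ³ − 1)⁻¹` is integral over `A0[j₃]`. -/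
theorem m59h2_hc_sinv_integral
    (hhes : 27 * mu ^ 3 * (mu ^ 3 + 8) ^ 3 = j3 * (mu ^ 3 - 1) ^ 3)
    (hs : mu ^ 3 - 1 ≠ 0) :
    IsIntegral (Algebra.adjoin A0 ({j3} : Set F0)) (mu ^ 3 - 1)⁻¹ := by
  have hj : j3 ∈ Algebra.adjoin A0 ({j3} : Set F0) := Algebra.subset_adjoin rfl
  have hum : algebraMap A0 F0 u ∈ Algebra.adjoin A0 ({j3} : Set F0) :=
    Subalgebra.algebraMap_mem _ u
  have hu' := m59h2_hc_u_mul (F0 := F0) u hu
  set U : F0 := algebraMap A0 F0 u with hU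
  refine m59h2_hc_integral_quartic (Algebra.adjoin A0 ({j3} : Set F0))
    (a := -(36 * U)) (b := -(10 * U)) (c := U ^ 2 * (U * j3 - 28)) (d := -(U ^ 2))
    (neg_mem (mul_mem (m59h2_hc_ofNat_mem _ 36) hum))
    (neg_mem (mul_mem (m59h2_hc_ofNat_mem _ 10) hum))
    (mul_mem (pow_mem hum 2) (sub_mem (mul_mem hum hj) (m59h2_hc_ofNat_mem _ 28)))
    (neg_mem (pow_mem hum 2)) ?_
  have h2 := m59h2_hc_rel u hu hhes
  set s := mu ^ 3 - 1 with hsdef
  set w := s⁻¹ with hw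
  have hsw : s * w = 1 := mul_inv_cancel₀ hs
  -- `(1 + w)(1 + 9w)³ = U j₃ w`
  have h3 : (1 + w) * (1 + 9 * w) ^ 3 = U * j3 * w := by
    have e1 : (1 + w) * (1 + 9 * w) ^ 3 = ((s + 1) * (s + 9) ^ 3) * w ^ 4 := by
      have a1 : 1 + w = (s + 1) * w := by rw [add_mul, hsw, one_mul]
      have a2 : 1 + 9 * w = (s + 9) * w := by rw [add_mul, hsw]
      rw [a1, a2]; ring
    rw [e1, h2]
    have : s ^ 3 * w ^ 4 = w := by
      have : s ^ 3 * w ^ 4 = (s * w) ^ 3 * w := by ring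
      rw [this, hsw, one_pow, one_mul]
    rw [mul_assoc, this]
  have h729 : U ^ 2 * 729 = 1 := by
    have : U ^ 2 * 729 = (U * 27) ^ 2 := by ring
    rw [this, hu', one_pow]
  have h972 : U ^ 2 * 972 = 36 * U := by
    have : U ^ 2 * 972 = 36 * U * (U * 27) := by ring
    rw [this, hu', mul_one]
  have h270 : U ^ 2 * 270 = 10 * U := by
    have : U ^ 2 * 270 = 10 * U * (U * 27) := by ring
    rw [this, hu', mul_one]
  have h4 : w ^ 4 = (U ^ 2 * 729) * w ^ 4 := by rw [h729, one_mul]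
  have h5 : 729 * w ^ 4 = -972 * w ^ 3 - 270 * w ^ 2 + (U * j3 - 28) * w - 1 := by
    linear_combination h3
  calc w ^ 4 = (U ^ 2 * 729) * w ^ 4 := h4
    _ = U ^ 2 * (729 * w ^ 4) := by ring
    _ = U ^ 2 * (-972 * w ^ 3 - 270 * w ^ 2 + (U * j3 - 28) * w - 1) := by rw [h5]
    _ = -(U ^ 2 * 972) * w ^ 3 + -(U ^ 2 * 270) * w ^ 2 + U ^ 2 * (U * j3 - 28) * w
        + -(U ^ 2) := by ring
    _ = -(36 * U) * w ^ 3 + -(10 * U) * w ^ 2 + U ^ 2 * (U * j3 - 28) * w + -(U ^ 2) := by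
        rw [h972, h270]

include hu in
/-- `μ` is integral over `A0[j₃]`. -/
theorem m59h2_hc_mu_integral
    (hhes : 27 * mu ^ 3 * (mu ^ 3 + 8) ^ 3 = j3 * (mu ^ 3 - 1) ^ 3) :
    IsIntegral (Algebra.adjoin A0 ({j3} : Set F0)) mu := by
  have hs := m59h2_hc_s_integral u hu hhes
  have h1 : IsIntegral (integralClosure (Algebra.adjoin A0 ({j3} : Set F0)) F0) mu := by
    have hq := s44mz_integral_cubic (A0 := Algebra.adjoin A0 ({j3} : Set F0))
      (integralClosure (Algebra.adjoin A0 ({j3} : Set F0)) F0)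
      (x := mu) (a := 0) (b := 0) (c := (mu ^ 3 - 1) + 1) (zero_mem _) (zero_mem _)
      (add_mem hs (one_mem _)) (by ring)
    exact hq
  exact isIntegral_trans (R := Algebra.adjoin A0 ({j3} : Set F0))
    (A := integralClosure (Algebra.adjoin A0 ({j3} : Set F0)) F0) mu h1

include hu in
/-- **the `x`-chart is contained in the `j₃`-chart.** -/
theorem m59h2_hc_chart_le (hmx : mu = x + 1)
    (hhes : 27 * mu ^ 3 * (mu ^ 3 + 8) ^ 3 = j3 * (mu ^ 3 - 1) ^ 3) :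
    fc_chart A0 ({x} : Set F0) ≤ fc_chart A0 ({j3} : Set F0) := by
  intro z hz
  rw [fc_mem_chart] at hz ⊢
  have hmu : mu ∈ fc_chart A0 ({j3} : Set F0) := fc_mem_chart.2 (m59h2_hc_mu_integral u hu hhes)
  have hxm : x ∈ fc_chart A0 ({j3} : Set F0) := by
    have : x = mu - 1 := by rw [hmx]; ring
    rw [this]
    exact sub_mem hmu (one_mem _)
  have hle : Algebra.adjoin A0 ({x} : Set F0) ≤ fc_chart A0 ({j3} : Set F0) := by
    rw [Algebra.adjoin_le_iff, Set.singleton_subset_iff]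
    exact hxm
  have h1 : IsIntegral (integralClosure (Algebra.adjoin A0 ({j3} : Set F0)) F0) z := by
    have := IsIntegral.map_of_comp_eq (R := Algebra.adjoin A0 ({x} : Set F0)) (S := F0)
      (T := integralClosure (Algebra.adjoin A0 ({j3} : Set F0)) F0) (U := F0)
      (Subalgebra.inclusion hle).toRingHom (RingHom.id F0) (by ext r; rfl) hz
    exact this
  exact isIntegral_trans (R := Algebra.adjoin A0 ({j3} : Set F0))
    (A := integralClosure (Algebra.adjoin A0 ({j3} : Set F0)) F0) z h1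

/-- `sⁿ c ∈ A0[x]` for `c ∈ A0[x, j₃]` and `n` large. -/
theorem m59h2_hc_adjoin_clear (hmx : mu = x + 1)
    (hhes : 27 * mu ^ 3 * (mu ^ 3 + 8) ^ 3 = j3 * (mu ^ 3 - 1) ^ 3) :
    ∀ c ∈ Algebra.adjoin A0 ({x, j3} : Set F0), ∃ k : ℕ, ∀ n, k ≤ n →
      (mu ^ 3 - 1) ^ n * c ∈ Algebra.adjoin A0 ({x} : Set F0) := by
  have hxmem : x ∈ Algebra.adjoin A0 ({x} : Set F0) := Algebra.subset_adjoin rfl
  have hmumem : mu ∈ Algebra.adjoin A0 ({x} : Set F0) := by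
    rw [hmx]; exact add_mem hxmem (one_mem _)
  have hsmem : mu ^ 3 - 1 ∈ Algebra.adjoin A0 ({x} : Set F0) :=
    sub_mem (pow_mem hmumem 3) (one_mem _)
  intro c hc
  induction hc using Algebra.adjoin_induction with
  | mem y hy =>
    rcases hy with rfl | hy
    · exact ⟨0, fun n _ => mul_mem (pow_mem hsmem n) hxmem⟩
    · rw [Set.mem_singleton_iff] at hy
      subst hy
      refine ⟨3, fun n hn => ?_⟩
      obtain ⟨j, rfl⟩ := Nat.exists_eq_add_of_le hn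
      have : (mu ^ 3 - 1) ^ (3 + j) * y =
          (mu ^ 3 - 1) ^ j * (27 * mu ^ 3 * (mu ^ 3 + 8) ^ 3) := by
        rw [hhes, pow_add]; ring
      rw [this]
      exact mul_mem (pow_mem hsmem j)
        (mul_mem (mul_mem (m59h2_hc_ofNat_mem _ 27) (pow_mem hmumem 3))
          (pow_mem (add_mem (pow_mem hmumem 3) (m59h2_hc_ofNat_mem _ 8)) 3))
  | algebraMap a =>
    exact ⟨0, fun n _ => mul_mem (pow_mem hsmem n) (Subalgebra.algebraMap_mem _ a)⟩
  | add c1 c2 _ _ h1 h2 =>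
    obtain ⟨k1, h1⟩ := h1
    obtain ⟨k2, h2⟩ := h2
    refine ⟨max k1 k2, fun n hn => ?_⟩
    rw [mul_add]
    exact add_mem (h1 n ((le_max_left _ _).trans hn)) (h2 n ((le_max_right _ _).trans hn))
  | mul c1 c2 _ _ h1 h2 =>
    obtain ⟨k1, h1⟩ := h1
    obtain ⟨k2, h2⟩ := h2
    refine ⟨k1 + k2, fun n hn => ?_⟩
    obtain ⟨j, rfl⟩ := Nat.exists_eq_add_of_le hn
    have : (mu ^ 3 - 1) ^ (k1 + k2 + j) * (c1 * c2) =
        ((mu ^ 3 - 1) ^ k1 * c1) * ((mu ^ 3 - 1) ^ (k2 + j) * c2) := by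
      rw [pow_add, pow_add, pow_add]; ring
    rw [this]
    exact mul_mem (h1 k1 le_rfl) (h2 (k2 + j) (Nat.le_add_right _ _))

/-- **`S = B[1/s]`**: every element of the `j₃`-chart becomes integral over `A0[x]` after
multiplication by a power of `s = μ³ − 1`. -/
theorem m59h2_hc_clear (hmx : mu = x + 1)
    (hhes : 27 * mu ^ 3 * (mu ^ 3 + 8) ^ 3 = j3 * (mu ^ 3 - 1) ^ 3)
    {z : F0} (hz : z ∈ fc_chart A0 ({j3} : Set F0)) :
    ∃ k : ℕ, (mu ^ 3 - 1) ^ k * z ∈ fc_chart A0 ({x} : Set F0) := by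
  have hz' : IsIntegral (Algebra.adjoin A0 ({x, j3} : Set F0)) z := by
    have := fc_chart_mono (A0 := A0) (S := ({j3} : Set F0)) (T := ({x, j3} : Set F0))
      (by intro y hy; rw [Set.mem_singleton_iff] at hy; rw [hy]; exact Set.mem_insert_of_mem _ rfl)
      hz
    exact this
  have hxmem : x ∈ Algebra.adjoin A0 ({x, j3} : Set F0) :=
    Algebra.subset_adjoin (Set.mem_insert _ _)
  have hmumem : mu ∈ Algebra.adjoin A0 ({x, j3} : Set F0) := by
    rw [hmx]; exact add_mem hxmem (one_mem _)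
  exact fc_clear_aux (Algebra.adjoin A0 ({x} : Set F0)) (Algebra.adjoin A0 ({x, j3} : Set F0))
    (mu ^ 3 - 1) (sub_mem (pow_mem hmumem 3) (one_mem _)) (m59h2_hc_adjoin_clear hmx hhes) hz'

/-- **`W j₃` lies in the `j₃`-chart**, from the integrality package of `(x, W x)` and `(t, W t)`,
`t = μ² + μ + 1`: abstract form. -/
theorem m59h2_hc_j3q_mem {q : ℕ} {xq muq j3q : F0} (S : Subalgebra A0 F0) (hmx : mu = x + 1)
    (hmxq : muq = xq + 1) (hxS : x ∈ S)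
    (hs : mu ^ 3 - 1 ≠ 0) (hsinv : (mu ^ 3 - 1)⁻¹ ∈ S) (hxq : xq ∈ S)
    (hw0 : x ^ q / xq ∈ S)
    (hw1 : (mu ^ 2 + mu + 1) ^ q / (muq ^ 2 + muq + 1) ∈ S)
    (hxq0 : xq ≠ 0) (htq0 : muq ^ 2 + muq + 1 ≠ 0)
    (hhesq : 27 * muq ^ 3 * (muq ^ 3 + 8) ^ 3 = j3q * (muq ^ 3 - 1) ^ 3) : j3q ∈ S := by
  have h1S : (1 : F0) ∈ S := one_mem _
  have hmuS : mu ∈ S := by rw [hmx]; exact add_mem hxS h1S
  have hmuqS : muq ∈ S := by rw [hmxq]; exact add_mem hxq h1S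
  set t : F0 := mu ^ 2 + mu + 1 with ht
  set tq : F0 := muq ^ 2 + muq + 1 with htq
  have hst : mu ^ 3 - 1 = x * t := by rw [ht, hmx]; ring
  have hstq : muq ^ 3 - 1 = xq * tq := by rw [htq, hmxq]; ring
  have hx0 : x ≠ 0 := by
    intro h
    apply hs
    rw [hst, h, zero_mul]
  have ht0 : t ≠ 0 := by
    intro h
    apply hs
    rw [hst, h, mul_zero]
  have htS : t ∈ S := add_mem (add_mem (pow_mem hmuS 2) hmuS) h1S
  have hxinv : x⁻¹ ∈ S := by
    have e : x⁻¹ = t * (mu ^ 3 - 1)⁻¹ := by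
      rw [hst, mul_inv, mul_comm x⁻¹, ← mul_assoc, mul_inv_cancel₀ ht0, one_mul]
    rw [e]
    exact mul_mem htS hsinv
  have htinv : t⁻¹ ∈ S := by
    have e : t⁻¹ = x * (mu ^ 3 - 1)⁻¹ := by
      rw [hst, mul_inv, ← mul_assoc, mul_inv_cancel₀ hx0, one_mul]
    rw [e]
    exact mul_mem hxS hsinv
  have ha : xq⁻¹ ∈ S := by
    have e : xq⁻¹ = (x ^ q / xq) * x⁻¹ ^ q := by
      rw [inv_pow, div_eq_mul_inv, mul_comm (x ^ q), mul_assoc,
        mul_inv_cancel₀ (pow_ne_zero q hx0), mul_one]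
    rw [e]
    exact mul_mem hw0 (pow_mem hxinv q)
  have hb : tq⁻¹ ∈ S := by
    have e : tq⁻¹ = (t ^ q / tq) * t⁻¹ ^ q := by
      rw [inv_pow, div_eq_mul_inv, mul_comm (t ^ q), mul_assoc,
        mul_inv_cancel₀ (pow_ne_zero q ht0), mul_one]
    rw [e]
    exact mul_mem hw1 (pow_mem htinv q)
  have h27 : (27 : F0) ∈ S := m59h2_hc_ofNat_mem _ 27
  have h8 : (8 : F0) ∈ S := m59h2_hc_ofNat_mem _ 8
  have e : j3q = 27 * muq ^ 3 * (muq ^ 3 + 8) ^ 3 * xq⁻¹ ^ 3 * tq⁻¹ ^ 3 := by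
    rw [hhesq, hstq]
    field_simp
  rw [e]
  exact mul_mem (mul_mem (mul_mem (mul_mem h27 (pow_mem hmuqS 3))
    (pow_mem (add_mem (pow_mem hmuqS 3) h8) 3)) (pow_mem ha 3)) (pow_mem hb 3)

end Hes

section FunField

open IntermediateField

variable {A0 L : Type*} {F0 : Type v} [CommRing A0] [IsDomain A0] [IsDiscreteValuationRing A0]
  [Field L] [Field F0] [Algebra A0 L] [IsFractionRing A0 L] [Algebra L F0] [Algebra A0 F0]
  [IsScalarTower A0 L F0]

/-- `s = μ³ − 1 = x³ + 3x² + 3x ≠ 0` for `x` transcendental. -/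
theorem m59h2_hc_s_ne_zero {x mu : F0} (hx : Transcendental L x) (hmx : mu = x + 1) :
    mu ^ 3 - 1 ≠ 0 := by
  intro h0
  apply hx
  refine ⟨(X + 1) ^ 3 - 1, ?_, ?_⟩
  · intro h
    have := congrArg (fun P : L[X] => P.eval 0 - P.eval (-1)) h
    simp at this
  · simp only [map_sub, map_pow, map_add, aeval_X, map_one]
    rw [← hmx]; exact h0

/-- **the `j₃`-chart `S = B_x[1/(μ³ − 1)]` is a chart over `A0[x]`** in the sense of [TP]. -/
theorem m59h2_hc_chart {π : A0} (hπ : Irreducible π) {x mu j3 : F0} (hx : Transcendental L x)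
    (hmx : mu = x + 1)
    (hhes : 27 * mu ^ 3 * (mu ^ 3 + 8) ^ 3 = j3 * (mu ^ 3 - 1) ^ 3)
    (u : A0) (hu : u * 27 = 1) :
    ssm_tp_Chart (algebraMap A0 (Algebra.adjoin A0 ({x} : Set F0)) π)
      (fc_chart A0 ({j3} : Set F0)) := by
  have hxA : Transcendental A0 x := fc_ff_transcendental (L := L) hx
  have hp := (sfc_ff_prime_pi hπ hxA).1
  have hs0 : mu ^ 3 - 1 ≠ 0 := m59h2_hc_s_ne_zero (L := L) hx hmx
  set xR : Algebra.adjoin A0 ({x} : Set F0) := ⟨x, Algebra.subset_adjoin rfl⟩ with hxR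
  set sR : Algebra.adjoin A0 ({x} : Set F0) := (xR + 1) ^ 3 - 1 with hsR
  have hsRcoe : (sR : F0) = mu ^ 3 - 1 := by
    rw [hmx]; rfl
  have hsRdvd : ¬ algebraMap A0 (Algebra.adjoin A0 ({x} : Set F0)) π ∣ sR := by
    refine s44mz_not_dvd_monic hπ.not_isUnit hxA ((X + 1) ^ 3 - 1) ?_ sR ?_
    · have h1 : ((X + 1 : A0[X]) ^ 3 - 1) = X ^ 3 + (3 * X ^ 2 + 3 * X) := by ring
      rw [h1]
      refine monic_X_pow_add ?_
      refine lt_of_le_of_lt (degree_add_le _ _) (max_lt ?_ ?_)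
      · have : (3 * X ^ 2 : A0[X]) = C 3 * X ^ 2 := by rw [map_ofNat C 3]
        rw [this]
        exact lt_of_le_of_lt (degree_C_mul_X_pow_le 2 _) (by norm_num)
      · have : (3 * X : A0[X]) = C 3 * X := by rw [map_ofNat C 3]
        rw [this]
        exact lt_of_le_of_lt (degree_C_mul_X_le _) (by norm_num)
    · rw [hsRcoe, hmx]; simp
  refine ⟨fun z hz => m59h2_hc_chart_le u hu hmx hhes hz, fun b hb => ?_⟩
  obtain ⟨k, hk⟩ := m59h2_hc_clear hmx hhes hb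
  refine ⟨sR ^ k, fun hd => hsRdvd (hp.dvd_of_dvd_pow hd), ?_, ?_⟩
  · rw [map_pow, ← inv_pow]
    refine (fc_chart A0 ({j3} : Set F0)).pow_mem ?_ k
    show (sR : F0)⁻¹ ∈ fc_chart A0 ({j3} : Set F0)
    rw [hsRcoe]
    exact m59h2_hc_sinv_integral u hu hhes hs0
  · rw [map_pow]
    show (sR : F0) ^ k * b ∈ fc_chart A0 ({x} : Set F0)
    rw [hsRcoe]
    exact hk

end FunField

end Fermat.Agent.M59
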