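/-
M59 / box [C] Mazur at `q = 2`, HESSE PORT, cluster B-UDIV (helper28).  Prefix `m59h2_`.

Twin of `S44/Mono/Centre.lean` (cell [H2-N], step (N2) "THE CENTRE"): A SUPERSINGULAR POINT OF THE HESSE
MODEL LIES ON BOTH COMPONENTS.

Setting of `ssm_fh_*`: `O ⊆ L` a DVR of residue characteristic `q ≠ 3`, `q ∤ N'`, `3 ∈ Oˣ`,
`E = hs_E L h3 (N' q)`, `V₁ = ssm_fh_V1` (Gauss), `V₂ = ssm_fh_V2 = W_E⁻¹ V₁`, `φ = hs_phiE` (`X ↦ X³`)
the embedding of the base field `F = lg_F L (N' q)`, `j_F = rpz_jF`, `φ j_F = j₃`; chart coordinate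
`x = μ - 1`.

* `m59h2_s44mz_P2_le`, `m59h2_s44mz_P2_le_chart` : as on main, with the `x`-chart.
-/
import Mathlib
import Fermat.Agent.S44.Mono.Centre
import Fermat.Agent.M59.Hesse2.Mono.HesChart
import Fermat.Agent.M59.Hesse2.Res.HesOrdAux

set_option autoImplicit false
set_option linter.unusedSectionVars false
set_option linter.style.haveILetI false
set_option linter.unusedVariables false

noncomputable section

namespace Fermat.Agent.M59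

open Polynomial ModularCurve IntermediateField IsLocalRing
open Fermat.Agent.JT3 Fermat.Agent.SS Fermat.Agent.S35 Fermat.Agent.S44

section Hesse

variable {L : Type*} [Field L] [CharZero L] [Algebra L (AlgebraicClosure ℚ)] (h3 : (3 : L) ≠ 0)
  (O : ValuationSubring L) [IsDiscreteValuationRing O] (h3O : IsUnit (3 : O)) {π : O}
  (hπ : Irreducible π)
variable (N' q : ℕ) [NeZero N'] [NeZero q] [hq : Fact q.Prime] [CharP (ResidueField O) q]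
  (hq3 : ¬ 3 ∣ q) (hqN' : ¬ q ∣ N')

variable (L) in
/-- `j₃ = j(X³)` as an element of `E = hs_E L h3 N`. -/
abbrev m59h2_s44mz_j2E (N : ℕ) [NeZero N] : ↥(hs_E L h3 N) := ⟨hs_j3 L, hs_j3_mem_E L h3 N⟩

variable (L) in
omit [CharZero L] [Algebra L (AlgebraicClosure ℚ)] in
/-- the Hesse relation in `E`. -/
theorem m59h2_s44mz_legE (N : ℕ) [NeZero N] :
    27 * (hs_muE h3 N : ↥(hs_E L h3 N)) ^ 3 * ((hs_muE h3 N : ↥(hs_E L h3 N)) ^ 3 + 8) ^ 3 =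
      m59h2_s44mz_j2E L h3 N * ((hs_muE h3 N : ↥(hs_E L h3 N)) ^ 3 - 1) ^ 3 :=
  Subtype.ext (hs_hesse' L h3)

include h3O in
omit [CharZero L] [Algebra L (AlgebraicClosure ℚ)] [IsDiscreteValuationRing ↥O] in
/-- `27` is invertible in `O`. -/
theorem m59h2_s44mz_exists_u : ∃ u : O, u * 27 = 1 := by
  have h27 : IsUnit (27 : O) := by
    have : (27 : O) = 3 ^ 3 := by norm_num
    rw [this]
    exact IsUnit.pow 3 h3O
  obtain ⟨v, hv⟩ := h27.exists_left_inv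
  exact ⟨v, hv⟩

/-- `φ = (X ↦ X³)` as an `O`-algebra homomorphism `F_N → E_N`. -/
def m59h2_s44mz_phiO (N : ℕ) [NeZero N] : ↥(lg_F L N) →ₐ[O] ↥(hs_E L h3 N) :=
  haveI := ssm_go_isScalarTower O (lg_F L N)
  haveI := ssm_go_isScalarTower O (hs_E L h3 N)
  (hs_phiE h3 (N := N)).restrictScalars O

theorem m59h2_s44mz_phiO_apply (N : ℕ) [NeZero N] (x : ↥(lg_F L N)) :
    m59h2_s44mz_phiO h3 O N x = hs_phiE h3 (N := N) x := rfl

theorem m59h2_s44mz_phiO_j (N : ℕ) [NeZero N] :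
    m59h2_s44mz_phiO h3 O N (rpz_jF L N) = m59h2_s44mz_j2E L h3 N :=
  Subtype.ext rfl

theorem m59h2_s44mz_image_j (N : ℕ) [NeZero N] :
    (m59h2_s44mz_phiO h3 O N) '' ({rpz_jF L N} : Set ↥(lg_F L N)) = {m59h2_s44mz_j2E L h3 N} := by
  rw [Set.image_singleton, m59h2_s44mz_phiO_j]

include hπ h3O in
/-- the `j₃`-chart of `E = hs_E L h3 (N' q)` is a chart over `O[x]`. -/
theorem m59h2_s44mz_chartS :
    ssm_tp_Chart
      (algebraMap ↥O (Algebra.adjoin ↥O ({hs_muE h3 (N' * q) - 1} :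
        Set ↥(hs_E L h3 (N' * q)))) π)
      (fc_chart ↥O ({m59h2_s44mz_j2E L h3 (N' * q)} : Set ↥(hs_E L h3 (N' * q)))) := by
  haveI := ssm_go_isScalarTower O (hs_E L h3 (N' * q))
  obtain ⟨u, hu⟩ := m59h2_s44mz_exists_u O h3O
  exact m59h2_hc_chart (L := L) hπ (ssm_sgm_transcendental h3 (N' * q))
    (sub_add_cancel _ _).symm (m59h2_s44mz_legE L h3 (N' * q)) u hu

include hπ h3O in
/-- **`W_E j₃` is integral over `O[j₃]`.** -/
theorem m59h2_s44mz_Wj2_mem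
    (hprime : Prime (algebraMap ↥O
      (fc_chart ↥O ({hs_muE h3 N' - 1} : Set ↥(hs_E L h3 N'))) π)) :
    ssm_fh_W h3 N' q hq3 hqN' (m59h2_s44mz_j2E L h3 (N' * q)) ∈
      fc_chart ↥O ({m59h2_s44mz_j2E L h3 (N' * q)} : Set ↥(hs_E L h3 (N' * q))) := by
  haveI := ssm_go_isScalarTower O (hs_E L h3 (N' * q))
  obtain ⟨u, hu⟩ := m59h2_s44mz_exists_u O h3O
  have F := ssm_fh_facts h3 O h3O hπ N' q hq3 hqN' hprime
  have hleg := m59h2_s44mz_legE L h3 (N' * q)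
  have hmx : (hs_muE h3 (N' * q) : ↥(hs_E L h3 (N' * q))) = (hs_muE h3 (N' * q) - 1) + 1 :=
    (sub_add_cancel _ _).symm
  have hle := m59h2_hc_chart_le (A0 := ↥O) u hu hmx hleg
  have hx : Transcendental L (hs_muE h3 (N' * q) - 1 : ↥(hs_E L h3 (N' * q))) :=
    ssm_sgm_transcendental h3 (N' * q)
  have hs0 : (hs_muE h3 (N' * q) : ↥(hs_E L h3 (N' * q))) ^ 3 - 1 ≠ 0 :=
    m59h2_hc_s_ne_zero (L := L) hx hmx
  set W := ssm_fh_W h3 N' q hq3 hqN' with hW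
  have hx0 : (hs_muE h3 (N' * q) - 1 : ↥(hs_E L h3 (N' * q))) ≠ 0 := by
    intro h
    apply hx
    rw [h]
    exact isAlgebraic_zero
  have ht0 : (hs_muE h3 (N' * q) : ↥(hs_E L h3 (N' * q))) ^ 2 + hs_muE h3 (N' * q) + 1 ≠ 0 := by
    intro h
    apply hs0
    have : (hs_muE h3 (N' * q) : ↥(hs_E L h3 (N' * q))) ^ 3 - 1 =
        (hs_muE h3 (N' * q) - 1) * (hs_muE h3 (N' * q) ^ 2 + hs_muE h3 (N' * q) + 1) := by ring
    rw [this, h, mul_zero]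
  refine m59h2_hc_j3q_mem (A0 := ↥O) (q := q) (x := hs_muE h3 (N' * q) - 1)
    (mu := hs_muE h3 (N' * q)) (xq := W (hs_muE h3 (N' * q)) - 1) (muq := W (hs_muE h3 (N' * q)))
    (fc_chart ↥O ({m59h2_s44mz_j2E L h3 (N' * q)} : Set ↥(hs_E L h3 (N' * q))))
    hmx (sub_add_cancel _ _).symm (hle (fc_x_mem_chart _)) hs0
    (m59h2_hc_sinv_integral u hu hleg hs0) (hle F.xq_mem) (hle F.w0) (hle F.w1) ?_ ?_ ?_
  · intro h
    apply hx0
    apply W.injective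
    rw [map_sub, map_one, map_zero]
    exact h
  · intro h
    apply ht0
    apply W.injective
    rw [map_add, map_add, map_pow, map_one, map_zero]
    exact h
  · have := congrArg W hleg
    simpa only [map_mul, map_pow, map_sub, map_add, map_one, map_ofNat] using this

/-! ### the base `j`-chart and the map `φ` between the `j`-charts -/

/-- `φ x` lies on the Hesse `j`-chart iff `x` lies on the base `j`-chart. -/
theorem m59h2_s44mz_phi_mem_iff (N : ℕ) [NeZero N] (x : ↥(lg_F L N)) :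
    m59h2_s44mz_phiO h3 O N x ∈
        fc_chart ↥O ({m59h2_s44mz_j2E L h3 N} : Set ↥(hs_E L h3 N)) ↔
      x ∈ fc_chart ↥O ({rpz_jF L N} : Set ↥(lg_F L N)) := by
  rw [fc_mem_chart, fc_mem_chart, ← m59h2_s44mz_image_j h3 O N]
  exact ⟨s44mz_isIntegral_of_map _ _, s44mz_isIntegral_map _ _⟩

/-- `φ` between the `j`-charts. -/
def m59h2_s44mz_f (N : ℕ) [NeZero N] :
    ↥(fc_chart ↥O ({rpz_jF L N} : Set ↥(lg_F L N))) →ₐ[↥O]
      ↥(fc_chart ↥O ({m59h2_s44mz_j2E L h3 N} : Set ↥(hs_E L h3 N))) :=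
  ((m59h2_s44mz_phiO h3 O N).comp (fc_chart ↥O ({rpz_jF L N} : Set ↥(lg_F L N))).val).codRestrict
    (fc_chart ↥O ({m59h2_s44mz_j2E L h3 N} : Set ↥(hs_E L h3 N)))
    (fun x => (m59h2_s44mz_phi_mem_iff h3 O N (x : ↥(lg_F L N))).2 x.2)

theorem m59h2_s44mz_f_coe (N : ℕ) [NeZero N]
    (x : ↥(fc_chart ↥O ({rpz_jF L N} : Set ↥(lg_F L N)))) :
    ((m59h2_s44mz_f h3 O N x :
      ↥(fc_chart ↥O ({m59h2_s44mz_j2E L h3 N} : Set ↥(hs_E L h3 N)))) : ↥(hs_E L h3 N)) =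
      hs_phiE h3 (N := N) (x : ↥(lg_F L N)) := rfl

theorem m59h2_s44mz_f_injective (N : ℕ) [NeZero N] :
    Function.Injective (m59h2_s44mz_f h3 O N) := by
  intro x y hxy
  apply Subtype.ext
  have := congrArg (fun z : ↥(fc_chart ↥O ({m59h2_s44mz_j2E L h3 N} : Set ↥(hs_E L h3 N))) =>
    (z : ↥(hs_E L h3 N))) hxy
  simp only [m59h2_s44mz_f_coe] at this
  exact (hs_phiE h3 (N := N)).toRingHom.injective this

/-- the Hesse `j`-chart is integral over the base `j`-chart. -/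
theorem m59h2_s44mz_f_isIntegral (N : ℕ) [NeZero N] :
    (m59h2_s44mz_f h3 O N).toRingHom.IsIntegral := by
  intro s'
  have hs : IsIntegral
      (Algebra.adjoin ↥O ((m59h2_s44mz_phiO h3 O N) '' ({rpz_jF L N} : Set ↥(lg_F L N))))
      (s' : ↥(hs_E L h3 N)) := by
    rw [m59h2_s44mz_image_j h3 O N]
    exact s'.2
  obtain ⟨p, hp, hps⟩ := hs
  obtain ⟨p0, hp0map, -, hp0m⟩ := Polynomial.lifts_and_degree_eq_and_monic
    ((Polynomial.mem_lifts _).2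
      (Polynomial.map_surjective
        (s44mz_adjoinMap (m59h2_s44mz_phiO h3 O N) ({rpz_jF L N} : Set ↥(lg_F L N))).toRingHom
        (s44mz_adjoinMap_surjective (m59h2_s44mz_phiO h3 O N)
          ({rpz_jF L N} : Set ↥(lg_F L N))) p)) hp
  set ι : ↥(Algebra.adjoin ↥O ({rpz_jF L N} : Set ↥(lg_F L N))) →+*
      ↥(fc_chart ↥O ({rpz_jF L N} : Set ↥(lg_F L N))) :=
    (Subalgebra.inclusion (fc_adjoin_le_chart (A0 := ↥O) _)).toRingHom with hι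
  refine ⟨p0.map ι, hp0m.map ι, ?_⟩
  apply Subtype.ext
  have h1 : (((eval₂ (m59h2_s44mz_f h3 O N).toRingHom s' (p0.map ι) :
      ↥(fc_chart ↥O ({m59h2_s44mz_j2E L h3 N} : Set ↥(hs_E L h3 N))))) : ↥(hs_E L h3 N)) =
      (fc_chart ↥O ({m59h2_s44mz_j2E L h3 N} : Set ↥(hs_E L h3 N))).val.toRingHom
        (eval₂ (m59h2_s44mz_f h3 O N).toRingHom s' (p0.map ι)) := rfl
  rw [h1, Polynomial.hom_eval₂, Polynomial.eval₂_map]
  have hcomp : (((fc_chart ↥O ({m59h2_s44mz_j2E L h3 N} : Set ↥(hs_E L h3 N))).val.toRingHom.comp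
      (m59h2_s44mz_f h3 O N).toRingHom).comp ι) =
      (algebraMap (Algebra.adjoin ↥O ((m59h2_s44mz_phiO h3 O N) ''
          ({rpz_jF L N} : Set ↥(lg_F L N))))
        ↥(hs_E L h3 N)).comp
        (s44mz_adjoinMap (m59h2_s44mz_phiO h3 O N) ({rpz_jF L N} : Set ↥(lg_F L N))).toRingHom := by
    ext r; rfl
  rw [hcomp, ← Polynomial.eval₂_map, hp0map]
  exact hps

/-! ### the two Gauss valuations and `φ` -/

/-- `φ x ∈ 𝔪(V₁) ↔ x ∈ 𝔪(V_F)`. -/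
theorem m59h2_s44mz_phi_nonunits_iff (x : ↥(lg_F L (N' * q))) :
    hs_phiE h3 (N := N' * q) x ∈ (ssm_fh_V1 h3 O h3O hπ N' q).nonunits ↔
      x ∈ (s44mz_VF O hπ N' q).nonunits := by
  have hπ0 := hπ.ne_zero
  have hπm := hπ.maximalIdeal_eq
  have hquot : gq_IsQuot ↥O L (x : LaurentSeries L) := rdn_gf_le_quotField O (N' * q) x.2
  have hcoe : ((hs_phiE h3 (N := N' * q) x : ↥(hs_E L h3 (N' * q))) : LaurentSeries L) =
      qExpand L 3 (x : LaurentSeries L) := rfl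
  constructor
  · intro hy
    have hyb : gq_IsBdd ↥O L
        ((hs_phiE h3 (N := N' * q) x : ↥(hs_E L h3 (N' * q))) : LaurentSeries L) :=
      ValuationSubring.nonunits_subset hy
    have hb : gq_IsBdd ↥O L (x : LaurentSeries L) :=
      (ssm_ga_beta_isBdd_iff 3 π hπ0 hπm hquot).1 (hcoe ▸ hyb)
    rw [gq_mem_nonunits_iff_res π hπ0 hπm _ _ x hb]
    have h0 := (gq_mem_nonunits_iff_res π hπ0 hπm _ _ (hs_phiE h3 (N := N' * q) x) hyb).1 hy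
    have h1 := ssm_ga_res_beta 3 (⟨(x : LaurentSeries L), hb⟩ : ↥(gq_bddSubring ↥O L))
    have h2 : qExpand (ResidueField ↥O) 3 (gq_res ↥O L ⟨(x : LaurentSeries L), hb⟩) = 0 := by
      rw [← h1]; exact h0
    exact qExpand_injective 3 (by rw [h2, map_zero])
  · intro hx
    have hb : gq_IsBdd ↥O L (x : LaurentSeries L) := ValuationSubring.nonunits_subset hx
    have hyb : gq_IsBdd ↥O L
        ((hs_phiE h3 (N := N' * q) x : ↥(hs_E L h3 (N' * q))) : LaurentSeries L) :=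
      ssm_ga_beta_isBdd 3 hb
    rw [gq_mem_nonunits_iff_res π hπ0 hπm _ _ (hs_phiE h3 (N := N' * q) x) hyb]
    have h0 := (gq_mem_nonunits_iff_res π hπ0 hπm _ _ x hb).1 hx
    have h1 := ssm_ga_res_beta 3 (⟨(x : LaurentSeries L), hb⟩ : ↥(gq_bddSubring ↥O L))
    have h2 : gq_res ↥O L ⟨((hs_phiE h3 (N := N' * q) x : ↥(hs_E L h3 (N' * q))) :
        LaurentSeries L), hyb⟩ =
        qExpand (ResidueField ↥O) 3 (gq_res ↥O L ⟨(x : LaurentSeries L), hb⟩) := h1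
    rw [h2, h0, map_zero]

/-- `W_E ∘ φ = φ ∘ W`. -/
theorem m59h2_s44mz_W_phi (x : ↥(lg_F L (N' * q))) :
    ssm_fh_W h3 N' q hq3 hqN' (hs_phiE h3 (N := N' * q) x) =
      hs_phiE h3 (N := N' * q) (ssm_al_W L N' q hq.out hqN' x) :=
  Subtype.ext (m59h2_s44ro_W_phi L h3 N' q hq3 hqN' x)

/-- `φ x ∈ 𝔪(V₂) ↔ W x ∈ 𝔪(V_F)`. -/
theorem m59h2_s44mz_phi_nonunits2_iff (x : ↥(lg_F L (N' * q))) :
    hs_phiE h3 (N := N' * q) x ∈ (ssm_fh_V2 h3 O h3O hπ N' q hq3 hqN').nonunits ↔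
      ssm_al_W L N' q hq.out hqN' x ∈ (s44mz_VF O hπ N' q).nonunits := by
  rw [ssm_tw_nonunits_comap, m59h2_s44mz_W_phi, m59h2_s44mz_phi_nonunits_iff]

/-! ### the main theorem -/

set_option maxHeartbeats 1600000 in
set_option synthInstance.maxHeartbeats 200000 in
/-- **(N2), valuation form**, Hesse cover. -/
theorem m59h2_s44mz_P2_le
    (hprime : Prime (algebraMap ↥O
      (fc_chart ↥O ({hs_muE h3 N' - 1} : Set ↥(hs_E L h3 N'))) π))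
    (𝒱 : ValuationSubring ↥(hs_E L h3 (N' * q)))
    (hO𝒱 : ∀ a : O, algebraMap ↥O ↥(hs_E L h3 (N' * q)) a ∈ 𝒱)
    (hj : m59h2_s44mz_j2E L h3 (N' * q) ∈ 𝒱)
    (hSS : ∀ b : ↥(lg_F L (N' * q)),
      b ∈ fc_chart ↥O ({rpz_jF L (N' * q)} : Set ↥(lg_F L (N' * q))) →
      ssm_al_W L N' q hq.out hqN' b ∈ (s44mz_VF O hπ N' q).nonunits →
      hs_phiE h3 (N := N' * q) b ∈ 𝒱.nonunits) :
    ∀ t ∈ fc_chart ↥O ({m59h2_s44mz_j2E L h3 (N' * q)} : Set ↥(hs_E L h3 (N' * q))),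
      t ∈ (ssm_fh_V2 h3 O h3O hπ N' q hq3 hqN').nonunits → t ∈ 𝒱.nonunits := by
  intro t htS ht2
  haveI := ssm_go_isScalarTower O (hs_E L h3 (N' * q))
  have hx : Transcendental L (hs_muE h3 (N' * q) - 1 : ↥(hs_E L h3 (N' * q))) :=
    ssm_sgm_transcendental h3 (N' * q)
  have hyA : Transcendental ↥O (hs_muE h3 (N' * q) - 1 : ↥(hs_E L h3 (N' * q))) :=
    fc_ff_transcendental (L := L) hx
  haveI : IsIntegrallyClosed
      (Algebra.adjoin ↥O ({hs_muE h3 (N' * q) - 1} : Set ↥(hs_E L h3 (N' * q)))) :=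
    fc_ff_isIntegrallyClosed hyA
  haveI : FaithfulSMul (Algebra.adjoin ↥O ({hs_muE h3 (N' * q) - 1} : Set ↥(hs_E L h3 (N' * q))))
      ↥(hs_E L h3 (N' * q)) :=
    (faithfulSMul_iff_algebraMap_injective _ _).2 Subtype.val_injective
  have H := ssm_fh_hyp h3 O h3O hπ N' q hq3 hqN' hprime
  have hC := m59h2_s44mz_chartS h3 O h3O hπ N' q
  -- the chart lies in `𝒱`
  have hadj : ∀ r : Algebra.adjoin ↥O ({m59h2_s44mz_j2E L h3 (N' * q)} :
        Set ↥(hs_E L h3 (N' * q))),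
      algebraMap (Algebra.adjoin ↥O ({m59h2_s44mz_j2E L h3 (N' * q)} :
        Set ↥(hs_E L h3 (N' * q))))
        ↥(hs_E L h3 (N' * q)) r ∈ 𝒱 := by
    rintro ⟨r, hr⟩
    show r ∈ 𝒱
    induction hr using Algebra.adjoin_induction with
    | mem s hs => rw [Set.mem_singleton_iff] at hs; rw [hs]; exact hj
    | algebraMap a => exact hO𝒱 a
    | add a b _ _ ha hb => exact 𝒱.add_mem _ _ ha hb
    | mul a b _ _ ha hb => exact 𝒱.mul_mem _ _ ha hb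
  have hS𝒱 : ∀ b ∈ fc_chart ↥O ({m59h2_s44mz_j2E L h3 (N' * q)} : Set ↥(hs_E L h3 (N' * q))),
      b ∈ 𝒱 :=
    fun b hb => ssm_tp_mem_of_isIntegral 𝒱 hadj (fc_mem_chart.1 hb)
  haveI hP1 := H.P1_isPrime hC
  haveI hP2 := H.P2_isPrime hC
  haveI h𝔫 : (ssm_tp_P (fc_chart ↥O ({m59h2_s44mz_j2E L h3 (N' * q)} :
      Set ↥(hs_E L h3 (N' * q)))) 𝒱).IsPrime :=
    ssm_tp_P_isPrime hS𝒱
  haveI := s44mz_RF_isIntegrallyClosed O (L := L) (N' * q)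
  -- the uniformiser
  have hfπ : ((m59h2_s44mz_f h3 O (N' * q)).toRingHom
      (algebraMap ↥O ↥(fc_chart ↥O ({rpz_jF L (N' * q)} : Set ↥(lg_F L (N' * q)))) π) :
        ↥(fc_chart ↥O ({m59h2_s44mz_j2E L h3 (N' * q)} : Set ↥(hs_E L h3 (N' * q))))) =
      algebraMap ↥O ↥(fc_chart ↥O ({m59h2_s44mz_j2E L h3 (N' * q)} :
        Set ↥(hs_E L h3 (N' * q)))) π :=
    (m59h2_s44mz_f h3 O (N' * q)).commutes π
  have hϖ : ((algebraMap ↥O ↥(fc_chart ↥O ({m59h2_s44mz_j2E L h3 (N' * q)} :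
      Set ↥(hs_E L h3 (N' * q)))) π :
      ↥(fc_chart ↥O ({m59h2_s44mz_j2E L h3 (N' * q)} : Set ↥(hs_E L h3 (N' * q))))) :
        ↥(hs_E L h3 (N' * q))) =
      algebraMap (Algebra.adjoin ↥O ({hs_muE h3 (N' * q) - 1} : Set ↥(hs_E L h3 (N' * q))))
        ↥(hs_E L h3 (N' * q))
        (algebraMap ↥O (Algebra.adjoin ↥O ({hs_muE h3 (N' * q) - 1} :
          Set ↥(hs_E L h3 (N' * q)))) π) := rfl
  have hPinf := H.P_inf hC _ hϖ
  have key := s44mz_gd (m59h2_s44mz_f h3 O (N' * q)).toRingHom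
    (m59h2_s44mz_f_injective h3 O (N' * q))
    (m59h2_s44mz_f_isIntegral h3 O (N' * q))
    (ssm_tp_P (fc_chart ↥O ({m59h2_s44mz_j2E L h3 (N' * q)} : Set ↥(hs_E L h3 (N' * q))))
      (ssm_fh_V1 h3 O h3O hπ N' q))
    (ssm_tp_P (fc_chart ↥O ({m59h2_s44mz_j2E L h3 (N' * q)} : Set ↥(hs_E L h3 (N' * q))))
      (ssm_fh_V2 h3 O h3O hπ N' q hq3 hqN'))
    (ssm_tp_P (fc_chart ↥O ({m59h2_s44mz_j2E L h3 (N' * q)} : Set ↥(hs_E L h3 (N' * q)))) 𝒱)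
    (algebraMap ↥O ↥(fc_chart ↥O ({rpz_jF L (N' * q)} : Set ↥(lg_F L (N' * q)))) π)
    ?_ ?_ ?_ ?_
  · have h1 : (⟨t, htS⟩ : ↥(fc_chart ↥O ({m59h2_s44mz_j2E L h3 (N' * q)} :
        Set ↥(hs_E L h3 (N' * q))))) ∈
        ssm_tp_P (fc_chart ↥O ({m59h2_s44mz_j2E L h3 (N' * q)} : Set ↥(hs_E L h3 (N' * q))))
          (ssm_fh_V2 h3 O h3O hπ N' q hq3 hqN') := (H.mem_P2 hC).2 ht2
    exact (ssm_tp_mem_P hS𝒱).1 (key h1)
  · -- `π ∈ P₂`
    rw [hfπ]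
    have h1 : algebraMap ↥O ↥(fc_chart ↥O ({m59h2_s44mz_j2E L h3 (N' * q)} :
        Set ↥(hs_E L h3 (N' * q)))) π ∈
        ssm_tp_P (fc_chart ↥O ({m59h2_s44mz_j2E L h3 (N' * q)} : Set ↥(hs_E L h3 (N' * q))))
            (ssm_fh_V1 h3 O h3O hπ N' q) ⊓
          ssm_tp_P (fc_chart ↥O ({m59h2_s44mz_j2E L h3 (N' * q)} : Set ↥(hs_E L h3 (N' * q))))
            (ssm_fh_V2 h3 O h3O hπ N' q hq3 hqN') := by
      rw [← hPinf]; exact Ideal.mem_span_singleton_self _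
    exact h1.2
  · -- the two components
    intro 𝔓 h𝔓 hmem
    rw [hfπ] at hmem
    refine (Ideal.IsPrime.inf_le h𝔓).1 ?_
    rw [← hPinf, Ideal.span_le, Set.singleton_subset_iff]
    exact hmem
  · -- the components of the base are distinct: `W j − j^q`
    have hjF : rpz_jF L (N' * q) ∈ fc_chart ↥O ({rpz_jF L (N' * q)} : Set ↥(lg_F L (N' * q))) :=
      fc_x_mem_chart _
    have hWj : ssm_al_W L N' q hq.out hqN' (rpz_jF L (N' * q)) ∈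
        fc_chart ↥O ({rpz_jF L (N' * q)} : Set ↥(lg_F L (N' * q))) := by
      rw [← m59h2_s44mz_phi_mem_iff h3 O (N' * q), m59h2_s44mz_phiO_apply,
        ← m59h2_s44mz_W_phi h3 N' q hq3 hqN', ← m59h2_s44mz_phiO_apply h3 O, m59h2_s44mz_phiO_j]
      exact m59h2_s44mz_Wj2_mem h3 O h3O hπ N' q hq3 hqN' hprime
    refine ⟨⟨ssm_al_W L N' q hq.out hqN' (rpz_jF L (N' * q)) - rpz_jF L (N' * q) ^ q,
      sub_mem hWj (pow_mem hjF q)⟩, ?_, ?_⟩
    · rw [H.mem_P1 hC]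
      show hs_phiE h3 (N := N' * q)
        (ssm_al_W L N' q hq.out hqN' (rpz_jF L (N' * q)) - rpz_jF L (N' * q) ^ q) ∈ _
      rw [m59h2_s44mz_phi_nonunits_iff]
      exact s44mz_frob O hπ N' q hqN'
    · rw [H.mem_P2 hC]
      show hs_phiE h3 (N := N' * q)
        (ssm_al_W L N' q hq.out hqN' (rpz_jF L (N' * q)) - rpz_jF L (N' * q) ^ q) ∉ _
      rw [m59h2_s44mz_phi_nonunits2_iff, map_sub, map_pow, ssm_al_W_W]
      exact s44mz_nfrob O hπ N' q hqN'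
  · -- supersingularity
    intro a ha
    rw [H.mem_P2 hC] at ha
    have ha' : hs_phiE h3 (N := N' * q) (a : ↥(lg_F L (N' * q))) ∈
        (ssm_fh_V2 h3 O h3O hπ N' q hq3 hqN').nonunits := ha
    rw [m59h2_s44mz_phi_nonunits2_iff] at ha'
    exact (ssm_tp_mem_P hS𝒱).2 (hSS a a.2 ha')

/-- a valuation subring containing `O` and `j₃` contains the Hesse `j`-chart. -/
theorem m59h2_s44mz_S_le (N : ℕ) [NeZero N] (𝒱 : ValuationSubring ↥(hs_E L h3 N))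
    (hO𝒱 : ∀ a : O, algebraMap ↥O ↥(hs_E L h3 N) a ∈ 𝒱) (hj : m59h2_s44mz_j2E L h3 N ∈ 𝒱) :
    ∀ b ∈ fc_chart ↥O ({m59h2_s44mz_j2E L h3 N} : Set ↥(hs_E L h3 N)), b ∈ 𝒱 := by
  have hadj : ∀ r : Algebra.adjoin ↥O ({m59h2_s44mz_j2E L h3 N} : Set ↥(hs_E L h3 N)),
      algebraMap (Algebra.adjoin ↥O ({m59h2_s44mz_j2E L h3 N} : Set ↥(hs_E L h3 N)))
        ↥(hs_E L h3 N) r ∈ 𝒱 := by
    rintro ⟨r, hr⟩
    show r ∈ 𝒱
    induction hr using Algebra.adjoin_induction with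
    | mem s hs => rw [Set.mem_singleton_iff] at hs; rw [hs]; exact hj
    | algebraMap a => exact hO𝒱 a
    | add a b _ _ ha hb => exact 𝒱.add_mem _ _ ha hb
    | mul a b _ _ ha hb => exact 𝒱.mul_mem _ _ ha hb
  exact fun b hb => ssm_tp_mem_of_isIntegral 𝒱 hadj (fc_mem_chart.1 hb)

include h3O in
/-- the `x`-chart is contained in the Hesse `j`-chart. -/
theorem m59h2_s44mz_B_le_S (N : ℕ) [NeZero N] :
    fc_chart ↥O ({hs_muE h3 N - 1} : Set ↥(hs_E L h3 N)) ≤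
      fc_chart ↥O ({m59h2_s44mz_j2E L h3 N} : Set ↥(hs_E L h3 N)) := by
  obtain ⟨u, hu⟩ := m59h2_s44mz_exists_u O h3O
  exact m59h2_hc_chart_le (A0 := ↥O) u hu (sub_add_cancel _ _).symm (m59h2_s44mz_legE L h3 N)

set_option maxHeartbeats 1600000 in
set_option synthInstance.maxHeartbeats 200000 in
/-- **(N2), ideal form on the `x`-chart** `B = fc_chart O {x}`: `P₂ ∩ B ⊆ 𝔫(𝒱)`. -/
theorem m59h2_s44mz_P2_le_chart
    (hprime : Prime (algebraMap ↥O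
      (fc_chart ↥O ({hs_muE h3 N' - 1} : Set ↥(hs_E L h3 N'))) π))
    (𝒱 : ValuationSubring ↥(hs_E L h3 (N' * q)))
    (hO𝒱 : ∀ a : O, algebraMap ↥O ↥(hs_E L h3 (N' * q)) a ∈ 𝒱)
    (hj : m59h2_s44mz_j2E L h3 (N' * q) ∈ 𝒱)
    (hSS : ∀ b : ↥(lg_F L (N' * q)),
      b ∈ fc_chart ↥O ({rpz_jF L (N' * q)} : Set ↥(lg_F L (N' * q))) →
      ssm_al_W L N' q hq.out hqN' b ∈ (s44mz_VF O hπ N' q).nonunits →
      hs_phiE h3 (N := N' * q) b ∈ 𝒱.nonunits) :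
    ssm_tp_P (fc_chart ↥O ({hs_muE h3 (N' * q) - 1} : Set ↥(hs_E L h3 (N' * q))))
        (ssm_fh_V2 h3 O h3O hπ N' q hq3 hqN') ≤
      ssm_tp_P (fc_chart ↥O ({hs_muE h3 (N' * q) - 1} : Set ↥(hs_E L h3 (N' * q)))) 𝒱 := by
  haveI := ssm_go_isScalarTower O (hs_E L h3 (N' * q))
  have hx : Transcendental L (hs_muE h3 (N' * q) - 1 : ↥(hs_E L h3 (N' * q))) :=
    ssm_sgm_transcendental h3 (N' * q)
  have hyA : Transcendental ↥O (hs_muE h3 (N' * q) - 1 : ↥(hs_E L h3 (N' * q))) :=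
    fc_ff_transcendental (L := L) hx
  haveI : IsIntegrallyClosed
      (Algebra.adjoin ↥O ({hs_muE h3 (N' * q) - 1} : Set ↥(hs_E L h3 (N' * q)))) :=
    fc_ff_isIntegrallyClosed hyA
  haveI : FaithfulSMul (Algebra.adjoin ↥O ({hs_muE h3 (N' * q) - 1} : Set ↥(hs_E L h3 (N' * q))))
      ↥(hs_E L h3 (N' * q)) :=
    (faithfulSMul_iff_algebraMap_injective _ _).2 Subtype.val_injective
  have H := ssm_fh_hyp h3 O h3O hπ N' q hq3 hqN' hprime
  have hC := ssm_tp_ff_chart (L := L) hπ hx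
  have hle := m59h2_s44mz_B_le_S h3 O h3O (N' * q)
  have hS𝒱 := m59h2_s44mz_S_le h3 O (N' * q) 𝒱 hO𝒱 hj
  have hB𝒱 : ∀ b ∈ fc_chart ↥O ({hs_muE h3 (N' * q) - 1} : Set ↥(hs_E L h3 (N' * q))), b ∈ 𝒱 :=
    fun b hb => hS𝒱 b (hle hb)
  intro b hb
  rw [H.mem_P2 hC] at hb
  rw [ssm_tp_mem_P hB𝒱]
  exact m59h2_s44mz_P2_le h3 O h3O hπ N' q hq3 hqN' hprime 𝒱 hO𝒱 hj hSS _ (hle b.2) hb

end Hesse

end Fermat.Agent.M59
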