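/-
M59 / box [C] Mazur at `q = 2`, HESSE PORT, cluster B-UDIV (helper28).  Prefix `m59h2_`.

Twin of `S44/Mono/Centre0.lean` (step (N2)(i) "CHART CHOICE + MAXIMALITY"), Hesse cover, chart
coordinate `x = μ - 1`: for ANY valuation subring `𝒱 ≤ V₁` of `E = hs_E L h3 (N' q)` containing `O`,
with `j₃ ∈ 𝒱` and residue field algebraic over `O/π`: `x ∈ 𝒱`, the centre on the `x`-chart is MAXIMAL and
contains `P₁`.
-/
import Mathlib
import Fermat.Agent.S44.Mono.Centre0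
import Fermat.Agent.M59.Hesse2.Mono.HesCentre

set_option autoImplicit false
set_option linter.unusedSectionVars false
set_option linter.style.haveILetI false
set_option linter.unusedVariables false

noncomputable section

namespace Fermat.Agent.M59

open Polynomial ModularCurve IntermediateField IsLocalRing
open Fermat.Agent.JT3 Fermat.Agent.SS Fermat.Agent.S35 Fermat.Agent.S24 Fermat.Agent.S44

section Hesse

variable {L : Type*} [Field L] [CharZero L] [Algebra L (AlgebraicClosure ℚ)] (h3 : (3 : L) ≠ 0)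
  (O : ValuationSubring L) [IsDiscreteValuationRing O] (h3O : IsUnit (3 : O)) {π : O}
  (hπ : Irreducible π)
variable (N' q : ℕ) [NeZero N'] [NeZero q] [hq : Fact q.Prime] [CharP (ResidueField O) q]
  (hq3 : ¬ 3 ∣ q) (hqN' : ¬ q ∣ N')

include hq3 hqN' in
set_option maxHeartbeats 1600000 in
set_option synthInstance.maxHeartbeats 200000 in
/-- **chart choice + maximality of the centre, valuation form** (no supersingularity). -/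
theorem m59h2_s44mz_centre0
    (hprime : Prime (algebraMap ↥O (fc_chart ↥O ({(hs_muE h3 N' - 1)} : Set ↥(hs_E L h3 N'))) π))
    (𝒱 : ValuationSubring ↥(hs_E L h3 (N' * q))) (h𝒱 : 𝒱 ≤ ssm_fh_V1 h3 O h3O hπ N' q)
    (hO𝒱 : ∀ a : O, algebraMap ↥O ↥(hs_E L h3 (N' * q)) a ∈ 𝒱)
    (halg : ∀ z ∈ 𝒱, ∃ p : (↥O)[X], p.Monic ∧ aeval z p ∈ 𝒱.nonunits)
    (hj : m59h2_s44mz_j2E L h3 (N' * q) ∈ 𝒱) :
    (hs_muE h3 (N' * q) - 1) ∈ 𝒱 ∧
    (∀ b ∈ fc_chart ↥O ({(hs_muE h3 (N' * q) - 1)} : Set ↥(hs_E L h3 (N' * q))), b ∈ 𝒱) ∧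
    (ssm_tp_P (fc_chart ↥O ({(hs_muE h3 (N' * q) - 1)} : Set ↥(hs_E L h3 (N' * q)))) 𝒱).IsMaximal ∧
    (∀ b : ↥(fc_chart ↥O ({(hs_muE h3 (N' * q) - 1)} : Set ↥(hs_E L h3 (N' * q)))),
      b ∈ ssm_tp_P (fc_chart ↥O ({(hs_muE h3 (N' * q) - 1)} : Set ↥(hs_E L h3 (N' * q)))) 𝒱 ↔
        (b : ↥(hs_E L h3 (N' * q))) ∈ 𝒱.nonunits) ∧
    algebraMap ↥O ↥(hs_E L h3 (N' * q)) π ∈ 𝒱.nonunits ∧
    ssm_tp_P (fc_chart ↥O ({(hs_muE h3 (N' * q) - 1)} : Set ↥(hs_E L h3 (N' * q))))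
        (ssm_fh_V1 h3 O h3O hπ N' q) ≤
      ssm_tp_P (fc_chart ↥O ({(hs_muE h3 (N' * q) - 1)} : Set ↥(hs_E L h3 (N' * q)))) 𝒱 := by
  haveI := ssm_go_isScalarTower O (hs_E L h3 (N' * q))
  have hx : Transcendental L ((hs_muE h3 (N' * q) - 1)) :=
    ssm_sgm_transcendental h3 (N' * q)
  have hyA : Transcendental ↥O ((hs_muE h3 (N' * q) - 1)) := fc_ff_transcendental (L := L) hx
  haveI : IsIntegrallyClosed (Algebra.adjoin ↥O ({(hs_muE h3 (N' * q) - 1)} : Set ↥(hs_E L h3 (N' * q)))) :=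
    fc_ff_isIntegrallyClosed hyA
  haveI : FaithfulSMul (Algebra.adjoin ↥O ({(hs_muE h3 (N' * q) - 1)} : Set ↥(hs_E L h3 (N' * q))))
      ↥(hs_E L h3 (N' * q)) :=
    (faithfulSMul_iff_algebraMap_injective _ _).2 Subtype.val_injective
  have H := ssm_fh_hyp h3 O h3O hπ N' q hq3 hqN' hprime
  have hC := ssm_tp_ff_chart (L := L) hπ hx
  have hle := m59h2_s44mz_B_le_S h3 O h3O (N' * q)
  have hS𝒱 := m59h2_s44mz_S_le h3 O (N' * q) 𝒱 hO𝒱 hj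
  have hB𝒱 : ∀ b ∈ fc_chart ↥O ({(hs_muE h3 (N' * q) - 1)} : Set ↥(hs_E L h3 (N' * q))), b ∈ 𝒱 :=
    fun b hb => hS𝒱 b (hle hb)
  have hnu : (ssm_fh_V1 h3 O h3O hπ N' q).nonunits ≤ 𝒱.nonunits :=
    ValuationSubring.nonunits_le_nonunits.2 h𝒱
  have hπ𝒱 : algebraMap ↥O ↥(hs_E L h3 (N' * q)) π ∈ 𝒱.nonunits := hnu H.over1.pi_mem
  have hk : ∀ a : O, algebraMap ↥O ↥(hs_E L h3 (N' * q)) a ∈ 𝒱.nonunits ∨ IsUnit a := by
    intro a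
    by_cases ha : a ∈ maximalIdeal ↥O
    · left
      rw [hπ.maximalIdeal_eq, Ideal.mem_span_singleton] at ha
      obtain ⟨c, rfl⟩ := ha
      rw [map_mul]
      exact ssm_tp_nonunits_mul 𝒱 hπ𝒱 (hO𝒱 c)
    · right
      exact (IsLocalRing.notMem_maximalIdeal.1 ha)
  refine ⟨hB𝒱 _ (fc_x_mem_chart _), hB𝒱, tori_sfd_centre_isMaximal 𝒱 hB𝒱 hk halg,
    fun b => ssm_tp_mem_P hB𝒱, hπ𝒱, ?_⟩
  intro b hb
  rw [ssm_tp_mem_P hB𝒱]
  exact hnu ((H.mem_P1 hC).1 hb)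

include hq3 hqN' in
set_option maxHeartbeats 1600000 in
set_option synthInstance.maxHeartbeats 200000 in
/-- **chart choice + maximality of the centre, composite form** (vocabulary of helper12's (ND)):
`r : V₁ →+* κ` a reduction map into a function field `κ / k`, `𝒲 ⊇ k` ANY non-trivial valuation
subring of `κ` at which `j̄₂ = r j₂` is finite; `𝒱 := tori_comp V₁ r hker 𝒲`. -/
theorem m59h2_s44mz_centre_comp0
    (hprime : Prime (algebraMap ↥O (fc_chart ↥O ({(hs_muE h3 N' - 1)} : Set ↥(hs_E L h3 N'))) π))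
    {k κ : Type*} [Field k] [Field κ] [Algebra k κ] (ρ : ↥O →+* k) (hρ : Function.Surjective ρ)
    (r : ↥(ssm_fh_V1 h3 O h3O hπ N' q) →+* κ)
    (hker : ∀ z : ↥(ssm_fh_V1 h3 O h3O hπ N' q),
      (z : ↥(hs_E L h3 (N' * q))) ∈ (ssm_fh_V1 h3 O h3O hπ N' q).nonunits → r z = 0)
    (hrA : ∀ (a : ↥O) (h : algebraMap ↥O ↥(hs_E L h3 (N' * q)) a ∈ ssm_fh_V1 h3 O h3O hπ N' q),
      r ⟨algebraMap ↥O ↥(hs_E L h3 (N' * q)) a, h⟩ = algebraMap k κ (ρ a))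
    (xb : κ) [Algebra.IsAlgebraic k⟮xb⟯ κ] (𝒲 : ValuationSubring κ)
    (hk𝒲 : ∀ c : k, algebraMap k κ c ∈ 𝒲) (h𝒲ne : 𝒲 ≠ ⊤)
    (hj : ∃ h : m59h2_s44mz_j2E L h3 (N' * q) ∈ ssm_fh_V1 h3 O h3O hπ N' q,
      r ⟨m59h2_s44mz_j2E L h3 (N' * q), h⟩ ∈ 𝒲) :
    (hs_muE h3 (N' * q) - 1) ∈ tori_comp (ssm_fh_V1 h3 O h3O hπ N' q) r hker 𝒲 ∧
    (∀ b ∈ fc_chart ↥O ({(hs_muE h3 (N' * q) - 1)} : Set ↥(hs_E L h3 (N' * q))),
      b ∈ tori_comp (ssm_fh_V1 h3 O h3O hπ N' q) r hker 𝒲) ∧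
    (ssm_tp_P (fc_chart ↥O ({(hs_muE h3 (N' * q) - 1)} : Set ↥(hs_E L h3 (N' * q))))
      (tori_comp (ssm_fh_V1 h3 O h3O hπ N' q) r hker 𝒲)).IsMaximal ∧
    (∀ b : ↥(fc_chart ↥O ({(hs_muE h3 (N' * q) - 1)} : Set ↥(hs_E L h3 (N' * q)))),
      b ∈ ssm_tp_P (fc_chart ↥O ({(hs_muE h3 (N' * q) - 1)} : Set ↥(hs_E L h3 (N' * q))))
          (tori_comp (ssm_fh_V1 h3 O h3O hπ N' q) r hker 𝒲) ↔
        (b : ↥(hs_E L h3 (N' * q))) ∈
          (tori_comp (ssm_fh_V1 h3 O h3O hπ N' q) r hker 𝒲).nonunits) ∧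
    algebraMap ↥O ↥(hs_E L h3 (N' * q)) π ∈
      (tori_comp (ssm_fh_V1 h3 O h3O hπ N' q) r hker 𝒲).nonunits ∧
    ssm_tp_P (fc_chart ↥O ({(hs_muE h3 (N' * q) - 1)} : Set ↥(hs_E L h3 (N' * q))))
        (ssm_fh_V1 h3 O h3O hπ N' q) ≤
      ssm_tp_P (fc_chart ↥O ({(hs_muE h3 (N' * q) - 1)} : Set ↥(hs_E L h3 (N' * q))))
        (tori_comp (ssm_fh_V1 h3 O h3O hπ N' q) r hker 𝒲) := by
  haveI := ssm_go_isScalarTower O (hs_E L h3 (N' * q))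
  have hx : Transcendental L ((hs_muE h3 (N' * q) - 1)) :=
    ssm_sgm_transcendental h3 (N' * q)
  have hyA : Transcendental ↥O ((hs_muE h3 (N' * q) - 1)) := fc_ff_transcendental (L := L) hx
  haveI : IsIntegrallyClosed (Algebra.adjoin ↥O ({(hs_muE h3 (N' * q) - 1)} : Set ↥(hs_E L h3 (N' * q)))) :=
    fc_ff_isIntegrallyClosed hyA
  haveI : FaithfulSMul (Algebra.adjoin ↥O ({(hs_muE h3 (N' * q) - 1)} : Set ↥(hs_E L h3 (N' * q))))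
      ↥(hs_E L h3 (N' * q)) :=
    (faithfulSMul_iff_algebraMap_injective _ _).2 Subtype.val_injective
  have H := ssm_fh_hyp h3 O h3O hπ N' q hq3 hqN' hprime
  have hA1 : ∀ a : ↥O, algebraMap ↥O ↥(hs_E L h3 (N' * q)) a ∈ (ssm_fh_V1 h3 O h3O hπ N' q) := fun a => by
    have := H.over1.le (algebraMap ↥O
      (Algebra.adjoin ↥O ({(hs_muE h3 (N' * q) - 1)} : Set ↥(hs_E L h3 (N' * q)))) a)
    exact this
  have hA : ∀ a : ↥O, algebraMap ↥O ↥(hs_E L h3 (N' * q)) a ∈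
      tori_comp (ssm_fh_V1 h3 O h3O hπ N' q) r hker 𝒲 := fun a =>
    ⟨hA1 a, by rw [hrA]; exact hk𝒲 _⟩
  let ι : ↥O →+* ↥(ssm_fh_V1 h3 O h3O hπ N' q) :=
    { toFun := fun a => ⟨algebraMap ↥O ↥(hs_E L h3 (N' * q)) a, hA1 a⟩
      map_one' := Subtype.ext (map_one _)
      map_mul' := fun a b => Subtype.ext (map_mul _ a b)
      map_zero' := Subtype.ext (map_zero _)
      map_add' := fun a b => Subtype.ext (map_add _ a b) }
  have hι1 : (ssm_fh_V1 h3 O h3O hπ N' q).subtype.comp ι = algebraMap ↥O ↥(hs_E L h3 (N' * q)) :=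
    RingHom.ext fun a => rfl
  have hι2 : r.comp ι = (algebraMap k κ).comp ρ := RingHom.ext fun a => hrA a (hA1 a)
  have halg : ∀ z ∈ tori_comp (ssm_fh_V1 h3 O h3O hπ N' q) r hker 𝒲,
      ∃ p : (↥O)[X], p.Monic ∧ aeval z p ∈
        (tori_comp (ssm_fh_V1 h3 O h3O hπ N' q) r hker 𝒲).nonunits := by
    rintro z ⟨hzV, hzW⟩
    obtain ⟨pb, hpb, hpbW⟩ := s44mz_residue_alg xb 𝒲 hk𝒲 h𝒲ne hzW
    obtain ⟨P, hPmap, -, hPm⟩ := Polynomial.lifts_and_degree_eq_and_monic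
      ((Polynomial.mem_lifts _).2 (Polynomial.map_surjective ρ hρ pb)) hpb
    refine ⟨P, hPm, ?_⟩
    have h1 : ((eval₂ ι ⟨z, hzV⟩ P : ↥(ssm_fh_V1 h3 O h3O hπ N' q)) : ↥(hs_E L h3 (N' * q))) =
        aeval z P := by
      have := Polynomial.hom_eval₂ P ι (ssm_fh_V1 h3 O h3O hπ N' q).subtype ⟨z, hzV⟩
      rw [hι1] at this
      rw [aeval_def]
      exact this
    have h2 : r (eval₂ ι ⟨z, hzV⟩ P) = aeval (r ⟨z, hzV⟩) pb := by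
      rw [Polynomial.hom_eval₂, hι2, ← Polynomial.eval₂_map, hPmap, aeval_def]
    rw [tori_comp_mem_nonunits_iff]
    refine ⟨h1 ▸ (eval₂ ι ⟨z, hzV⟩ P).2, ?_⟩
    have h3 : (⟨aeval z P, h1 ▸ (eval₂ ι ⟨z, hzV⟩ P).2⟩ : ↥(ssm_fh_V1 h3 O h3O hπ N' q)) =
        eval₂ ι ⟨z, hzV⟩ P :=
      Subtype.ext h1.symm
    rw [h3, h2]
    exact hpbW
  exact m59h2_s44mz_centre0 h3 O h3O hπ N' q hq3 hqN' hprime
    (tori_comp (ssm_fh_V1 h3 O h3O hπ N' q) r hker 𝒲)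
    (tori_comp_le (ssm_fh_V1 h3 O h3O hπ N' q) r hker 𝒲)
    hA halg ((tori_comp_mem_iff (ssm_fh_V1 h3 O h3O hπ N' q) r hker 𝒲).2 hj)

end Hesse

end Fermat.Agent.M59
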