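/-
M59 / box [C] Mazur at `q = 2`, HESSE PORT, cluster B-UDIV (helper28).  Prefix `m59h2_`.

Twin of `S44/Mono/CentreConv.lean` (the easy converse (NODE => SS)), Hesse cover, chart coordinate
`x = mu - 1`, clearing element `s = mu^3 - 1` (`S = B[1/s]`).
-/
import Mathlib
import Fermat.Agent.S44.Mono.CentreConv
import Fermat.Agent.M59.Hesse2.Mono.HesCentre
import Fermat.Agent.M59.Hesse2.Mono.HesChart

set_option autoImplicit false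
set_option linter.unusedSectionVars false
set_option linter.style.haveILetI false
set_option linter.unusedVariables false

noncomputable section

namespace Fermat.Agent.M59

open Polynomial ModularCurve IntermediateField IsLocalRing
open Fermat.Agent.JT3 Fermat.Agent.SS Fermat.Agent.S35 Fermat.Agent.S24 Fermat.Agent.S44

section Hesse

variable {L : Type*} [Field L] [CharZero L] [Algebra L (AlgebraicClosure ℚ)] (h3 : (3 : L) ≠ 0)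
  (O : ValuationSubring L) [IsDiscreteValuationRing O] (h3O : IsUnit (3 : O)) {π : O}
  (hπ : Irreducible π)
variable (N' q : ℕ) [NeZero N'] [NeZero q] [hq : Fact q.Prime] [CharP (ResidueField O) q]
  (hq3 : ¬ 3 ∣ q) (hqN' : ¬ q ∣ N')

set_option maxHeartbeats 1600000 in
set_option synthInstance.maxHeartbeats 200000 in
/-- if the centre of `𝒱` on the `λ`-chart lies on the `0`-component, every function on the Legendre
`j`-chart vanishing on the `0`-component vanishes at `𝒱`. -/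
theorem m59h2_s44mzc_S_nonunits
    (hprime : Prime (algebraMap ↥O (fc_chart ↥O ({(hs_muE h3 N' - 1)} : Set ↥(hs_E L h3 N'))) π))
    (𝒱 : ValuationSubring ↥(hs_E L h3 (N' * q)))
    (hO𝒱 : ∀ a : O, algebraMap ↥O ↥(hs_E L h3 (N' * q)) a ∈ 𝒱)
    (hj : m59h2_s44mz_j2E L h3 (N' * q) ∈ 𝒱)
    (hnode : ssm_tp_P (fc_chart ↥O ({(hs_muE h3 (N' * q) - 1)} : Set ↥(hs_E L h3 (N' * q))))
        (ssm_fh_V2 h3 O h3O hπ N' q hq3 hqN') ≤
      ssm_tp_P (fc_chart ↥O ({(hs_muE h3 (N' * q) - 1)} : Set ↥(hs_E L h3 (N' * q)))) 𝒱) :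
    ∀ t ∈ fc_chart ↥O ({m59h2_s44mz_j2E L h3 (N' * q)} : Set ↥(hs_E L h3 (N' * q))),
      t ∈ (ssm_fh_V2 h3 O h3O hπ N' q hq3 hqN').nonunits → t ∈ 𝒱.nonunits := by
  intro x hxS hx2
  haveI := ssm_go_isScalarTower O (hs_E L h3 (N' * q))
  have hx : Transcendental L ((hs_muE h3 (N' * q) - 1)) :=
    ssm_sgm_transcendental h3 (N' * q)
  have hyA : Transcendental ↥O ((hs_muE h3 (N' * q) - 1)) := fc_ff_transcendental (L := L) hx
  haveI : IsIntegrallyClosed (Algebra.adjoin ↥O ({(hs_muE h3 (N' * q) - 1)} : Set ↥(hs_E L h3 (N' * q)))) :=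
    fc_ff_isIntegrallyClosed hyA
  haveI : FaithfulSMul (Algebra.adjoin ↥O ({(hs_muE h3 (N' * q) - 1)} : Set ↥(hs_E L h3 (N' * q))))
      ↥(hs_E L h3 (N' * q)) :=
    (faithfulSMul_iff_algebraMap_injective _ _).2 Subtype.val_injective
  have H := ssm_fh_hyp h3 O h3O hπ N' q hq3 hqN' hprime
  have hC := ssm_tp_ff_chart (L := L) hπ hx
  obtain ⟨u, hu⟩ := m59h2_s44mz_exists_u O h3O
  have hleg := m59h2_s44mz_legE L h3 (N' * q)
  have hle := m59h2_s44mz_B_le_S h3 O h3O (N' * q)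
  have hS𝒱 := m59h2_s44mz_S_le h3 O (N' * q) 𝒱 hO𝒱 hj
  have hB𝒱 : ∀ b ∈ fc_chart ↥O ({(hs_muE h3 (N' * q) - 1)} : Set ↥(hs_E L h3 (N' * q))), b ∈ 𝒱 :=
    fun b hb => hS𝒱 b (hle hb)
  -- `s = μ³ − 1 ≠ 0`
  have hmx : (hs_muE h3 (N' * q) : ↥(hs_E L h3 (N' * q))) = (hs_muE h3 (N' * q) - 1) + 1 :=
    (sub_add_cancel _ _).symm
  have ht0 : (hs_muE h3 (N' * q) : ↥(hs_E L h3 (N' * q))) ^ 3 - 1 ≠ 0 :=
    m59h2_hc_s_ne_zero (L := L) hx hmx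
  set t : ↥(hs_E L h3 (N' * q)) := (hs_muE h3 (N' * q) : ↥(hs_E L h3 (N' * q))) ^ 3 - 1
    with ht
  -- `t ∈ B`, `t⁻¹ ∈ S ⊆ 𝒱`
  have hlamB : ((hs_muE h3 (N' * q) - 1) : ↥(hs_E L h3 (N' * q))) ∈
      fc_chart ↥O ({(hs_muE h3 (N' * q) - 1)} : Set ↥(hs_E L h3 (N' * q))) := fc_x_mem_chart _
  have hmuB : (hs_muE h3 (N' * q) : ↥(hs_E L h3 (N' * q))) ∈
      fc_chart ↥O ({(hs_muE h3 (N' * q) - 1)} : Set ↥(hs_E L h3 (N' * q))) := by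
    have h := add_mem hlamB
      (one_mem (fc_chart ↥O ({(hs_muE h3 (N' * q) - 1)} : Set ↥(hs_E L h3 (N' * q)))))
    rwa [sub_add_cancel] at h
  have htB : t ∈ fc_chart ↥O ({(hs_muE h3 (N' * q) - 1)} : Set ↥(hs_E L h3 (N' * q))) :=
    sub_mem (pow_mem hmuB 3) (one_mem _)
  have htinvS : t⁻¹ ∈ fc_chart ↥O ({m59h2_s44mz_j2E L h3 (N' * q)} : Set ↥(hs_E L h3 (N' * q))) :=
    fc_mem_chart.2 (m59h2_hc_sinv_integral u hu hleg ht0)
  have htinv𝒱 : t⁻¹ ∈ 𝒱 := hS𝒱 _ htinvS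
  -- clear the denominator
  obtain ⟨k, hk⟩ := m59h2_hc_clear (A0 := ↥O) hmx hleg hxS
  have hB2 : ∀ b ∈ fc_chart ↥O ({(hs_muE h3 (N' * q) - 1)} : Set ↥(hs_E L h3 (N' * q))),
      b ∈ ssm_fh_V2 h3 O h3O hπ N' q hq3 hqN' := fun _ hb => hC.le H.over2 hb
  have h1 : t ^ k * x ∈ (ssm_fh_V2 h3 O h3O hπ N' q hq3 hqN').nonunits := by
    have h0 : x * t ^ k ∈ (ssm_fh_V2 h3 O h3O hπ N' q hq3 hqN').nonunits :=
      ssm_tp_nonunits_mul _ hx2 (pow_mem (hB2 t htB) k)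
    have e : t ^ k * x = x * t ^ k := mul_comm (t ^ k) x
    rw [e]
    exact h0
  have h2 : (⟨t ^ k * x, hk⟩ : ↥(fc_chart ↥O ({(hs_muE h3 (N' * q) - 1)} : Set ↥(hs_E L h3 (N' * q))))) ∈
      ssm_tp_P (fc_chart ↥O ({(hs_muE h3 (N' * q) - 1)} : Set ↥(hs_E L h3 (N' * q))))
        (ssm_fh_V2 h3 O h3O hπ N' q hq3 hqN') := by
    rw [H.mem_P2 hC]
    exact h1
  have h3' := (ssm_tp_mem_P hB𝒱).1 (hnode h2)
  have h4 : t ^ k * x ∈ 𝒱.nonunits := h3'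
  have h5 : t ^ k * x * (t⁻¹) ^ k ∈ 𝒱.nonunits :=
    ssm_tp_nonunits_mul _ h4 (pow_mem htinv𝒱 k)
  have h6 : t ^ k * x * (t⁻¹) ^ k = x := by
    rw [inv_pow]
    field_simp
  rwa [h6] at h5

set_option maxHeartbeats 1600000 in
set_option synthInstance.maxHeartbeats 200000 in
/-- **(NODE⟹SS), valuation form**: if the centre of `𝒱` on the `λ`-chart lies on the `0`-component,
then `𝒱` is supersingular: every function `b` on the base `j`-chart whose Atkin–Lehner transform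
`W b` has Gauss residue `0` satisfies `φ b ∈ 𝔪(𝒱)`. -/
theorem m59h2_s44mzc_ss_of_P2_le
    (hprime : Prime (algebraMap ↥O (fc_chart ↥O ({(hs_muE h3 N' - 1)} : Set ↥(hs_E L h3 N'))) π))
    (𝒱 : ValuationSubring ↥(hs_E L h3 (N' * q)))
    (hO𝒱 : ∀ a : O, algebraMap ↥O ↥(hs_E L h3 (N' * q)) a ∈ 𝒱)
    (hj : m59h2_s44mz_j2E L h3 (N' * q) ∈ 𝒱)
    (hnode : ssm_tp_P (fc_chart ↥O ({(hs_muE h3 (N' * q) - 1)} : Set ↥(hs_E L h3 (N' * q))))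
        (ssm_fh_V2 h3 O h3O hπ N' q hq3 hqN') ≤
      ssm_tp_P (fc_chart ↥O ({(hs_muE h3 (N' * q) - 1)} : Set ↥(hs_E L h3 (N' * q)))) 𝒱) :
    ∀ b : ↥(lg_F L (N' * q)),
      b ∈ fc_chart ↥O ({rpz_jF L (N' * q)} : Set ↥(lg_F L (N' * q))) →
      ssm_al_W L N' q hq.out hqN' b ∈ (s44mz_VF O hπ N' q).nonunits →
      hs_phiE h3 (N := N' * q) b ∈ 𝒱.nonunits := by
  intro b hb hW
  refine m59h2_s44mzc_S_nonunits h3 O h3O hπ N' q hq3 hqN' hprime 𝒱 hO𝒱 hj hnode _ ?_ ?_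
  · exact (m59h2_s44mz_phi_mem_iff h3 O (N' * q) b).2 hb
  · exact (m59h2_s44mz_phi_nonunits2_iff h3 O h3O hπ N' q hq3 hqN' b).2 hW

set_option maxHeartbeats 1600000 in
set_option synthInstance.maxHeartbeats 200000 in
/-- the centre of `𝒱` lies on the `0`-component **iff** `𝒱` is supersingular. -/
theorem m59h2_s44mzc_P2_le_iff
    (hprime : Prime (algebraMap ↥O (fc_chart ↥O ({(hs_muE h3 N' - 1)} : Set ↥(hs_E L h3 N'))) π))
    (𝒱 : ValuationSubring ↥(hs_E L h3 (N' * q)))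
    (hO𝒱 : ∀ a : O, algebraMap ↥O ↥(hs_E L h3 (N' * q)) a ∈ 𝒱)
    (hj : m59h2_s44mz_j2E L h3 (N' * q) ∈ 𝒱) :
    ssm_tp_P (fc_chart ↥O ({(hs_muE h3 (N' * q) - 1)} : Set ↥(hs_E L h3 (N' * q))))
        (ssm_fh_V2 h3 O h3O hπ N' q hq3 hqN') ≤
      ssm_tp_P (fc_chart ↥O ({(hs_muE h3 (N' * q) - 1)} : Set ↥(hs_E L h3 (N' * q)))) 𝒱 ↔
    ∀ b : ↥(lg_F L (N' * q)),
      b ∈ fc_chart ↥O ({rpz_jF L (N' * q)} : Set ↥(lg_F L (N' * q))) →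
      ssm_al_W L N' q hq.out hqN' b ∈ (s44mz_VF O hπ N' q).nonunits →
      hs_phiE h3 (N := N' * q) b ∈ 𝒱.nonunits :=
  ⟨m59h2_s44mzc_ss_of_P2_le h3 O h3O hπ N' q hq3 hqN' hprime 𝒱 hO𝒱 hj,
    m59h2_s44mz_P2_le_chart h3 O h3O hπ N' q hq3 hqN' hprime 𝒱 hO𝒱 hj⟩

end Hesse

end Fermat.Agent.M59
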