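/-
M59 / box [C] Mazur at `q = 2`, HESSE PORT, cluster B-UDIV (helper28).  Prefix `m59h2_`.

Twin of `S44/Mono/UNode.lean` ([H2-U] UNIFORM NODE), Hesse cover `hs_E L h3 (N' q)`, chart coordinate
`x = mu - 1`: at every maximal crossing point of the `x`-chart ONE pair of local coordinates `u, v` with
`u v = q` exactly, fixed by every inert automorphism of `(L, O)`.  Built from main's Hesse crossing package
`ssm_nh_cross`, the level facts `ssm_nhh_level`, thickness one over the small base `ssm_nht_thickHyp` and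
the cover-free `s44mu_nx_node`.
-/
import Mathlib
import Fermat.Agent.S44.Mono.UNodeAbs
import Fermat.Agent.SS.Model.NodeHesFinal

set_option autoImplicit false
set_option linter.unusedSectionVars false
set_option linter.unusedVariables false
set_option linter.style.haveILetI false

noncomputable section

open ModularCurve IntermediateField IsLocalRing Polynomial
open Fermat.Agent.JT3 Fermat.Agent.SS Fermat.Agent.S44

namespace Fermat.Agent.M59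

section Node

variable {L0 L : Type*} [Field L0] [Field L] [CharZero L0] [CharZero L]
  [Algebra L0 (AlgebraicClosure ℚ)] [Algebra L (AlgebraicClosure ℚ)]
  (h30 : (3 : L0) ≠ 0) (h3 : (3 : L) ≠ 0)
  (f : L0 →+* L) (O0 : ValuationSubring L0) (O : ValuationSubring L)
  (hO : ∀ x : L0, x ∈ O0 ↔ f x ∈ O)
  [IsDiscreteValuationRing O0] [IsDiscreteValuationRing O]
  (h3O0 : IsUnit (3 : O0)) (h3O : IsUnit (3 : O))
  {π : O} (hπ : Irreducible π)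
  (N' q : ℕ) [NeZero N'] [NeZero q] [hq : Fact q.Prime]
  [CharP (ResidueField O0) q] [CharP (ResidueField O) q]
  (hq3 : ¬ 3 ∣ q) (hqN' : ¬ q ∣ N')
  (hπ0 : Irreducible ((q : ℕ) : ↥O0))

include hO in
set_option synthInstance.maxHeartbeats 200000 in
set_option maxHeartbeats 3200000 in
/-- `ssm_nh_node_of` with named coordinates (no `σ`), twin of `s44mu_nl_node_of`.  **[ND] for the Hesse tower, relative form**: `(L0, O0)` a base with uniformiser `q` inside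
`(L, O)` (`O0 = f⁻¹ O`), `σ` an inert automorphism of `(L, O)` fixing `f L0`.  From the level-`N'`
inputs over BOTH bases and thickness one over the small base: `ss_NodeAt` at every maximal crossing
point of the `x`-chart (`x = μ - 1`) over `(O, π)` = the hypothesis `hnode` of `ssm_asm_model`. -/
theorem m59h2_s44mu_nl_node_of
    -- level-`N'` inputs over the small base
    (hprime0 : Prime (algebraMap ↥O0
      (fc_chart ↥O0 ({hs_muE h30 N' - 1} : Set ↥(hs_E L0 h30 N'))) ((q : ℕ) : ↥O0)))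
    (hic0 : IsIntegrallyClosed (fc_chart ↥O0 ({hs_muE h30 N' - 1} : Set ↥(hs_E L0 h30 N')) ⧸
      (Ideal.span {algebraMap ↥O0 (fc_chart ↥O0 ({hs_muE h30 N' - 1} : Set ↥(hs_E L0 h30 N')))
          ((q : ℕ) : ↥O0)} :
        Ideal (fc_chart ↥O0 ({hs_muE h30 N' - 1} : Set ↥(hs_E L0 h30 N'))))))
    (hEC0 : ∀ 𝔫' : Ideal (fc_chart ↥O0 ({hs_muE h30 N' - 1} : Set ↥(hs_E L0 h30 N'))),
      𝔫'.IsMaximal →
      algebraMap ↥O0 (fc_chart ↥O0 ({hs_muE h30 N' - 1} : Set ↥(hs_E L0 h30 N')))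
        ((q : ℕ) : ↥O0) ∈ 𝔫' →
      ssm_hl_x h30 O0 N' ∉ 𝔫' →
      aeval (ssm_hl_x h30 O0 N') (X ^ 2 + 3 * X + 3 : ℤ[X]) ∉ 𝔫' →
      ssm_hl_x h30 O0 N' ^ (q ^ 2) - ssm_hl_x h30 O0 N' ∈ 𝔫' →
      tq_GenBy (algebraMap ↥O0 (fc_chart ↥O0 ({hs_muE h30 N' - 1} : Set ↥(hs_E L0 h30 N')))
          ((q : ℕ) : ↥O0))
        (ssm_hl_x h30 O0 N' ^ (q ^ 2) - ssm_hl_x h30 O0 N') 𝔫')
    -- level-`N'` inputs over the big base
    (hprime : Prime (algebraMap ↥O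
      (fc_chart ↥O ({hs_muE h3 N' - 1} : Set ↥(hs_E L h3 N'))) π))
    (hic : IsIntegrallyClosed (fc_chart ↥O ({hs_muE h3 N' - 1} : Set ↥(hs_E L h3 N')) ⧸
      (Ideal.span {algebraMap ↥O (fc_chart ↥O ({hs_muE h3 N' - 1} : Set ↥(hs_E L h3 N'))) π} :
        Ideal (fc_chart ↥O ({hs_muE h3 N' - 1} : Set ↥(hs_E L h3 N'))))))
    (hEC : ∀ 𝔫' : Ideal (fc_chart ↥O ({hs_muE h3 N' - 1} : Set ↥(hs_E L h3 N'))),
      𝔫'.IsMaximal →
      algebraMap ↥O (fc_chart ↥O ({hs_muE h3 N' - 1} : Set ↥(hs_E L h3 N'))) π ∈ 𝔫' →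
      ssm_hl_x h3 O N' ∉ 𝔫' →
      aeval (ssm_hl_x h3 O N') (X ^ 2 + 3 * X + 3 : ℤ[X]) ∉ 𝔫' →
      ssm_hl_x h3 O N' ^ (q ^ 2) - ssm_hl_x h3 O N' ∈ 𝔫' →
      tq_GenBy (algebraMap ↥O (fc_chart ↥O ({hs_muE h3 N' - 1} : Set ↥(hs_E L h3 N'))) π)
        (ssm_hl_x h3 O N' ^ (q ^ 2) - ssm_hl_x h3 O N') 𝔫')
    -- thickness one over the small base
    (hthick : ∀ 𝔫0 : Ideal (fc_chart ↥O0 ({hs_muE h30 (N' * q) - 1} :
        Set ↥(hs_E L0 h30 (N' * q)))),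
      𝔫0.IsMaximal →
      ssm_tp_P (fc_chart ↥O0 ({hs_muE h30 (N' * q) - 1} : Set ↥(hs_E L0 h30 (N' * q))))
        (ssm_fh_V1 h30 O0 h3O0 hπ0 N' q) ≤ 𝔫0 →
      ssm_tp_P (fc_chart ↥O0 ({hs_muE h30 (N' * q) - 1} : Set ↥(hs_E L0 h30 (N' * q))))
        (ssm_fh_V2 h30 O0 h3O0 hπ0 N' q hq3 hqN') ≤ 𝔫0 →
      ∃ u v : ↥(hs_E L0 h30 (N' * q)), u * v = ((q : ℕ) : ↥(hs_E L0 h30 (N' * q))) ∧
        (∃ s t : fc_chart ↥O0 ({hs_muE h30 (N' * q) - 1} : Set ↥(hs_E L0 h30 (N' * q))),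
          s ∉ 𝔫0 ∧
          t ∈ ssm_tp_P (fc_chart ↥O0 ({hs_muE h30 (N' * q) - 1} : Set ↥(hs_E L0 h30 (N' * q))))
            (ssm_fh_V2 h30 O0 h3O0 hπ0 N' q hq3 hqN') ∧
          (s : ↥(hs_E L0 h30 (N' * q))) * u = t) ∧
        (∃ s t : fc_chart ↥O0 ({hs_muE h30 (N' * q) - 1} : Set ↥(hs_E L0 h30 (N' * q))),
          s ∉ 𝔫0 ∧
          t ∈ ssm_tp_P (fc_chart ↥O0 ({hs_muE h30 (N' * q) - 1} : Set ↥(hs_E L0 h30 (N' * q))))
            (ssm_fh_V1 h30 O0 h3O0 hπ0 N' q) ∧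
          (s : ↥(hs_E L0 h30 (N' * q))) * v = t) ∧
        (∀ z ∈ ssm_tp_P (fc_chart ↥O0 ({hs_muE h30 (N' * q) - 1} :
              Set ↥(hs_E L0 h30 (N' * q))))
            (ssm_fh_V2 h30 O0 h3O0 hπ0 N' q hq3 hqN'),
          ∃ s c : fc_chart ↥O0 ({hs_muE h30 (N' * q) - 1} : Set ↥(hs_E L0 h30 (N' * q))),
            s ∉ 𝔫0 ∧
            (s : ↥(hs_E L0 h30 (N' * q))) * (z : ↥(hs_E L0 h30 (N' * q))) = u * c) ∧
        (∀ z ∈ ssm_tp_P (fc_chart ↥O0 ({hs_muE h30 (N' * q) - 1} :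
              Set ↥(hs_E L0 h30 (N' * q))))
            (ssm_fh_V1 h30 O0 h3O0 hπ0 N' q),
          ∃ s c : fc_chart ↥O0 ({hs_muE h30 (N' * q) - 1} : Set ↥(hs_E L0 h30 (N' * q))),
            s ∉ 𝔫0 ∧
            (s : ↥(hs_E L0 h30 (N' * q))) * (z : ↥(hs_E L0 h30 (N' * q))) = v * c) ∧
        (∃ s t : fc_chart ↥O0 ({hs_muE h30 (N' * q) - 1} : Set ↥(hs_E L0 h30 (N' * q))),
          s ∉ 𝔫0 ∧
          t ∉ ssm_tp_P (fc_chart ↥O0 ({hs_muE h30 (N' * q) - 1} : Set ↥(hs_E L0 h30 (N' * q))))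
            (ssm_fh_V1 h30 O0 h3O0 hπ0 N' q) ∧
          (s : ↥(hs_E L0 h30 (N' * q))) * u = t) ∧
        (∃ s t : fc_chart ↥O0 ({hs_muE h30 (N' * q) - 1} : Set ↥(hs_E L0 h30 (N' * q))),
          s ∉ 𝔫0 ∧
          t ∉ ssm_tp_P (fc_chart ↥O0 ({hs_muE h30 (N' * q) - 1} : Set ↥(hs_E L0 h30 (N' * q))))
            (ssm_fh_V2 h30 O0 h3O0 hπ0 N' q hq3 hqN') ∧
          (s : ↥(hs_E L0 h30 (N' * q))) * v = t)) :
    ∀ 𝔫 : Ideal (fc_chart ↥O ({hs_muE h3 (N' * q) - 1} : Set ↥(hs_E L h3 (N' * q)))),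
      𝔫.IsMaximal →
      ssm_tp_P (fc_chart ↥O ({hs_muE h3 (N' * q) - 1} : Set ↥(hs_E L h3 (N' * q))))
        (ssm_fh_V1 h3 O h3O hπ N' q) ≤ 𝔫 →
      ssm_tp_P (fc_chart ↥O ({hs_muE h3 (N' * q) - 1} : Set ↥(hs_E L h3 (N' * q))))
        (ssm_fh_V2 h3 O h3O hπ N' q hq3 hqN') ≤ 𝔫 →
      ∃ u v : ↥(hs_E L0 h30 (N' * q)),
        s44mu_NodeAtU π (fc_chart1_le (hs_muE h3 (N' * q) - 1 : ↥(hs_E L h3 (N' * q))))
          (ssm_tp_P (fc_chart ↥O ({hs_muE h3 (N' * q) - 1, (hs_muE h3 (N' * q) - 1)⁻¹} :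
            Set ↥(hs_E L h3 (N' * q)))) (ssm_fh_V1 h3 O h3O hπ N' q))
          (ssm_tp_P (fc_chart ↥O ({hs_muE h3 (N' * q) - 1, (hs_muE h3 (N' * q) - 1)⁻¹} :
            Set ↥(hs_E L h3 (N' * q)))) (ssm_fh_V2 h3 O h3O hπ N' q hq3 hqN')) 𝔫
          (ssm_bch_j h30 h3 f (N' * q) u) (ssm_bch_j h30 h3 f (N' * q) v) ((q : ℕ) : ↥O) := by
  intro 𝔫 h𝔫 hP1 hP2
  letI := ssm_gi_algebra (ssm_alh_E_le L h3 (ssm_fh_hF9 h3) N' q)
  haveI := ssm_gt_isScalarTower O (ssm_alh_E_le L h3 (ssm_fh_hF9 h3) N' q)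
  letI := ssm_gi_algebra (ssm_alh_E_le L0 h30 (ssm_fh_hF9 h30) N' q)
  haveI := ssm_gt_isScalarTower O0 (ssm_alh_E_le L0 h30 (ssm_fh_hF9 h30) N' q)
  haveI := ssm_go_isScalarTower O (hs_E L h3 (N' * q))
  haveI := ssm_go_isScalarTower O0 (hs_E L0 h30 (N' * q))
  have C0 := ssm_nh_cross h30 O0 h3O0 hπ0 N' q hq3 hqN' hprime0 hic0 hEC0
  have C1 := ssm_nh_cross h3 O h3O hπ N' q hq3 hqN' hprime hic hEC
  have H0 := ssm_fh_hyp h30 O0 h3O0 hπ0 N' q hq3 hqN' hprime0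
  have H := ssm_fh_hyp h3 O h3O hπ N' q hq3 hqN' hprime
  have hx0 : Transcendental L0 (hs_muE h30 (N' * q) - 1 : ↥(hs_E L0 h30 (N' * q))) :=
    ssm_sgm_transcendental h30 (N' * q)
  have hx : Transcendental L (hs_muE h3 (N' * q) - 1 : ↥(hs_E L h3 (N' * q))) :=
    ssm_sgm_transcendental h3 (N' * q)
  have hC0 := ssm_tp_ff_chart (L := L0) hπ0 hx0
  have hC12 := ssm_tp_ff_chart12 (L := L) hπ hx
  haveI : IsIntegrallyClosed
      (Algebra.adjoin ↥O0 ({hs_muE h30 (N' * q) - 1} : Set ↥(hs_E L0 h30 (N' * q)))) :=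
    fc_ff_isIntegrallyClosed (fc_ff_transcendental (L := L0) hx0)
  haveI : FaithfulSMul
      (Algebra.adjoin ↥O0 ({hs_muE h30 (N' * q) - 1} : Set ↥(hs_E L0 h30 (N' * q))))
      ↥(hs_E L0 h30 (N' * q)) :=
    (faithfulSMul_iff_algebraMap_injective _ _).2 Subtype.val_injective
  haveI : IsIntegrallyClosed
      (Algebra.adjoin ↥O ({hs_muE h3 (N' * q) - 1} : Set ↥(hs_E L h3 (N' * q)))) :=
    fc_ff_isIntegrallyClosed (fc_ff_transcendental (L := L) hx)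
  haveI : FaithfulSMul
      (Algebra.adjoin ↥O ({hs_muE h3 (N' * q) - 1} : Set ↥(hs_E L h3 (N' * q))))
      ↥(hs_E L h3 (N' * q)) :=
    (faithfulSMul_iff_algebraMap_injective _ _).2 Subtype.val_injective
  haveI : CharZero ↥(hs_E L0 h30 (N' * q)) :=
    charZero_of_injective_algebraMap (algebraMap L0 ↥(hs_E L0 h30 (N' * q))).injective
  have hqmax : (Ideal.span {((q : ℕ) : ↥O0)} : Ideal ↥O0).IsMaximal := by
    rw [← hπ0.maximalIdeal_eq]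
    exact IsLocalRing.maximalIdeal.isMaximal _
  refine s44mu_nx_node (ssm_bch_j h30 h3 f (N' * q)) (ssm_gb_resHom f O0 O hO)
    (ssm_bch_j_algebraMapO h30 h3 f O0 O hO (N' * q))
    (fc_chart ↥O0 ({hs_muE h30 (N' * q) - 1} : Set ↥(hs_E L0 h30 (N' * q))))
    (fc_chart ↥O ({hs_muE h3 (N' * q) - 1} : Set ↥(hs_E L h3 (N' * q))))
    (fc_chart ↥O ({hs_muE h3 (N' * q) - 1, (hs_muE h3 (N' * q) - 1)⁻¹} :
      Set ↥(hs_E L h3 (N' * q))))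
    (fc_chart1_le _) (fun b hb => ssm_bch_chart_x h30 h3 f O0 O hO (N' * q) hb) π
    q hq.out
    (Nat.cast_ne_zero.2 (NeZero.ne q)) hqmax
    (ssm_fh_V1 h30 O0 h3O0 hπ0 N' q) (ssm_fh_V2 h30 O0 h3O0 hπ0 N' q hq3 hqN')
    (ssm_fh_V1 h3 O h3O hπ N' q) (ssm_fh_V2 h3 O h3O hπ N' q hq3 hqN')
    (fun b hb => hC0.le H0.over1 hb) (fun b hb => hC0.le H0.over2 hb)
    (fun b hb => hC12.le H.over1 hb) (fun b hb => hC12.le H.over2 hb)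
    (ssm_bch_nonunits1 h30 h3 f O0 O hO h3O0 h3O hπ0 hπ (N' * q))
    (ssm_bch_nonunits2 h30 h3 f O0 O hO h3O0 h3O hπ0 hπ (ssm_fh_hF9 h30) (ssm_fh_hF9 h3) N' q
      hq.out hq3 hqN')
    C0 (map_natCast _ _) C1 (ssm_cpi_phi_algebraMap _ _) ?_ ?_ ?_ hthick 𝔫 h𝔫 hP1 hP2
  · exact ssm_bch_j_x h30 h3 f (N' * q)
  · have h := ssm_bch_j_WE h30 h3 f (ssm_fh_hF9 h30) (ssm_fh_hF9 h3) N' q hq.out hq3 hqN'
      (hs_muE h30 (N' * q) - 1)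
    rw [ssm_bch_j_x] at h
    exact h
  · intro b
    exact ssm_nx_chart_isIntegral (hs_muE h30 (N' * q) - 1 : ↥(hs_E L0 h30 (N' * q))) b

end Node

section NF

variable (L : Type) [Field L] [NumberField L] [Algebra L (AlgebraicClosure ℚ)]
  (h3 : (3 : L) ≠ 0) (O : ValuationSubring L) [IsDiscreteValuationRing O]
  (h3O : IsUnit (3 : O)) {π : O} (hπ : Irreducible π)
variable (N' q : ℕ) [NeZero N'] [NeZero q] [hq : Fact q.Prime] [CharP (ResidueField O) q]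
  (hq3 : ¬ 3 ∣ q) (hqN' : ¬ q ∣ N') (ζ : L) (hζ : IsPrimitiveRoot ζ (3 * N'))

include hζ in
set_option synthInstance.maxHeartbeats 400000 in
set_option maxHeartbeats 3200000 in
/-- **[H2-U] THE UNIFORM NODE of the Hesse cover over `(L, O, π)`**: at every maximal crossing
point of the `x`-chart, ONE pair of local coordinates `u, v` with `u v = q` exactly, fixed by every
inert automorphism of `(L, O)`. -/
theorem m59h2_s44mu_node :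
    ∀ 𝔫 : Ideal (fc_chart ↥O ({hs_muE h3 (N' * q) - 1} : Set ↥(hs_E L h3 (N' * q)))),
      𝔫.IsMaximal →
      ssm_tp_P (fc_chart ↥O ({hs_muE h3 (N' * q) - 1} : Set ↥(hs_E L h3 (N' * q))))
        (ssm_fh_V1 h3 O h3O hπ N' q) ≤ 𝔫 →
      ssm_tp_P (fc_chart ↥O ({hs_muE h3 (N' * q) - 1} : Set ↥(hs_E L h3 (N' * q))))
        (ssm_fh_V2 h3 O h3O hπ N' q hq3 hqN') ≤ 𝔫 →
      ∃ u v : ↥(hs_E L h3 (N' * q)),
        s44mu_NodeAtU π (fc_chart1_le (hs_muE h3 (N' * q) - 1 : ↥(hs_E L h3 (N' * q))))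
          (ssm_tp_P (fc_chart ↥O ({hs_muE h3 (N' * q) - 1, (hs_muE h3 (N' * q) - 1)⁻¹} :
            Set ↥(hs_E L h3 (N' * q)))) (ssm_fh_V1 h3 O h3O hπ N' q))
          (ssm_tp_P (fc_chart ↥O ({hs_muE h3 (N' * q) - 1, (hs_muE h3 (N' * q) - 1)⁻¹} :
            Set ↥(hs_E L h3 (N' * q)))) (ssm_fh_V2 h3 O h3O hπ N' q hq3 hqN')) 𝔫 u v
          ((q : ℕ) : ↥O) ∧
        ∀ (σ : L ≃+* L), ss_Inert O σ →
          ssm_sgh_aut h3 (N' * q) σ u = u ∧ ssm_sgh_aut h3 (N' * q) σ v = v := by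
  intro 𝔫 h𝔫 hP1 hP2
  have hq3' : ¬ q ∣ 3 := by
    intro h
    have := (Nat.prime_dvd_prime_iff_eq hq.out Nat.prime_three).1 h
    exact hq3 (this ▸ dvd_rfl)
  have hqM : ¬ q ∣ 3 * N' := by
    intro h
    rcases (Nat.Prime.dvd_mul hq.out).1 h with h | h
    · exact hq3' h
    · exact hqN' h
  haveI : NeZero (3 * N') := ⟨Nat.mul_ne_zero (by norm_num) (NeZero.ne N')⟩
  letI := ssm_sb_algebra ζ
  haveI := ssm_sb_numberField (3 * N') ζ hζ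
  haveI := ssm_sb_isDVR O (3 * N') q hqM ζ hζ
  haveI := ssm_sb_charP O (3 * N') q hqM ζ hζ
  have hπ0 := ssm_sb_irreducible O (3 * N') q hqM ζ hζ
  have h30 : (3 : ssm_sb_L0 ζ) ≠ 0 := three_ne_zero
  have h3O0 : IsUnit (3 : ↥(ssm_sb_O0 O ζ)) :=
    ssm_fhn_isUnit_three (ssm_sb_L0 ζ) (ssm_sb_O0 O ζ) q hq3
  obtain ⟨hprime0, hic0, hEC0⟩ := ssm_nhh_level (ssm_sb_L0 ζ) h30 (ssm_sb_O0 O ζ) hπ0 N' q hq3
    hqN' (ssm_sb_zeta ζ) (ssm_sb_zeta_prim (3 * N') ζ hζ)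
  obtain ⟨hprime, hic, hEC⟩ := ssm_nhh_level L h3 O hπ N' q hq3 hqN' ζ hζ
  obtain ⟨u, v, huv⟩ :=
    m59h2_s44mu_nl_node_of h30 h3 (ssm_sb_f ζ) (ssm_sb_O0 O ζ) O (ssm_sb_hO O ζ) h3O0 h3O hπ N' q
      hq3 hqN' hπ0 hprime0 hic0 hEC0 hprime hic hEC
      (ssm_nht_thickHyp (ssm_sb_L0 ζ) h30 (ssm_sb_O0 O ζ) h3O0 N' q hq3 hqN' hπ0 (ssm_sb_zeta ζ)
        (ssm_sb_zeta_prim (3 * N') ζ hζ)) 𝔫 h𝔫 hP1 hP2
  refine ⟨_, _, huv, fun σ hσ => ⟨?_, ?_⟩⟩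
  · exact ssm_bch_sigma_fix h30 h3 (ssm_sb_f ζ) (N' * q) σ
      (ssm_sb_fixed O (3 * N') q hqM ζ hζ σ hσ) u
  · exact ssm_bch_sigma_fix h30 h3 (ssm_sb_f ζ) (N' * q) σ
      (ssm_sb_fixed O (3 * N') q hqM ζ hζ σ hσ) v

include hζ in
/-- consistency: `m59h2_s44mu_node` gives back the node clause `ss_NodeAt` for every inert `σ`. -/
theorem m59h2_s44mu_node_nodeAt (σ : L ≃+* L) (hσ : ss_Inert O σ)
    (𝔫 : Ideal (fc_chart ↥O ({hs_muE h3 (N' * q) - 1} : Set ↥(hs_E L h3 (N' * q)))))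
    (h𝔫 : 𝔫.IsMaximal)
    (h1 : ssm_tp_P (fc_chart ↥O ({hs_muE h3 (N' * q) - 1} : Set ↥(hs_E L h3 (N' * q))))
      (ssm_fh_V1 h3 O h3O hπ N' q) ≤ 𝔫)
    (h2 : ssm_tp_P (fc_chart ↥O ({hs_muE h3 (N' * q) - 1} : Set ↥(hs_E L h3 (N' * q))))
      (ssm_fh_V2 h3 O h3O hπ N' q hq3 hqN') ≤ 𝔫) :
    ss_NodeAt π (ssm_sgh_aut h3 (N' * q) σ) (ssm_sg_base O σ hσ)
      (fc_chart1_le (hs_muE h3 (N' * q) - 1 : ↥(hs_E L h3 (N' * q))))
      (ssm_tp_P (fc_chart ↥O ({hs_muE h3 (N' * q) - 1, (hs_muE h3 (N' * q) - 1)⁻¹} :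
        Set ↥(hs_E L h3 (N' * q)))) (ssm_fh_V1 h3 O h3O hπ N' q))
      (ssm_tp_P (fc_chart ↥O ({hs_muE h3 (N' * q) - 1, (hs_muE h3 (N' * q) - 1)⁻¹} :
        Set ↥(hs_E L h3 (N' * q)))) (ssm_fh_V2 h3 O h3O hπ N' q hq3 hqN')) 𝔫 := by
  obtain ⟨u, v, huv, hfix⟩ := m59h2_s44mu_node L h3 O h3O hπ N' q hq3 hqN' ζ hζ 𝔫 h𝔫 h1 h2
  exact huv.nodeAt _ _ (map_natCast _ q) (hfix σ hσ).1

end NF

end Fermat.Agent.M59
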