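/-
M59 / box [C] Mazur at `q = 2`, HESSE PORT, cluster B-UDIV (helper28).  Prefix `m59h2_`.

Twin of `S44/Mono/NodeLegRed.lean` (`s44nlr_phi_mem_iff`) and of the NODE half of `S44/Mono/NodeDictLeg.lean`
((ND-Leg): the instance of the node dictionary on the cover), Hesse cover `E = hs_E L h3 (N' q)`,
`φ = hs_phiE h3` (`q ↦ q³`), chart coordinate `x = mu - 1`, residue map `r = m59h2_s44re_r` onto
`hs_E k' h3k N'`.  Cover-free lemmas of main (`s44ndl_jchart_le`, `s44ndl_hconst`, `s44ndl_red_j`,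
`s44ndl_hjQ`, `s44ndl_hSSQ`, `s44nlr_red*`, `s44nd_*`, `s44ndn_*`) are reused.
-/
import Mathlib
import Fermat.Agent.S44.Mono.NodeDictLeg
import Fermat.Agent.M59.Hesse2.Res.HesBad
import Fermat.Agent.M59.Hesse2.Res.HesFF
import Fermat.Agent.M59.Hesse2.Mono.HesCentre0
import Fermat.Agent.M59.Hesse2.Mono.HesCentreConv
import Fermat.Agent.M59.Hesse2.Mono.HesUNode

set_option autoImplicit false
set_option linter.unusedSectionVars false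
set_option linter.style.haveILetI false
set_option linter.unusedVariables false
set_option synthInstance.maxHeartbeats 200000
set_option maxHeartbeats 800000

noncomputable section

namespace Fermat.Agent.M59

open Polynomial ModularCurve AlgebraicCurve IntermediateField IsLocalRing
open Fermat.Agent.JT3 Fermat.Agent.SS Fermat.Agent.S35 Fermat.Agent.S24 Fermat.Agent.S28
  Fermat.Agent.S44

section Geo

variable {L : Type*} [Field L] [CharZero L] [Algebra L (AlgebraicClosure ℚ)] (h3 : (3 : L) ≠ 0)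
  (O : ValuationSubring L) [IsDiscreteValuationRing O] (h3O : IsUnit (3 : O)) {π : O}
  (hπ : Irreducible π)
variable (N' q : ℕ) [NeZero N'] [NeZero q] [hq : Fact q.Prime] [CharP (ResidueField O) q]
  (hq3 : ¬ 3 ∣ q) (hqN' : ¬ q ∣ N')

/-- `φ x ∈ V₁ ↔ x ∈ V_F`: the Gauss valuation of the Hesse field restricts to the Gauss
valuation of the base field along `φ = hs_phiE` (`X ↦ X³`). -/
theorem m59h2_s44nlr_phi_mem_iff (x : ↥(lg_F L (N' * q))) :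
    hs_phiE h3 (N := N' * q) x ∈ ssm_fh_V1 h3 O h3O hπ N' q ↔ x ∈ s44mz_VF O hπ N' q := by
  have hquot : gq_IsQuot ↥O L (x : LaurentSeries L) := rdn_gf_le_quotField O (N' * q) x.2
  have hcoe : ((hs_phiE h3 (N := N' * q) x : ↥(hs_E L h3 (N' * q))) : LaurentSeries L) =
      qExpand L 3 (x : LaurentSeries L) := rfl
  constructor
  · intro hy
    have hyb : gq_IsBdd ↥O L
        ((hs_phiE h3 (N := N' * q) x : ↥(hs_E L h3 (N' * q))) : LaurentSeries L) := hy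
    exact (ssm_ga_beta_isBdd_iff 3 π hπ.ne_zero hπ.maximalIdeal_eq hquot).1 (hcoe ▸ hyb)
  · intro hx
    have hb : gq_IsBdd ↥O L (x : LaurentSeries L) := hx
    have : gq_IsBdd ↥O L
        ((hs_phiE h3 (N := N' * q) x : ↥(hs_E L h3 (N' * q))) : LaurentSeries L) :=
      ssm_ga_beta_isBdd 3 hb
    exact this

/-- `V₁` is discrete with uniformiser `π`. -/
theorem m59h2_s44ndl_unif (z : ↥(hs_E L h3 (N' * q))) (hz : z ≠ 0) :
    ∃ n : ℤ, ssl_VUnit (ssm_fh_V1 h3 O h3O hπ N' q)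
      (z / algebraMap ↥O ↥(hs_E L h3 (N' * q)) π ^ n) := by
  have hquot : gq_IsQuot ↥O L (z : LaurentSeries L) := hsa_E_le_quotField h3 O (N' * q) h3O z.2
  have hz0 : (z : LaurentSeries L) ≠ 0 := fun h => hz (Subtype.ext h)
  obtain ⟨n, h1, h2⟩ := s44mv_exists_zpow O hπ hquot hz0
  refine ⟨n, ?_⟩
  have hϖ0 : algebraMap ↥O ↥(hs_E L h3 (N' * q)) π ≠ 0 := by
    intro h
    have h3' : algebraMap L ↥(hs_E L h3 (N' * q)) (π : L) = 0 := h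
    rw [map_eq_zero] at h3'
    exact hπ.ne_zero (Subtype.ext h3')
  have hcoe : ((z / algebraMap ↥O ↥(hs_E L h3 (N' * q)) π ^ n : ↥(hs_E L h3 (N' * q))) :
      LaurentSeries L) = (z : LaurentSeries L) / algebraMap L (LaurentSeries L) (π : L) ^ n := by
    show (hs_E L h3 (N' * q)).val (z / algebraMap ↥O ↥(hs_E L h3 (N' * q)) π ^ n) = _
    rw [map_div₀, map_zpow₀]
    rfl
  refine ⟨div_ne_zero hz (zpow_ne_zero _ hϖ0), ?_, ?_⟩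
  · have : gq_IsBdd ↥O L ((z / algebraMap ↥O ↥(hs_E L h3 (N' * q)) π ^ n : ↥(hs_E L h3 (N' * q))) :
        LaurentSeries L) := by
      rw [hcoe]
      exact h1
    exact this
  · have : gq_IsBdd ↥O L (((z / algebraMap ↥O ↥(hs_E L h3 (N' * q)) π ^ n)⁻¹ :
        ↥(hs_E L h3 (N' * q))) : LaurentSeries L) := by
      rw [IntermediateField.coe_inv, hcoe]
      exact h2
    exact this


include hπ in
theorem m59h2_s44ndl_pi_ne : algebraMap ↥O ↥(hs_E L h3 (N' * q)) π ≠ 0 := by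
  intro h
  have h3' : algebraMap L ↥(hs_E L h3 (N' * q)) (π : L) = 0 := h
  rw [map_eq_zero] at h3'
  exact hπ.ne_zero (Subtype.ext h3')

include hq3 hqN' in
/-- elements of `𝔪_O` lie in `𝔪(V₁)`. -/
theorem m59h2_s44ndl_max_mem (a : ↥O) (ha : a ∈ maximalIdeal ↥O) :
    algebraMap ↥O ↥(hs_E L h3 (N' * q)) a ∈ (ssm_fh_V1 h3 O h3O hπ N' q).nonunits := by
  have hA1 : algebraMap ↥O ↥(hs_E L h3 (N' * q)) a ∈ ssm_fh_V1 h3 O h3O hπ N' q := s44re_isBdd_const O a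
  rw [← m59h2_s44re_r_eq_zero_iff h3 O h3O hπ N' q hq3 hqN' ⟨_, hA1⟩, m59h2_s44re_r_const,
    (residue_eq_zero_iff a).2 ha, map_zero]


/-- `φ = lg_phiE` as a ring homomorphism. -/
abbrev m59h2_s44ndl_phi (L : Type*) [Field L] (h3 : (3 : L) ≠ 0) (N : ℕ) [NeZero N] :
    ↥(lg_F L N) →+* ↥(hs_E L h3 N) :=
  (hs_phiE h3 (N := N)).toRingHom

theorem m59h2_s44ndl_phi_apply (N : ℕ) [NeZero N] (x : ↥(lg_F L N)) :
    m59h2_s44ndl_phi L h3 N x = hs_phiE h3 (N := N) x := rfl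

theorem m59h2_s44ndl_phi_const (N : ℕ) [NeZero N] (a : ↥O) :
    hs_phiE h3 (N := N) (algebraMap ↥O ↥(lg_F L N) a) = algebraMap ↥O ↥(hs_E L h3 N) a :=
  (hs_phiE h3 (N := N)).commutes (a : L)

/-- the local instances on the `λ`-chart. -/
theorem m59h2_s44ndl_chart_inst :
    IsFractionRing ↥(fc_chart ↥O ({(hs_muE h3 (N' * q) - 1)} : Set ↥(hs_E L h3 (N' * q))))
      ↥(hs_E L h3 (N' * q)) ∧
    IsNoetherianRing ↥(fc_chart ↥O ({(hs_muE h3 (N' * q) - 1)} : Set ↥(hs_E L h3 (N' * q)))) ∧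
    IsIntegrallyClosed ↥(fc_chart ↥O ({(hs_muE h3 (N' * q) - 1)} : Set ↥(hs_E L h3 (N' * q)))) := by
  haveI := ssm_go_isScalarTower O (hs_E L h3 (N' * q))
  haveI := ssm_glh_finite h3 (N' * q)
  have hx : Transcendental L ((hs_muE h3 (N' * q) - 1)) :=
    ssm_sgm_transcendental h3 (N' * q)
  exact ⟨ssm_ths_chart_isFractionRing (A0 := ↥O) (L := L) _,
    ssm_ths_chart_isNoetherianRing (A0 := ↥O) (L := L) hx,
    ssm_ths_chart_isIntegrallyClosed (A0 := ↥O) (L := L) _⟩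

section Hyp

variable (hprime : Prime (algebraMap ↥O (fc_chart ↥O ({(hs_muE h3 N' - 1)} : Set ↥(hs_E L h3 N'))) π))

include hq3 hqN' hprime in
/-- `V₁ = B_{P₁}`. -/
theorem m59h2_s44ndl_loc (z : ↥(hs_E L h3 (N' * q))) (hz : z ∈ ssm_fh_V1 h3 O h3O hπ N' q) :
    ∃ b s : ↥(fc_chart ↥O ({(hs_muE h3 (N' * q) - 1)} : Set ↥(hs_E L h3 (N' * q)))),
      s ∉ ssm_tp_P (fc_chart ↥O ({(hs_muE h3 (N' * q) - 1)} : Set ↥(hs_E L h3 (N' * q))))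
        (ssm_fh_V1 h3 O h3O hπ N' q) ∧ z * (s : ↥(hs_E L h3 (N' * q))) = (b : ↥(hs_E L h3 (N' * q))) := by
  haveI := ssm_go_isScalarTower O (hs_E L h3 (N' * q))
  have hx : Transcendental L ((hs_muE h3 (N' * q) - 1)) :=
    ssm_sgm_transcendental h3 (N' * q)
  have hyA : Transcendental ↥O ((hs_muE h3 (N' * q) - 1)) := fc_ff_transcendental (L := L) hx
  haveI : IsIntegrallyClosed (Algebra.adjoin ↥O ({(hs_muE h3 (N' * q) - 1)} : Set ↥(hs_E L h3 (N' * q)))) :=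
    fc_ff_isIntegrallyClosed hyA
  haveI : FaithfulSMul (Algebra.adjoin ↥O ({(hs_muE h3 (N' * q) - 1)} : Set ↥(hs_E L h3 (N' * q))))
      ↥(hs_E L h3 (N' * q)) :=
    (faithfulSMul_iff_algebraMap_injective _ _).2 Subtype.val_injective
  have H := ssm_fh_hyp h3 O h3O hπ N' q hq3 hqN' hprime
  have hC := ssm_tp_ff_chart (L := L) hπ hx
  obtain ⟨t, ht, htz⟩ := (H.mem_V1_iff hC).1 hz
  exact ⟨⟨_, htz⟩, t, ht, mul_comm _ _⟩

include hq3 hqN' hprime in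
/-- `B₁₂ ⊆ V₁`. -/
theorem m59h2_s44ndl_B12_le (b : ↥(hs_E L h3 (N' * q)))
    (hb : b ∈ fc_chart ↥O ({(hs_muE h3 (N' * q) - 1), ((hs_muE h3 (N' * q) - 1))⁻¹} : Set ↥(hs_E L h3 (N' * q)))) :
    b ∈ ssm_fh_V1 h3 O h3O hπ N' q := by
  haveI := ssm_go_isScalarTower O (hs_E L h3 (N' * q))
  have hx : Transcendental L ((hs_muE h3 (N' * q) - 1)) :=
    ssm_sgm_transcendental h3 (N' * q)
  have hyA : Transcendental ↥O ((hs_muE h3 (N' * q) - 1)) := fc_ff_transcendental (L := L) hx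
  haveI : IsIntegrallyClosed (Algebra.adjoin ↥O ({(hs_muE h3 (N' * q) - 1)} : Set ↥(hs_E L h3 (N' * q)))) :=
    fc_ff_isIntegrallyClosed hyA
  haveI : FaithfulSMul (Algebra.adjoin ↥O ({(hs_muE h3 (N' * q) - 1)} : Set ↥(hs_E L h3 (N' * q))))
      ↥(hs_E L h3 (N' * q)) :=
    (faithfulSMul_iff_algebraMap_injective _ _).2 Subtype.val_injective
  have H := ssm_fh_hyp h3 O h3O hπ N' q hq3 hqN' hprime
  exact (ssm_tp_ff_chart12 (L := L) hπ hx).le H.over1 hb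

end Hyp

include hq3 hqN' in
/-- `hs_E k' h3 N'` is algebraic over `k'(λ̄)`. -/
theorem m59h2_s44ndl_alg :
    Algebra.IsAlgebraic (ResidueField O)⟮(hs_muE (m59h2_h3k O h3O) N' : ↥(hs_E (ResidueField O) (m59h2_h3k O h3O) N'))⟯
      ↥(hs_E (ResidueField O) (m59h2_h3k O h3O) N') := by
  have hqO : ((q : ℕ) : O) ∈ maximalIdeal O := by
    rw [← residue_eq_zero_iff, map_natCast]
    exact CharP.cast_eq_zero _ q
  obtain ⟨ρO⟩ := lgv_exists_rhoO (L := L) (O := ↥O) (IsFractionRing.injective ↥O L) q hqO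
  haveI := m59h2_s44rl_finite_lam (ResidueField O) (m59h2_h3k O h3O) N' hqN'
    ((residue ↥O).comp ρO)
  exact Algebra.IsAlgebraic.of_finite _ _

section Centre

variable (hprime : Prime (algebraMap ↥O (fc_chart ↥O ({(hs_muE h3 N' - 1)} : Set ↥(hs_E L h3 N'))) π))
  {κ0 : Type*} [Field κ0] (red : ↥(s44mz_VF O hπ N' q) →+* κ0)
  (hker0 : ∀ z : ↥(s44mz_VF O hπ N' q),
    (z : ↥(lg_F L (N' * q))) ∈ (s44mz_VF O hπ N' q).nonunits → red z = 0)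
  {kA : Type*} [Field kA] [Algebra kA κ0] (Q : Place kA κ0)
  (𝒲 : ValuationSubring ↥(hs_E (ResidueField O) (m59h2_h3k O h3O) N'))
  (hext : ∀ x : ↥(lg_F L (N' * q)),
    m59h2_s44ndl_phi L h3 (N' * q) x ∈ tori_comp (ssm_fh_V1 h3 O h3O hπ N' q) (m59h2_s44re_r h3 O h3O hπ N' q hq3 hqN')
        (m59h2_s44re_r_hker h3 O h3O hπ N' q hq3 hqN') 𝒲 ↔
      x ∈ tori_comp (s44mz_VF O hπ N' q) red hker0 Q.toValuationSubring)

include hext in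
/-- the constants of `k'` lie in `𝒲`. -/
theorem m59h2_s44ndl_const_mem
    (hconst : ∀ a : ↥O, red ⟨algebraMap ↥O ↥(lg_F L (N' * q)) a, s44nlr_const_mem O hπ N' q a⟩ ∈
      Q.toValuationSubring)
    (c : ResidueField O) :
    algebraMap (ResidueField O) ↥(hs_E (ResidueField O) (m59h2_h3k O h3O) N') c ∈ 𝒲 := by
  obtain ⟨a, rfl⟩ := residue_surjective c
  have h1 : algebraMap ↥O ↥(lg_F L (N' * q)) a ∈
      tori_comp (s44mz_VF O hπ N' q) red hker0 Q.toValuationSubring :=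
    ⟨s44nlr_const_mem O hπ N' q a, hconst a⟩
  obtain ⟨h2, h3'⟩ := (hext _).2 h1
  have h4 : m59h2_s44ndl_phi L h3 (N' * q) (algebraMap ↥O ↥(lg_F L (N' * q)) a) =
      algebraMap ↥O ↥(hs_E L h3 (N' * q)) a := m59h2_s44ndl_phi_const h3 O (N' * q) a
  have h5 : (⟨m59h2_s44ndl_phi L h3 (N' * q) (algebraMap ↥O ↥(lg_F L (N' * q)) a), h2⟩ :
      ↥(ssm_fh_V1 h3 O h3O hπ N' q)) = ⟨algebraMap ↥O ↥(hs_E L h3 (N' * q)) a, h4 ▸ h2⟩ :=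
    Subtype.ext h4
  rw [h5, m59h2_s44re_r_const] at h3'
  exact h3'

include hext in
/-- `𝒲` is not the trivial valuation ring. -/
theorem m59h2_s44ndl_ne_top (hCFE : ∃ t : ↥(s44mz_VF O hπ N' q), Q.ord (red t) = 1) : 𝒲 ≠ ⊤ := by
  obtain ⟨t, ht⟩ := hCFE
  intro htop
  have hrt0 : red t ≠ 0 := by
    intro h0
    rw [h0, Place.ord_zero] at ht
    exact zero_ne_one ht
  have htnu : (t : ↥(lg_F L (N' * q))) ∉ (s44mz_VF O hπ N' q).nonunits := fun h =>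
    hrt0 (hker0 t h)
  rw [ValuationSubring.mem_nonunits_iff_or, not_or, not_not] at htnu
  obtain ⟨ht0, htinv⟩ := htnu
  -- `φ t⁻¹ ∈ 𝒱'` because `𝒲 = ⊤`
  have h1 : m59h2_s44ndl_phi L h3 (N' * q) (t : ↥(lg_F L (N' * q)))⁻¹ ∈
      tori_comp (ssm_fh_V1 h3 O h3O hπ N' q) (m59h2_s44re_r h3 O h3O hπ N' q hq3 hqN')
        (m59h2_s44re_r_hker h3 O h3O hπ N' q hq3 hqN') 𝒲 := by
    refine ⟨(m59h2_s44nlr_phi_mem_iff h3 O h3O hπ N' q _).2 htinv, ?_⟩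
    rw [htop]
    exact ValuationSubring.mem_top _
  obtain ⟨h2, h3'⟩ := (hext _).1 h1
  have h4 : red ⟨(t : ↥(lg_F L (N' * q)))⁻¹, h2⟩ = (red t)⁻¹ := by
    have hmul : t * ⟨(t : ↥(lg_F L (N' * q)))⁻¹, h2⟩ = 1 := Subtype.ext (mul_inv_cancel₀ ht0)
    have h5 : red t * red ⟨(t : ↥(lg_F L (N' * q)))⁻¹, h2⟩ = 1 := by
      rw [← map_mul, hmul, map_one]
    exact eq_inv_of_mul_eq_one_right h5
  rw [h4] at h3'
  have h6 := (hw_mem_iff_ord_nonneg Q (inv_ne_zero hrt0)).1 h3'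
  rw [Q.ord_inv, ht] at h6
  omega

include hext hprime in
/-- **the centre of `𝒱' = tori_comp V₁ r _ 𝒲`** on the `λ`-chart (all clauses of
`m59h2_s44mz_centre_comp0`), for ANY `𝒲` with `hext`. -/
theorem m59h2_s44ndl_centre
    (hconst : ∀ a : ↥O, red ⟨algebraMap ↥O ↥(lg_F L (N' * q)) a, s44nlr_const_mem O hπ N' q a⟩ ∈
      Q.toValuationSubring)
    (hjQ : ∃ h : rpz_jF L (N' * q) ∈ s44mz_VF O hπ N' q,
      red ⟨rpz_jF L (N' * q), h⟩ ∈ Q.toValuationSubring)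
    (hCFE : ∃ t : ↥(s44mz_VF O hπ N' q), Q.ord (red t) = 1) :
    (∀ a : ↥O, algebraMap ↥O ↥(hs_E L h3 (N' * q)) a ∈
      tori_comp (ssm_fh_V1 h3 O h3O hπ N' q) (m59h2_s44re_r h3 O h3O hπ N' q hq3 hqN')
        (m59h2_s44re_r_hker h3 O h3O hπ N' q hq3 hqN') 𝒲) ∧
    m59h2_s44mz_j2E L h3 (N' * q) ∈ tori_comp (ssm_fh_V1 h3 O h3O hπ N' q) (m59h2_s44re_r h3 O h3O hπ N' q hq3 hqN')
        (m59h2_s44re_r_hker h3 O h3O hπ N' q hq3 hqN') 𝒲 ∧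
    (hs_muE h3 (N' * q) - 1) ∈ tori_comp (ssm_fh_V1 h3 O h3O hπ N' q) (m59h2_s44re_r h3 O h3O hπ N' q hq3 hqN')
        (m59h2_s44re_r_hker h3 O h3O hπ N' q hq3 hqN') 𝒲 ∧
    (∀ b ∈ fc_chart ↥O ({(hs_muE h3 (N' * q) - 1)} : Set ↥(hs_E L h3 (N' * q))),
      b ∈ tori_comp (ssm_fh_V1 h3 O h3O hπ N' q) (m59h2_s44re_r h3 O h3O hπ N' q hq3 hqN')
        (m59h2_s44re_r_hker h3 O h3O hπ N' q hq3 hqN') 𝒲) ∧
    (ssm_tp_P (fc_chart ↥O ({(hs_muE h3 (N' * q) - 1)} : Set ↥(hs_E L h3 (N' * q))))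
      (tori_comp (ssm_fh_V1 h3 O h3O hπ N' q) (m59h2_s44re_r h3 O h3O hπ N' q hq3 hqN')
        (m59h2_s44re_r_hker h3 O h3O hπ N' q hq3 hqN') 𝒲)).IsMaximal ∧
    (∀ b : ↥(fc_chart ↥O ({(hs_muE h3 (N' * q) - 1)} : Set ↥(hs_E L h3 (N' * q)))),
      b ∈ ssm_tp_P (fc_chart ↥O ({(hs_muE h3 (N' * q) - 1)} : Set ↥(hs_E L h3 (N' * q))))
          (tori_comp (ssm_fh_V1 h3 O h3O hπ N' q) (m59h2_s44re_r h3 O h3O hπ N' q hq3 hqN')
            (m59h2_s44re_r_hker h3 O h3O hπ N' q hq3 hqN') 𝒲) ↔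
        (b : ↥(hs_E L h3 (N' * q))) ∈
          (tori_comp (ssm_fh_V1 h3 O h3O hπ N' q) (m59h2_s44re_r h3 O h3O hπ N' q hq3 hqN')
            (m59h2_s44re_r_hker h3 O h3O hπ N' q hq3 hqN') 𝒲).nonunits) ∧
    algebraMap ↥O ↥(hs_E L h3 (N' * q)) π ∈
      (tori_comp (ssm_fh_V1 h3 O h3O hπ N' q) (m59h2_s44re_r h3 O h3O hπ N' q hq3 hqN')
        (m59h2_s44re_r_hker h3 O h3O hπ N' q hq3 hqN') 𝒲).nonunits ∧
    ssm_tp_P (fc_chart ↥O ({(hs_muE h3 (N' * q) - 1)} : Set ↥(hs_E L h3 (N' * q))))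
        (ssm_fh_V1 h3 O h3O hπ N' q) ≤
      ssm_tp_P (fc_chart ↥O ({(hs_muE h3 (N' * q) - 1)} : Set ↥(hs_E L h3 (N' * q))))
        (tori_comp (ssm_fh_V1 h3 O h3O hπ N' q) (m59h2_s44re_r h3 O h3O hπ N' q hq3 hqN')
          (m59h2_s44re_r_hker h3 O h3O hπ N' q hq3 hqN') 𝒲) := by
  haveI := m59h2_s44ndl_alg O h3O N' q hq3 hqN'
  have hk𝒲 := m59h2_s44ndl_const_mem h3 O h3O hπ N' q hq3 hqN' red hker0 Q 𝒲 hext hconst
  have hne := m59h2_s44ndl_ne_top h3 O h3O hπ N' q hq3 hqN' red hker0 Q 𝒲 hext hCFE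
  have hj : ∃ h : m59h2_s44mz_j2E L h3 (N' * q) ∈ ssm_fh_V1 h3 O h3O hπ N' q,
      m59h2_s44re_r h3 O h3O hπ N' q hq3 hqN' ⟨m59h2_s44mz_j2E L h3 (N' * q), h⟩ ∈ 𝒲 := by
    obtain ⟨h1, h2⟩ := hjQ
    have h3' : rpz_jF L (N' * q) ∈
        tori_comp (s44mz_VF O hπ N' q) red hker0 Q.toValuationSubring := ⟨h1, h2⟩
    have hφj : m59h2_s44ndl_phi L h3 (N' * q) (rpz_jF L (N' * q)) = m59h2_s44mz_j2E L h3 (N' * q) :=
      Subtype.ext rfl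
    obtain ⟨h4, h5⟩ := (hext _).2 h3'
    have h6 : m59h2_s44mz_j2E L h3 (N' * q) ∈ ssm_fh_V1 h3 O h3O hπ N' q := hφj ▸ h4
    refine ⟨h6, ?_⟩
    have h7 : (⟨m59h2_s44mz_j2E L h3 (N' * q), h6⟩ : ↥(ssm_fh_V1 h3 O h3O hπ N' q)) =
        ⟨m59h2_s44ndl_phi L h3 (N' * q) (rpz_jF L (N' * q)), h4⟩ := Subtype.ext hφj.symm
    rw [h7]
    exact h5
  have hA1 : ∀ a : ↥O, algebraMap ↥O ↥(hs_E L h3 (N' * q)) a ∈ ssm_fh_V1 h3 O h3O hπ N' q :=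
    fun a => s44re_isBdd_const O a
  have hc := m59h2_s44mz_centre_comp0 h3 O h3O hπ N' q hq3 hqN' hprime (residue ↥O) residue_surjective
    (m59h2_s44re_r h3 O h3O hπ N' q hq3 hqN') (m59h2_s44re_r_hker h3 O h3O hπ N' q hq3 hqN')
    (fun a h => m59h2_s44re_r_const h3 O h3O hπ N' q hq3 hqN' a h)
    (hs_muE (m59h2_h3k O h3O) N' : ↥(hs_E (ResidueField O) (m59h2_h3k O h3O) N')) 𝒲 hk𝒲 hne hj
  refine ⟨fun a => ⟨hA1 a, ?_⟩, hj, hc⟩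
  rw [m59h2_s44re_r_const]
  exact hk𝒲 _

end Centre

end Geo

/-! ### the node case -/

section NodeCase

variable (L : Type) [Field L] [NumberField L] [Algebra L (AlgebraicClosure ℚ)]
  (h3 : (3 : L) ≠ 0) (O : ValuationSubring L) [IsDiscreteValuationRing O]
  (h3O : IsUnit (3 : O)) {π : O} (hπ : Irreducible π)
variable (N' q : ℕ) [NeZero N'] [NeZero q] [hq : Fact q.Prime] [CharP (ResidueField O) q]
  (hq3 : ¬ 3 ∣ q) (hqN' : ¬ q ∣ N') (ζ : L) (hζ : IsPrimitiveRoot ζ (3 * N'))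

/-- the composite valuation ring `𝒱' = tori_comp V₁ r _ 𝒲`. -/
abbrev m59h2_s44ndl_V (𝒲 : ValuationSubring ↥(hs_E (ResidueField O) (m59h2_h3k O h3O) N')) :
    ValuationSubring ↥(hs_E L h3 (N' * q)) :=
  tori_comp (ssm_fh_V1 h3 O h3O hπ N' q) (m59h2_s44re_r h3 O h3O hπ N' q hq3 hqN')
    (m59h2_s44re_r_hker h3 O h3O hπ N' q hq3 hqN') 𝒲

/-- its centre on the `λ`-chart. -/
abbrev m59h2_s44ndl_n (𝒲 : ValuationSubring ↥(hs_E (ResidueField O) (m59h2_h3k O h3O) N')) :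
    Ideal ↥(fc_chart ↥O ({(hs_muE h3 (N' * q) - 1)} : Set ↥(hs_E L h3 (N' * q)))) :=
  ssm_tp_P (fc_chart ↥O ({(hs_muE h3 (N' * q) - 1)} : Set ↥(hs_E L h3 (N' * q))))
    (m59h2_s44ndl_V L h3 O h3O hπ N' q hq3 hqN' 𝒲)

include hπ hq3 hqN' hζ in
/-- `π` is prime on the level-`N'` chart. -/
theorem m59h2_s44ndl_prime :
    Prime (algebraMap ↥O (fc_chart ↥O ({(hs_muE h3 N' - 1)} : Set ↥(hs_E L h3 N'))) π) :=
  (ssm_nhh_level L h3 O hπ N' q hq3 hqN' ζ hζ).1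

variable {κ0 : Type*} [Field κ0] (red : ↥(s44mz_VF O hπ N' q) →+* κ0)
  (hker0 : ∀ z : ↥(s44mz_VF O hπ N' q),
    (z : ↥(lg_F L (N' * q))) ∈ (s44mz_VF O hπ N' q).nonunits → red z = 0)
  {kA : Type*} [Field kA] [Algebra kA κ0] (Q : Place kA κ0)
  (𝒲 : ValuationSubring ↥(hs_E (ResidueField O) (m59h2_h3k O h3O) N'))
  (hext : ∀ x : ↥(lg_F L (N' * q)),
    m59h2_s44ndl_phi L h3 (N' * q) x ∈ m59h2_s44ndl_V L h3 O h3O hπ N' q hq3 hqN' 𝒲 ↔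
      x ∈ tori_comp (s44mz_VF O hπ N' q) red hker0 Q.toValuationSubring)

include hζ hext in
/-- **(ND-Leg), NODE CASE (generic reduction data).** -/
theorem m59h2_s44ndl_node
    (hconst : ∀ a : ↥O, red ⟨algebraMap ↥O ↥(lg_F L (N' * q)) a, s44nlr_const_mem O hπ N' q a⟩ ∈
      Q.toValuationSubring)
    (hjQ : ∃ h : rpz_jF L (N' * q) ∈ s44mz_VF O hπ N' q,
      red ⟨rpz_jF L (N' * q), h⟩ ∈ Q.toValuationSubring)
    (hCFE : ∃ t : ↥(s44mz_VF O hπ N' q), Q.ord (red t) = 1)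
    (hSSQ : ∀ b : ↥(lg_F L (N' * q)),
      b ∈ fc_chart ↥O ({rpz_jF L (N' * q)} : Set ↥(lg_F L (N' * q))) →
      ssm_al_W L N' q hq.out hqN' b ∈ (s44mz_VF O hπ N' q).nonunits →
      ∃ h : b ∈ s44mz_VF O hπ N' q, red ⟨b, h⟩ ∈ Q.toValuationSubring.nonunits)
    (h𝔫 : (m59h2_s44ndl_n L h3 O h3O hπ N' q hq3 hqN' 𝒲).IsMaximal) :
    haveI := (m59h2_s44ndl_chart_inst h3 O N' q).1
    haveI := (m59h2_s44ndl_chart_inst h3 O N' q).2.1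
    haveI := (m59h2_s44ndl_chart_inst h3 O N' q).2.2
    haveI := h𝔫.isPrime
    haveI := ssl_loc_isLocalRing (F0 := ↥(hs_E L h3 (N' * q))) (m59h2_s44ndl_n L h3 O h3O hπ N' q hq3 hqN' 𝒲)
    haveI := ssl_loc_isNoetherianRing (F0 := ↥(hs_E L h3 (N' * q)))
      (m59h2_s44ndl_n L h3 O h3O hπ N' q hq3 hqN' 𝒲)
    ssm_tp_P (fc_chart ↥O ({(hs_muE h3 (N' * q) - 1)} : Set ↥(hs_E L h3 (N' * q))))
        (ssm_fh_V2 h3 O h3O hπ N' q hq3 hqN') ≤ m59h2_s44ndl_n L h3 O h3O hπ N' q hq3 hqN' 𝒲 ∧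
    ∃ u v : ↥(hs_E L h3 (N' * q)),
      s44mu_NodeAtU π (fc_chart1_le ((hs_muE h3 (N' * q) - 1) : ↥(hs_E L h3 (N' * q))))
        (ssm_tp_P (fc_chart ↥O ({(hs_muE h3 (N' * q) - 1), ((hs_muE h3 (N' * q) - 1))⁻¹} :
          Set ↥(hs_E L h3 (N' * q)))) (ssm_fh_V1 h3 O h3O hπ N' q))
        (ssm_tp_P (fc_chart ↥O ({(hs_muE h3 (N' * q) - 1), ((hs_muE h3 (N' * q) - 1))⁻¹} :
          Set ↥(hs_E L h3 (N' * q)))) (ssm_fh_V2 h3 O h3O hπ N' q hq3 hqN'))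
        (m59h2_s44ndl_n L h3 O h3O hπ N' q hq3 hqN' 𝒲) u v ((q : ℕ) : ↥O) ∧
      (∀ (σ : L ≃+* L), ss_Inert O σ →
        ssm_sgh_aut h3 (N' * q) σ u = u ∧ ssm_sgh_aut h3 (N' * q) σ v = v) ∧
      ∃ (huS : u ∈ ssl_locSub ↥(hs_E L h3 (N' * q)) (m59h2_s44ndl_n L h3 O h3O hπ N' q hq3 hqN' 𝒲))
        (T : ℕ) (ν : ↥(hs_E L h3 (N' * q)) → ℤ), 0 < T ∧
        s44nu_IsNu
          (algebraMap ↥(fc_chart ↥O ({(hs_muE h3 (N' * q) - 1)} : Set ↥(hs_E L h3 (N' * q))))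
            ↥(ssl_locSub ↥(hs_E L h3 (N' * q)) (m59h2_s44ndl_n L h3 O h3O hπ N' q hq3 hqN' 𝒲))
            (algebraMap ↥O ↥(fc_chart ↥O ({(hs_muE h3 (N' * q) - 1)} : Set ↥(hs_E L h3 (N' * q)))) π))
          (⟨u, huS⟩ : ↥(ssl_locSub ↥(hs_E L h3 (N' * q)) (m59h2_s44ndl_n L h3 O h3O hπ N' q hq3 hqN' 𝒲)))
          (s44tl_br (m59h2_s44ndl_n L h3 O h3O hπ N' q hq3 hqN' 𝒲)
            (fc_chart1_le ((hs_muE h3 (N' * q) - 1) : ↥(hs_E L h3 (N' * q))))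
            (ssm_tp_P (fc_chart ↥O ({(hs_muE h3 (N' * q) - 1), ((hs_muE h3 (N' * q) - 1))⁻¹} :
              Set ↥(hs_E L h3 (N' * q)))) (ssm_fh_V1 h3 O h3O hπ N' q))) ν ∧
        ∀ b : ↥(s44mz_VF O hπ N' q), IsUnit b →
          ν (hs_phiE h3 (N := N' * q) (b : ↥(lg_F L (N' * q)))) =
            (T : ℤ) * Q.ord (red b) := by
  haveI := (m59h2_s44ndl_chart_inst h3 O N' q).1
  haveI := (m59h2_s44ndl_chart_inst h3 O N' q).2.1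
  haveI := (m59h2_s44ndl_chart_inst h3 O N' q).2.2
  haveI := h𝔫.isPrime
  haveI := ssl_loc_isLocalRing (F0 := ↥(hs_E L h3 (N' * q))) (m59h2_s44ndl_n L h3 O h3O hπ N' q hq3 hqN' 𝒲)
  haveI := ssl_loc_isNoetherianRing (F0 := ↥(hs_E L h3 (N' * q)))
    (m59h2_s44ndl_n L h3 O h3O hπ N' q hq3 hqN' 𝒲)
  have hprime := m59h2_s44ndl_prime L h3 O hπ N' q hq3 hqN' ζ hζ
  obtain ⟨hO𝒱, hj𝒱, -, hB, -, h𝔫eq, hπ𝔫, hP1⟩ :=
    m59h2_s44ndl_centre h3 O h3O hπ N' q hq3 hqN' hprime red hker0 Q 𝒲 hext hconst hjQ hCFE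
  -- supersingularity at `𝒱'`
  have hSS : ∀ b : ↥(lg_F L (N' * q)),
      b ∈ fc_chart ↥O ({rpz_jF L (N' * q)} : Set ↥(lg_F L (N' * q))) →
      ssm_al_W L N' q hq.out hqN' b ∈ (s44mz_VF O hπ N' q).nonunits →
      hs_phiE h3 (N := N' * q) b ∈ (m59h2_s44ndl_V L h3 O h3O hπ N' q hq3 hqN' 𝒲).nonunits := by
    intro b hb hWb
    have h1 : b ∈ (tori_comp (s44mz_VF O hπ N' q) red hker0 Q.toValuationSubring).nonunits :=
      (tori_comp_mem_nonunits_iff _ _ _ _).2 (hSSQ b hb hWb)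
    exact (s44nd_nonunits_iff (m59h2_s44ndl_phi L h3 (N' * q)) (s44mz_VF O hπ N' q)
      (ssm_fh_V1 h3 O h3O hπ N' q) red hker0 Q (m59h2_s44re_r h3 O h3O hπ N' q hq3 hqN')
      (m59h2_s44re_r_hker h3 O h3O hπ N' q hq3 hqN') 𝒲 hext b).2 h1
  have hP2 := m59h2_s44mz_P2_le_chart h3 O h3O hπ N' q hq3 hqN' hprime (m59h2_s44ndl_V L h3 O h3O hπ N' q hq3 hqN' 𝒲)
    hO𝒱 hj𝒱 hSS
  obtain ⟨u, v, hNode, hfix⟩ := m59h2_s44mu_node L h3 O h3O hπ N' q hq3 hqN' ζ hζ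
    (m59h2_s44ndl_n L h3 O h3O hπ N' q hq3 hqN' 𝒲) h𝔫 hP1 hP2
  refine ⟨hP2, u, v, hNode, hfix, ?_⟩
  -- the data of `s44ndn_main`
  have hπmax : π ∈ maximalIdeal ↥O := by
    rw [hπ.maximalIdeal_eq]; exact Ideal.mem_span_singleton_self π
  have H1nu : algebraMap ↥O ↥(hs_E L h3 (N' * q)) π ∈ (ssm_fh_V1 h3 O h3O hπ N' q).nonunits :=
    m59h2_s44ndl_max_mem h3 O h3O hπ N' q hq3 hqN' π hπmax
  have hϖ0 : algebraMap ↥O ↥(hs_E L h3 (N' * q)) π ≠ 0 := m59h2_s44ndl_pi_ne h3 O hπ N' q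
  have ha : algebraMap ↥O ↥(hs_E L h3 (N' * q)) ((q : ℕ) : ↥O) ∈ (ssm_fh_V1 h3 O h3O hπ N' q).nonunits :=
    m59h2_s44ndl_max_mem h3 O h3O hπ N' q hq3 hqN' _ (ssm_fln_q_mem L O q)
  have hB12V := m59h2_s44ndl_B12_le h3 O h3O hπ N' q hq3 hqN' hprime
  have hpass : ssm_tp_P (fc_chart ↥O ({(hs_muE h3 (N' * q) - 1)} : Set ↥(hs_E L h3 (N' * q))))
      (ssm_fh_V1 h3 O h3O hπ N' q) ≤ m59h2_s44ndl_n L h3 O h3O hπ N' q hq3 hqN' 𝒲 := hP1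
  obtain ⟨huS, -⟩ := s44ndn_coords (m59h2_s44ndl_n L h3 O h3O hπ N' q hq3 hqN' 𝒲)
    (fc_chart1_le ((hs_muE h3 (N' * q) - 1) : ↥(hs_E L h3 (N' * q)))) (ssm_fh_V1 h3 O h3O hπ N' q) hB12V hpass
    H1nu hNode ha
  have hk𝒲 := m59h2_s44ndl_const_mem h3 O h3O hπ N' q hq3 hqN' red hker0 Q 𝒲 hext hconst
  obtain ⟨T, ν, hT, hν, hTb⟩ := s44ndn_main (m59h2_s44ndl_phi L h3 (N' * q)) (s44mz_VF O hπ N' q)
    (ssm_fh_V1 h3 O h3O hπ N' q) (m59h2_s44nlr_phi_mem_iff h3 O h3O hπ N' q) red hker0 Q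
    (m59h2_s44re_r h3 O h3O hπ N' q hq3 hqN') (m59h2_s44re_r_hker h3 O h3O hπ N' q hq3 hqN') 𝒲 hext
    (m59h2_s44ndl_n L h3 O h3O hπ N' q hq3 hqN' 𝒲)
    (fc_chart1_le ((hs_muE h3 (N' * q) - 1) : ↥(hs_E L h3 (N' * q)))) hB h𝔫eq H1nu hϖ0
    (m59h2_s44ndl_unif h3 O h3O hπ N' q) (m59h2_s44re_r_surjective h3 O h3O hπ N' q hq3 hqN')
    (m59h2_s44ndl_loc h3 O h3O hπ N' q hq3 hqN' hprime) hB12V hNode ha huS hk𝒲 hCFE
  exact ⟨huS, T, ν, hT, hν, hTb⟩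


end NodeCase

/-! ### the instance over `A` -/

section Inst

local notation "Qb" => AlgebraicClosure ℚ

variable (A : ValuationSubring Qb) {p : ℕ} [hp : Fact p.Prime] (hA : A.LiesOverPrime p)
  (M : ℕ) [NeZero M] [NeZero p] [NeZero (M * p)] (hp3 : ¬ 3 ∣ p) (hpM : ¬ p ∣ M)
  (L1 : IntermediateField ℚ Qb) [NumberField ↥L1] (h3 : (3 : ↥L1) ≠ 0)
  [IsDiscreteValuationRing ↥(A.comap (algebraMap L1 Qb))]
  (h3O : IsUnit (3 : ↥(A.comap (algebraMap L1 Qb))))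
  [CharP (ResidueField ↥(A.comap (algebraMap L1 Qb))) p]
  {π : ↥(A.comap (algebraMap L1 Qb))} (hπ : Irreducible π)
  (ζ : ↥L1) (hζ : IsPrimitiveRoot ζ (3 * M))
  (Q : Place (s44e_kA A) ↥(s44e_FF A M))

/-- the `hext` property of a valuation subring `𝒲` of `hs_E k' h3 M`. -/
def m59h2_s44ndl_Ext (𝒲 : ValuationSubring ↥(hs_E (ResidueField ↥(A.comap (algebraMap L1 Qb))) (m59h2_h3k (A.comap (algebraMap L1 Qb)) h3O) M)) :
    Prop :=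
  ∀ x : ↥(lg_F L1 (M * p)),
    m59h2_s44ndl_phi L1 h3 (M * p) x ∈ m59h2_s44ndl_V L1 h3 (A.comap (algebraMap L1 Qb)) h3O hπ M p hp3 hpM 𝒲 ↔
      x ∈ tori_comp (s44mz_VF (A.comap (algebraMap L1 Qb)) hπ M p) (s44nlr_red A hA M hpM L1 hπ)
        (s44nlr_red_hker A hA M hpM L1 hπ) Q.toValuationSubring

/-- **(ND-ex)**: the rank-2 valuation ring of `Q` extends to the Legendre cover. -/
theorem m59h2_s44ndl_exists_ext :
    ∃ 𝒲 : ValuationSubring ↥(hs_E (ResidueField ↥(A.comap (algebraMap L1 Qb))) (m59h2_h3k (A.comap (algebraMap L1 Qb)) h3O) M),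
      m59h2_s44ndl_Ext A hA M hp3 hpM L1 h3 h3O hπ Q 𝒲 :=
  s44nd_exists_ext (m59h2_s44ndl_phi L1 h3 (M * p)) (s44mz_VF (A.comap (algebraMap L1 Qb)) hπ M p)
    (ssm_fh_V1 h3 (A.comap (algebraMap L1 Qb)) h3O hπ M p)
    (m59h2_s44nlr_phi_mem_iff h3 (A.comap (algebraMap L1 Qb)) h3O hπ M p)
    (s44nlr_red A hA M hpM L1 hπ) (s44nlr_red_hker A hA M hpM L1 hπ) Q.toValuationSubring
    (m59h2_s44re_r h3 (A.comap (algebraMap L1 Qb)) h3O hπ M p hp3 hpM)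
    (m59h2_s44re_r_hker h3 (A.comap (algebraMap L1 Qb)) h3O hπ M p hp3 hpM)

variable (𝒲 : ValuationSubring ↥(hs_E (ResidueField ↥(A.comap (algebraMap L1 Qb))) (m59h2_h3k (A.comap (algebraMap L1 Qb)) h3O) M))
  (hext : m59h2_s44ndl_Ext A hA M hp3 hpM L1 h3 h3O hπ Q 𝒲)

include hζ hext in
/-- **(ND-Leg), THE CENTRE** of the rank-2 valuation of a place `Q` of `FF_M / kA` with `j̄` finite, on
the `λ`-chart of the Legendre model over `O = A ∩ L1`. -/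
theorem m59h2_s44ndl_centre_A (hj : jcr_j (k := s44e_kA A) M ∈ Q.toValuationSubring) :
    (∀ a : ↥(A.comap (algebraMap L1 Qb)),
      algebraMap ↥(A.comap (algebraMap L1 Qb)) ↥(hs_E L1 h3 (M * p)) a ∈
        m59h2_s44ndl_V L1 h3 (A.comap (algebraMap L1 Qb)) h3O hπ M p hp3 hpM 𝒲) ∧
    m59h2_s44mz_j2E L1 h3 (M * p) ∈ m59h2_s44ndl_V L1 h3 (A.comap (algebraMap L1 Qb)) h3O hπ M p hp3 hpM 𝒲 ∧
    (hs_muE h3 (M * p) - 1) ∈ m59h2_s44ndl_V L1 h3 (A.comap (algebraMap L1 Qb)) h3O hπ M p hp3 hpM 𝒲 ∧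
    (∀ b ∈ fc_chart ↥(A.comap (algebraMap L1 Qb)) ({(hs_muE h3 (M * p) - 1)} : Set ↥(hs_E L1 h3 (M * p))),
      b ∈ m59h2_s44ndl_V L1 h3 (A.comap (algebraMap L1 Qb)) h3O hπ M p hp3 hpM 𝒲) ∧
    (m59h2_s44ndl_n L1 h3 (A.comap (algebraMap L1 Qb)) h3O hπ M p hp3 hpM 𝒲).IsMaximal ∧
    (∀ b : ↥(fc_chart ↥(A.comap (algebraMap L1 Qb))
        ({(hs_muE h3 (M * p) - 1)} : Set ↥(hs_E L1 h3 (M * p)))),
      b ∈ m59h2_s44ndl_n L1 h3 (A.comap (algebraMap L1 Qb)) h3O hπ M p hp3 hpM 𝒲 ↔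
        (b : ↥(hs_E L1 h3 (M * p))) ∈
          (m59h2_s44ndl_V L1 h3 (A.comap (algebraMap L1 Qb)) h3O hπ M p hp3 hpM 𝒲).nonunits) ∧
    algebraMap ↥(A.comap (algebraMap L1 Qb)) ↥(hs_E L1 h3 (M * p)) π ∈
      (m59h2_s44ndl_V L1 h3 (A.comap (algebraMap L1 Qb)) h3O hπ M p hp3 hpM 𝒲).nonunits ∧
    ssm_tp_P (fc_chart ↥(A.comap (algebraMap L1 Qb))
        ({(hs_muE h3 (M * p) - 1)} : Set ↥(hs_E L1 h3 (M * p))))
        (ssm_fh_V1 h3 (A.comap (algebraMap L1 Qb)) h3O hπ M p) ≤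
      m59h2_s44ndl_n L1 h3 (A.comap (algebraMap L1 Qb)) h3O hπ M p hp3 hpM 𝒲 :=
  m59h2_s44ndl_centre h3 (A.comap (algebraMap L1 Qb)) h3O hπ M p hp3 hpM
    (m59h2_s44ndl_prime L1 h3 (A.comap (algebraMap L1 Qb)) hπ M p hp3 hpM ζ hζ)
    (s44nlr_red A hA M hpM L1 hπ) (s44nlr_red_hker A hA M hpM L1 hπ) Q 𝒲 hext
    (s44ndl_hconst A hA M hpM L1 hπ Q) (s44ndl_hjQ A hA M hpM L1 hπ Q hj)
    (s44nlr_hCFE A hA M hpM L1 hπ Q)

include hA hζ hext in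
/-- **(ND-Leg), NODE CASE**: `Q` supersingular.  The centre `𝔫` of `Q` lies on BOTH components, carries
the uniform node `u v = p` of `m59h2_s44mu_node`, and there are `T > 0`, `ν` (the normalised order of `B_𝔫`
along the `∞`-branch, `s44nu_IsNu`) with `ν (φ b) = T · ord_Q (red b)` for every Gauss unit `b`. -/
theorem m59h2_s44ndl_node_A (hQ : s44e_IsSS A M p hp.out hpM Q)
    (h𝔫 : (m59h2_s44ndl_n L1 h3 (A.comap (algebraMap L1 Qb)) h3O hπ M p hp3 hpM 𝒲).IsMaximal) :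
    haveI := (m59h2_s44ndl_chart_inst h3 (A.comap (algebraMap L1 Qb)) M p (L := L1)).1
    haveI := (m59h2_s44ndl_chart_inst h3 (A.comap (algebraMap L1 Qb)) M p (L := L1)).2.1
    haveI := (m59h2_s44ndl_chart_inst h3 (A.comap (algebraMap L1 Qb)) M p (L := L1)).2.2
    haveI := h𝔫.isPrime
    haveI := ssl_loc_isLocalRing (F0 := ↥(hs_E L1 h3 (M * p)))
      (m59h2_s44ndl_n L1 h3 (A.comap (algebraMap L1 Qb)) h3O hπ M p hp3 hpM 𝒲)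
    haveI := ssl_loc_isNoetherianRing (F0 := ↥(hs_E L1 h3 (M * p)))
      (m59h2_s44ndl_n L1 h3 (A.comap (algebraMap L1 Qb)) h3O hπ M p hp3 hpM 𝒲)
    ssm_tp_P (fc_chart ↥(A.comap (algebraMap L1 Qb))
        ({(hs_muE h3 (M * p) - 1)} : Set ↥(hs_E L1 h3 (M * p))))
        (ssm_fh_V2 h3 (A.comap (algebraMap L1 Qb)) h3O hπ M p hp3 hpM) ≤
      m59h2_s44ndl_n L1 h3 (A.comap (algebraMap L1 Qb)) h3O hπ M p hp3 hpM 𝒲 ∧
    ∃ u v : ↥(hs_E L1 h3 (M * p)),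
      s44mu_NodeAtU π (fc_chart1_le ((hs_muE h3 (M * p) - 1) : ↥(hs_E L1 h3 (M * p))))
        (ssm_tp_P (fc_chart ↥(A.comap (algebraMap L1 Qb))
          ({(hs_muE h3 (M * p) - 1), ((hs_muE h3 (M * p) - 1))⁻¹} : Set ↥(hs_E L1 h3 (M * p))))
          (ssm_fh_V1 h3 (A.comap (algebraMap L1 Qb)) h3O hπ M p))
        (ssm_tp_P (fc_chart ↥(A.comap (algebraMap L1 Qb))
          ({(hs_muE h3 (M * p) - 1), ((hs_muE h3 (M * p) - 1))⁻¹} : Set ↥(hs_E L1 h3 (M * p))))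
          (ssm_fh_V2 h3 (A.comap (algebraMap L1 Qb)) h3O hπ M p hp3 hpM))
        (m59h2_s44ndl_n L1 h3 (A.comap (algebraMap L1 Qb)) h3O hπ M p hp3 hpM 𝒲) u v
        ((p : ℕ) : ↥(A.comap (algebraMap L1 Qb))) ∧
      (∀ (σ : ↥L1 ≃+* ↥L1), ss_Inert (A.comap (algebraMap L1 Qb)) σ →
        ssm_sgh_aut h3 (M * p) σ u = u ∧ ssm_sgh_aut h3 (M * p) σ v = v) ∧
      ∃ (huS : u ∈ ssl_locSub ↥(hs_E L1 h3 (M * p))
          (m59h2_s44ndl_n L1 h3 (A.comap (algebraMap L1 Qb)) h3O hπ M p hp3 hpM 𝒲))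
        (T : ℕ) (ν : ↥(hs_E L1 h3 (M * p)) → ℤ), 0 < T ∧
        s44nu_IsNu
          (algebraMap ↥(fc_chart ↥(A.comap (algebraMap L1 Qb))
              ({(hs_muE h3 (M * p) - 1)} : Set ↥(hs_E L1 h3 (M * p))))
            ↥(ssl_locSub ↥(hs_E L1 h3 (M * p))
              (m59h2_s44ndl_n L1 h3 (A.comap (algebraMap L1 Qb)) h3O hπ M p hp3 hpM 𝒲))
            (algebraMap ↥(A.comap (algebraMap L1 Qb))
              ↥(fc_chart ↥(A.comap (algebraMap L1 Qb))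
                ({(hs_muE h3 (M * p) - 1)} : Set ↥(hs_E L1 h3 (M * p)))) π))
          (⟨u, huS⟩ : ↥(ssl_locSub ↥(hs_E L1 h3 (M * p))
            (m59h2_s44ndl_n L1 h3 (A.comap (algebraMap L1 Qb)) h3O hπ M p hp3 hpM 𝒲)))
          (s44tl_br (m59h2_s44ndl_n L1 h3 (A.comap (algebraMap L1 Qb)) h3O hπ M p hp3 hpM 𝒲)
            (fc_chart1_le ((hs_muE h3 (M * p) - 1) : ↥(hs_E L1 h3 (M * p))))
            (ssm_tp_P (fc_chart ↥(A.comap (algebraMap L1 Qb))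
              ({(hs_muE h3 (M * p) - 1), ((hs_muE h3 (M * p) - 1))⁻¹} : Set ↥(hs_E L1 h3 (M * p))))
              (ssm_fh_V1 h3 (A.comap (algebraMap L1 Qb)) h3O hπ M p))) ν ∧
        ∀ b : ↥(s44mz_VF (A.comap (algebraMap L1 Qb)) hπ M p), IsUnit b →
          ν (hs_phiE h3 (N := M * p) (b : ↥(lg_F L1 (M * p)))) =
            (T : ℤ) * Q.ord (s44nlr_red A hA M hpM L1 hπ b : ↥(s44e_FF A M)) :=
  m59h2_s44ndl_node L1 h3 (A.comap (algebraMap L1 Qb)) h3O hπ M p hp3 hpM ζ hζ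
    (s44nlr_red A hA M hpM L1 hπ) (s44nlr_red_hker A hA M hpM L1 hπ) Q 𝒲 hext
    (s44ndl_hconst A hA M hpM L1 hπ Q) (s44ndl_hjQ A hA M hpM L1 hπ Q hQ.1)
    (s44nlr_hCFE A hA M hpM L1 hπ Q) (s44ndl_hSSQ A hA M hpM L1 hπ Q hQ) h𝔫

end Inst

end Fermat.Agent.M59
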