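/-
M59 / box [C] Mazur at `q = 2`, HESSE PORT, cluster B-UDIV (helper28).  Prefix `m59h2_`.

Twin of `S44/Mono/UNodeVert.lean` (vertical divisor of the modular unit), Hesse cover
`E = hs_E L h3 (M p)`, `φ = hs_phiE h3` (`q ↦ q³`): `φ U1` is a unit of the Gauss valuation `V₁` and
`φ U1 / p¹²` is a unit of `V₂ = V₁ ∘ W`.  The cover-free lemmas `s44un_iotaF_U1`, `s44un_U1_ne_zero`,
`s44un_coe_inv`, `s44un_W` of main are reused.
-/
import Mathlib
import Fermat.Agent.S44.Mono.UNodeVert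
import Fermat.Agent.SS.Model.FactsHesse
import Fermat.Agent.M59.Hesse2.Res.HesOrdAux

set_option autoImplicit false
set_option linter.unusedSectionVars false
set_option linter.unusedVariables false
set_option linter.style.haveILetI false

noncomputable section

namespace Fermat.Agent.M59

open ModularCurve IntermediateField IsLocalRing
open Fermat.Agent.JT3 Fermat.Agent.SS Fermat.Agent.MZ Fermat.Agent.S44

section Vert

variable {L : Type*} [Field L] [CharZero L] [Algebra L (AlgebraicClosure ℚ)] (h3 : (3 : L) ≠ 0)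
  (O : ValuationSubring L) [IsDiscreteValuationRing O] (h3O : IsUnit (3 : O)) {π : O}
  (hπ : Irreducible π)
variable (M p : ℕ) [NeZero M] [NeZero p] [hp : Fact p.Prime] [CharP (ResidueField O) p]
  (hp3 : ¬ 3 ∣ p) (hpM : ¬ p ∣ M)
variable (U1 : ↥(lg_F L (M * p))) (hU1 : (U1 : LaurentSeries L) = mzb_qi_U L p)

include hU1 in
/-- `φ U1` has an `O`-integral `q`-expansion. -/
theorem m59h2_s44un_isBdd_phi :
    gq_IsBdd O L ((hs_phiE h3 (N := M * p) U1 : ↥(hs_E L h3 (M * p))) : LaurentSeries L) := by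
  rw [hs_phiE_coe, hU1, hs_phi_apply]
  have h : qExpand L 3 (mzb_qi_U L p) =
      coeffMap (algebraMap ↥O L) (qExpand ↥O 3 (mzb_qi_U ↥O p)) := by
    rw [coeffMap_qExpand, mzb_qi_coeffMap_U]
  rw [h]
  exact gq_isBdd_iota _

include hU1 in
theorem m59h2_s44un_isBdd_phi_inv :
    gq_IsBdd O L (((hs_phiE h3 (N := M * p) U1)⁻¹ : ↥(hs_E L h3 (M * p))) :
      LaurentSeries L) := by
  rw [← map_inv₀, hs_phiE_coe, s44un_coe_inv M p U1 hU1, hs_phi_apply]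
  have h : qExpand L 3 (mzb_qi_Uinv L p) =
      coeffMap (algebraMap ↥O L) (qExpand ↥O 3 (mzb_qi_Uinv ↥O p)) := by
    rw [coeffMap_qExpand, mzb_qi_coeffMap_Uinv]
  rw [h]
  exact gq_isBdd_iota _

include hU1 in
theorem m59h2_s44un_phi_ne_zero : hs_phiE h3 (N := M * p) U1 ≠ 0 := by
  rw [Ne, map_eq_zero]
  exact s44un_U1_ne_zero M p U1 hU1

include hU1 in
/-- **`φ U1` is a unit of the Gauss valuation `w_∞`.** -/
theorem m59h2_s44un_V1 : ssl_VUnit (ssm_fh_V1 h3 O h3O hπ M p) (hs_phiE h3 (N := M * p) U1) :=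
  ⟨m59h2_s44un_phi_ne_zero h3 M p U1 hU1, m59h2_s44un_isBdd_phi h3 O M p U1 hU1, m59h2_s44un_isBdd_phi_inv h3 O M p U1 hU1⟩

include hU1 in
/-- `W_E (φ U1) = p¹² (φ U1)⁻¹`. -/
theorem m59h2_s44un_WE_phi :
    ssm_fh_W h3 M p hp3 hpM (hs_phiE h3 (N := M * p) U1) =
      algebraMap L ↥(hs_E L h3 (M * p)) ((p : L) ^ 12) * (hs_phiE h3 (N := M * p) U1)⁻¹ := by
  have h1 : ssm_fh_W h3 M p hp3 hpM (hs_phiE h3 (N := M * p) U1) =
      hs_phiE h3 (N := M * p) (ssm_al_W L M p hp.out hpM U1) := by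
    apply Subtype.ext
    rw [hs_phiE_coe]
    exact m59h2_s44ro_W_phi L h3 M p hp3 hpM U1
  rw [h1, s44un_W M p hpM U1 hU1, map_mul, map_inv₀, AlgHom.commutes]

include hU1 in
/-- **`φ U1 / p¹²` is a unit of `w_0 = w_∞ ∘ W`.** -/
theorem m59h2_s44un_V2 :
    ssl_VUnit (ssm_fh_V2 h3 O h3O hπ M p hp3 hpM)
      (hs_phiE h3 (N := M * p) U1 / algebraMap L ↥(hs_E L h3 (M * p)) ((p : L) ^ 12)) := by
  have hp0 : algebraMap L ↥(hs_E L h3 (M * p)) ((p : L) ^ 12) ≠ 0 := by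
    rw [Ne, map_eq_zero]
    exact pow_ne_zero 12 (Nat.cast_ne_zero.2 (NeZero.ne p))
  have hG0 := m59h2_s44un_phi_ne_zero h3 M p U1 hU1
  have hWc : ssm_fh_W h3 M p hp3 hpM (algebraMap L ↥(hs_E L h3 (M * p)) ((p : L) ^ 12)) =
      algebraMap L ↥(hs_E L h3 (M * p)) ((p : L) ^ 12) :=
    (ssm_alh_WE L h3 (ssm_fh_hF9 h3) M p hp.out hp3 hpM).commutes _
  have hW : ssm_fh_W h3 M p hp3 hpM
      (hs_phiE h3 (N := M * p) U1 / algebraMap L ↥(hs_E L h3 (M * p)) ((p : L) ^ 12)) =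
      (hs_phiE h3 (N := M * p) U1)⁻¹ := by
    rw [map_div₀, hWc, m59h2_s44un_WE_phi h3 M p hp3 hpM U1 hU1]
    exact mul_div_cancel_left₀ _ hp0
  refine ⟨div_ne_zero hG0 hp0, ?_, ?_⟩
  · show ssm_fh_W h3 M p hp3 hpM _ ∈ ssm_fh_V1 h3 O h3O hπ M p
    rw [hW]
    exact m59h2_s44un_isBdd_phi_inv h3 O M p U1 hU1
  · show ssm_fh_W h3 M p hp3 hpM _ ∈ ssm_fh_V1 h3 O h3O hπ M p
    rw [map_inv₀, hW, inv_inv]
    exact m59h2_s44un_isBdd_phi h3 O M p U1 hU1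

end Vert

end Fermat.Agent.M59
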