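/-
M59 / box [C] Mazur at `q = 2`, HESSE PORT, cluster B-UDIV (helper28).  Prefix `m59h2_`.

Twin of `S44/Mono/UnitNodeLeg.lean` ((U-NODE)(a), the instance on the cover), Hesse cover
`E = hs_E L h3 (M p)`, chart coordinate `x = mu - 1`: the normalised order at a node of the Hesse model
along the `∞`-branch of the modular unit is `12`.
-/
import Mathlib
import Fermat.Agent.S44.Mono.UnitNodeLeg
import Fermat.Agent.M59.Hesse2.Mono.HesUNodeVert
import Fermat.Agent.M59.Hesse2.Mono.HesUnitVal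

set_option autoImplicit false
set_option linter.unusedSectionVars false
set_option linter.style.haveILetI false
set_option linter.unusedVariables false

noncomputable section

namespace Fermat.Agent.M59

open ModularCurve IntermediateField IsLocalRing
open Fermat.Agent.JT3 Fermat.Agent.SS Fermat.Agent.MZ Fermat.Agent.S44

section Hesse

variable {L : Type*} [Field L] [CharZero L] [Algebra L (AlgebraicClosure ℚ)] (h3 : (3 : L) ≠ 0)
  (O : ValuationSubring L) [IsDiscreteValuationRing O] (h3O : IsUnit (3 : O)) {π : O}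
  (hπ : Irreducible π)
variable (M p : ℕ) [NeZero M] [NeZero p] [hp : Fact p.Prime] [CharP (ResidueField O) p]
  (hp3 : ¬ 3 ∣ p) (hpM : ¬ p ∣ M)

set_option synthInstance.maxHeartbeats 400000 in
set_option maxHeartbeats 1600000 in
/-- **(U-NODE)(a), Legendre instance**: the normalised order at a node of the Legendre model along
the `∞`-branch of the modular unit is `12`. -/
theorem m59h2_s44un_leg_node
    (hprime : Prime (algebraMap ↥O (fc_chart ↥O ({(hs_muE h3 M - 1)} : Set ↥(hs_E L h3 M))) π))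
    (U1 : ↥(lg_F L (M * p))) (hU1 : (U1 : LaurentSeries L) = mzb_qi_U L p)
    (𝔫 : Ideal (fc_chart ↥O ({(hs_muE h3 (M * p) - 1)} : Set ↥(hs_E L h3 (M * p))))) [h𝔫 : 𝔫.IsPrime]
    (hπ𝔫 : algebraMap ↥O (fc_chart ↥O ({(hs_muE h3 (M * p) - 1)} : Set ↥(hs_E L h3 (M * p)))) π ∈ 𝔫)
    {u v : ↥(hs_E L h3 (M * p))}
    (hnode : s44mu_NodeAtU π (fc_chart1_le ((hs_muE h3 (M * p) - 1) : ↥(hs_E L h3 (M * p))))
      (ssm_tp_P (fc_chart ↥O ({(hs_muE h3 (M * p) - 1), ((hs_muE h3 (M * p) - 1))⁻¹} :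
        Set ↥(hs_E L h3 (M * p)))) (ssm_fh_V1 h3 O h3O hπ M p))
      (ssm_tp_P (fc_chart ↥O ({(hs_muE h3 (M * p) - 1), ((hs_muE h3 (M * p) - 1))⁻¹} :
        Set ↥(hs_E L h3 (M * p)))) (ssm_fh_V2 h3 O h3O hπ M p hp3 hpM)) 𝔫 u v ((p : ℕ) : ↥O)) :
    haveI : FiniteDimensional L⟮(hs_muE h3 (M * p) - 1 : hs_E L h3 (M * p))⟯ ↥(hs_E L h3 (M * p)) :=
      ssm_glh_finite h3 (M * p)
    haveI := ssm_go_isScalarTower O (hs_E L h3 (M * p))
    haveI : Algebra.IsAlgebraic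
        (Algebra.adjoin ↥O ({(hs_muE h3 (M * p) - 1)} : Set ↥(hs_E L h3 (M * p)))) ↥(hs_E L h3 (M * p)) :=
      fc_ff_isAlgebraic (L := L) ((hs_muE h3 (M * p) - 1) : ↥(hs_E L h3 (M * p)))
    haveI : IsNoetherianRing (fc_chart ↥O ({(hs_muE h3 (M * p) - 1)} : Set ↥(hs_E L h3 (M * p)))) := by
      have := fc_chart_isNoetherianRing (A0 := ↥O) (F0 := ↥(hs_E L h3 (M * p))) {(hs_muE h3 (M * p) - 1)}
        (by rw [Finset.coe_singleton]
            exact fc_ff_finite (L := L) (ssm_sgm_transcendental h3 (M * p)))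
      rwa [Finset.coe_singleton] at this
    haveI : IsIntegrallyClosed (fc_chart ↥O ({(hs_muE h3 (M * p) - 1)} : Set ↥(hs_E L h3 (M * p)))) :=
      ssl_chart_isIntegrallyClosed {(hs_muE h3 (M * p) - 1)}
    haveI := ssl_loc_isLocalRing (F0 := ↥(hs_E L h3 (M * p))) 𝔫
    ∀ (huS : u ∈ ssl_locSub ↥(hs_E L h3 (M * p)) 𝔫)
      (hj : m59h2_s44mz_j2E L h3 (M * p) ∈ ssl_locSub ↥(hs_E L h3 (M * p)) 𝔫) (ν : ↥(hs_E L h3 (M * p)) → ℤ),
      s44nu_IsNu (algebraMap (fc_chart ↥O ({(hs_muE h3 (M * p) - 1)} : Set ↥(hs_E L h3 (M * p))))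
          (ssl_locSub ↥(hs_E L h3 (M * p)) 𝔫)
          (algebraMap ↥O (fc_chart ↥O ({(hs_muE h3 (M * p) - 1)} : Set ↥(hs_E L h3 (M * p)))) π))
        (⟨u, huS⟩ : ssl_locSub ↥(hs_E L h3 (M * p)) 𝔫)
        (s44tl_br 𝔫 (fc_chart1_le ((hs_muE h3 (M * p) - 1) : ↥(hs_E L h3 (M * p))))
          (ssm_tp_P (fc_chart ↥O ({(hs_muE h3 (M * p) - 1), ((hs_muE h3 (M * p) - 1))⁻¹} :
            Set ↥(hs_E L h3 (M * p)))) (ssm_fh_V1 h3 O h3O hπ M p))) ν →
      ν (hs_phiE h3 (N := M * p) U1) = 12 := by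
  haveI : FiniteDimensional L⟮(hs_muE h3 (M * p) - 1 : hs_E L h3 (M * p))⟯ ↥(hs_E L h3 (M * p)) :=
    ssm_glh_finite h3 (M * p)
  haveI := ssm_go_isScalarTower O (hs_E L h3 (M * p))
  haveI : Algebra.IsAlgebraic
      (Algebra.adjoin ↥O ({(hs_muE h3 (M * p) - 1)} : Set ↥(hs_E L h3 (M * p)))) ↥(hs_E L h3 (M * p)) :=
    fc_ff_isAlgebraic (L := L) ((hs_muE h3 (M * p) - 1) : ↥(hs_E L h3 (M * p)))
  haveI : IsNoetherianRing (fc_chart ↥O ({(hs_muE h3 (M * p) - 1)} : Set ↥(hs_E L h3 (M * p)))) := by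
    have := fc_chart_isNoetherianRing (A0 := ↥O) (F0 := ↥(hs_E L h3 (M * p))) {(hs_muE h3 (M * p) - 1)}
      (by rw [Finset.coe_singleton]
          exact fc_ff_finite (L := L) (ssm_sgm_transcendental h3 (M * p)))
    rwa [Finset.coe_singleton] at this
  haveI : IsIntegrallyClosed (fc_chart ↥O ({(hs_muE h3 (M * p) - 1)} : Set ↥(hs_E L h3 (M * p)))) :=
    ssl_chart_isIntegrallyClosed {(hs_muE h3 (M * p) - 1)}
  haveI := ssl_loc_isLocalRing (F0 := ↥(hs_E L h3 (M * p))) 𝔫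
  haveI := ssl_loc_isNoetherianRing (F0 := ↥(hs_E L h3 (M * p))) 𝔫
  haveI := ssl_loc_isIntegrallyClosed (F0 := ↥(hs_E L h3 (M * p))) 𝔫
  intro huS hj ν hν
  have hx : Transcendental L ((hs_muE h3 (M * p) - 1)) :=
    ssm_sgm_transcendental h3 (M * p)
  have H := ssm_fh_hyp h3 O h3O hπ M p hp3 hpM hprime
  have hG1 := m59h2_s44un_V1 h3 O h3O hπ M p U1 hU1
  have hG2 := m59h2_s44un_V2 h3 O h3O hπ M p hp3 hpM U1 hU1
  have hpow : algebraMap ↥O ↥(hs_E L h3 (M * p)) ((p : ℕ) : ↥O) ^ (12 : ℤ) =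
      algebraMap L ↥(hs_E L h3 (M * p)) ((p : L) ^ 12) := by
    rw [IsScalarTower.algebraMap_apply ↥O L ↥(hs_E L h3 (M * p)), map_natCast, map_pow]
    exact zpow_natCast _ 12
  rw [← hpow] at hG2
  refine s44un_ff_node (L := L) hπ hx H 𝔫 hπ𝔫 hnode huS ?_ 12 hG1 hG2 ν hν
  intro 𝔮 h𝔮
  exact m59h2_s44uv_unitAt_horiz L h3 p (M * p) (dvd_mul_left p M) hπ 𝔮 h𝔮
    (⟨m59h2_s44mz_j2E L h3 (M * p), hj⟩ : ssl_locSub ↥(hs_E L h3 (M * p)) 𝔫) rfl U1 hU1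

end Hesse

end Fermat.Agent.M59
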