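/-
M59 / box [C] Mazur at `q = 2`, HESSE PORT, cluster B-UDIV (helper28).  Prefix `m59h2_`.

Twin of the cover-dependent part of `S44/Mono/UnitVal.lean` (the modular unit has no horizontal divisor
where `j` is finite), Hesse cover: every valuation subring of `hs_E L h3 N` containing `L` and `j(q³)`
contains `φ(u)^{±1}`, `φ = (q ↦ q³)`.  `s44uv_bar`, `s44uv_ext`, `s44uv_mem_of_algebraic`,
`s44uv_memAt_const` of main are cover-free and reused.
-/
import Mathlib
import Fermat.Agent.S44.Mono.UnitVal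
import Fermat.Agent.M59.Hesse2.Mono.HesCentre

set_option autoImplicit false
set_option linter.unusedSectionVars false
set_option linter.style.haveILetI false

noncomputable section

namespace Fermat.Agent.M59

open ModularCurve AlgebraicCurve IsLocalRing Fermat.Agent.JT3 Fermat.Agent.MZ Fermat.Agent.SS
  Fermat.Agent.S24 Fermat.Agent.S44

local notation "Qb" => AlgebraicClosure ℚ

section NF

variable (L : Type*) [Field L] [CharZero L] [Algebra L Qb] (h3 : (3 : L) ≠ 0)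
variable (p N : ℕ) [NeZero p] [NeZero N] (hpN : p ∣ N)

include hpN in
/-- **(UH-nf)**: at the level of a field `L ⊆ Q̄`, on the Legendre cover: every valuation subring
of `hs_E L h3 N` containing `L` and `j(q²)` contains `φ(u)` and `φ(u)⁻¹`, for every `u ∈ lg_F L N`
with series `Δ(q)/Δ(q^p)`. -/
theorem m59h2_s44uv_nf (V : ValuationSubring ↥(hs_E L h3 N))
    (hL : ∀ c : L, algebraMap L ↥(hs_E L h3 N) c ∈ V) (hj : m59h2_s44mz_j2E L h3 N ∈ V)
    (x : lg_F L N) (hx : (x : LaurentSeries L) = mzb_qi_U L p) :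
    ssl_VUnit V (hs_phiE h3 (N := N) x) := by
  -- the coefficient embedding of `hs_E L h3 N` into `Ω = Q̄((q))`
  set Θ : ↥(hs_E L h3 N) →+* LaurentSeries Qb :=
    (ssm_al_iota L).comp (hs_E L h3 N).val.toRingHom with hΘ
  have hΘa : ∀ y : ↥(hs_E L h3 N), Θ y = ssm_al_iota L (y : LaurentSeries L) := fun y => rfl
  obtain ⟨A, hA⟩ := s44uv_ext Θ V
  -- the map `F̄_N → Ω`, `y ↦ y(q²)`
  set Ψ : ↥(modularFunctionFieldBar N) →+* LaurentSeries Qb :=
    (qExpand Qb 3).comp (modularFunctionFieldBar N).val.toRingHom with hΨ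
  have hΨa : ∀ y : ↥(modularFunctionFieldBar N), Ψ y = qExpand Qb 3 (y : LaurentSeries Qb) :=
    fun y => rfl
  -- constants
  have hconstL : ∀ c : L, algebraMap Qb (LaurentSeries Qb) (algebraMap L Qb c) ∈ A := by
    intro c
    have h1 : Θ (algebraMap L ↥(hs_E L h3 N) c) =
        algebraMap Qb (LaurentSeries Qb) (algebraMap L Qb c) := by
      rw [hΘa]
      exact ssm_al_iota_algebraMap L c
    rw [← h1, hA]
    exact hL c
  haveI : Algebra.IsAlgebraic L Qb := by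
    haveI : Algebra.IsAlgebraic ℚ Qb := AlgebraicClosure.isAlgebraic ℚ
    exact Algebra.IsAlgebraic.tower_top (K := ℚ) L
  have hconst : ∀ c : Qb, algebraMap Qb (LaurentSeries Qb) c ∈ A :=
    s44uv_mem_of_algebraic (L := L) A (algebraMap Qb (LaurentSeries Qb)) hconstL
  have hK : ∀ c : Qb, algebraMap Qb ↥(modularFunctionFieldBar N) c ∈ A.comap Ψ := by
    intro c
    rw [ValuationSubring.mem_comap, hΨa]
    have : ((algebraMap Qb ↥(modularFunctionFieldBar N) c : modularFunctionFieldBar N) :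
        LaurentSeries Qb) = algebraMap Qb (LaurentSeries Qb) c := rfl
    rw [this, algebraMap_laurentSeries_eq_single, qExpand_single, mul_zero,
      ← algebraMap_laurentSeries_eq_single]
    exact hconst c
  -- `j`
  have hjA : br_jBar N ∈ A.comap Ψ := by
    rw [ValuationSubring.mem_comap, hΨa, coe_br_jBar, br_jqK]
    have h1 : Θ (m59h2_s44mz_j2E L h3 N) = qExpand Qb 3 (coeffEmb Qb jq) := by
      rw [hΘa]
      show ssm_al_iota L (hs_j3 L) = _
      rw [hs_j3, ssm_al_iota_qExpand, coeffMap_jqModC, mzb_qi_j_coeffEmb]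
    rw [← h1, hA]
    exact hj
  obtain ⟨hu0, h1, h2⟩ := s44uv_bar p N hpN (A.comap Ψ) hK hjA
  -- the unit
  have hU : Ψ (s44hu_U p N hpN) = Θ (hs_phiE h3 (N := N) x) := by
    rw [hΨa, hΘa, s44hu_coe_U, hs_phiE_coe, hs_phi_apply, ssm_al_iota_qExpand, hx,
      mzb_qi_coeffMap_U, mzb_qi_U_coeffEmb]
  rw [ValuationSubring.mem_comap] at h1 h2
  rw [map_inv₀] at h2
  rw [hU] at h1 h2
  rw [← map_inv₀, hA] at h2
  rw [hA] at h1
  refine ⟨?_, h1, h2⟩
  intro h0
  rw [h0, map_zero] at hU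
  exact hu0 ((map_eq_zero Ψ).1 hU)

end NF

section Horiz

variable (L : Type*) [Field L] [CharZero L] [Algebra L Qb] (h3 : (3 : L) ≠ 0)
variable (p N : ℕ) [NeZero p] [NeZero N] (hpN : p ∣ N)

include hpN in
/-- **(UH)**, in the shape of `s44n_monomial` / `s44ms_main`: the modular unit has no horizontal
divisor through a point where `j` is finite. -/
theorem m59h2_s44uv_unitAt {R : Type*} [CommRing R] [IsDomain R] [IsNoetherianRing R]
    [IsIntegrallyClosed R] [Algebra R ↥(hs_E L h3 N)] [IsFractionRing R ↥(hs_E L h3 N)]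
    (𝔮 : Ideal R) [𝔮.IsPrime] (h1 : 𝔮.height = 1)
    (hL : ∀ c : L, ssl_MemAt ↥(hs_E L h3 N) 𝔮 (algebraMap L ↥(hs_E L h3 N) c))
    (hj : ssl_MemAt ↥(hs_E L h3 N) 𝔮 (m59h2_s44mz_j2E L h3 N))
    (x : lg_F L N) (hx : (x : LaurentSeries L) = mzb_qi_U L p) :
    ssl_UnitAt ↥(hs_E L h3 N) 𝔮 (hs_phiE h3 (N := N) x) :=
  (ssl_vUnit_valAt 𝔮 h1).1 (m59h2_s44uv_nf L h3 p N hpN (ssl_valAt 𝔮 h1)
    (fun c => (ssl_mem_valAt 𝔮 h1).2 (hL c)) ((ssl_mem_valAt 𝔮 h1).2 hj) x hx)

include hpN in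
/-- the same over a discrete valuation ring `A0` of `L` with uniformiser `π`, at the horizontal
primes (`ssl_Horiz`) of an `A0`-algebra `R` containing `j(q²)`. -/
theorem m59h2_s44uv_unitAt_horiz {A0 : Type*} [CommRing A0] [IsDomain A0] [IsDiscreteValuationRing A0]
    [Algebra A0 L] [IsFractionRing A0 L] {R : Type*} [CommRing R] [IsDomain R]
    [IsNoetherianRing R] [IsIntegrallyClosed R] [Algebra R ↥(hs_E L h3 N)]
    [IsFractionRing R ↥(hs_E L h3 N)] [Algebra A0 R] [Algebra A0 ↥(hs_E L h3 N)]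
    [IsScalarTower A0 R ↥(hs_E L h3 N)] [IsScalarTower A0 L ↥(hs_E L h3 N)] {π : A0}
    (hπ : Irreducible π) (𝔮 : Ideal R) (h𝔮 : ssl_Horiz (algebraMap A0 R π) 𝔮)
    (jR : R) (hjR : algebraMap R ↥(hs_E L h3 N) jR = m59h2_s44mz_j2E L h3 N)
    (x : lg_F L N) (hx : (x : LaurentSeries L) = mzb_qi_U L p) :
    ssl_UnitAt ↥(hs_E L h3 N) 𝔮 (hs_phiE h3 (N := N) x) := by
  haveI := h𝔮.1
  refine m59h2_s44uv_unitAt L h3 p N hpN 𝔮 h𝔮.2.1 (fun c => s44uv_memAt_const hπ 𝔮 h𝔮.2.2 c) ?_ x hx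
  rw [← hjR]
  exact ssl_memAt_algebraMap 𝔮 jR

end Horiz

end Fermat.Agent.M59
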