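/-
M59 / box [C] Mazur at `q = 2`, HESSE PORT, cluster B-UDIV (helper28).  Prefix `m59h2_`.

Twin of the cover-dependent part of `S44/Mono/UnitSmooth.lean` ((U-NODE)(b), the smooth-point half), Hesse
cover `E = hs_E L h3 (N' q)`, chart coordinate `x = mu - 1`, `t = mu^2 + mu + 1`, `x t = mu^3 - 1`.
At a centre where `j(q^3)` is finite, `(mu^3 - 1)^{-1}` is integral over `O[j(q^3)]`
(`m59h2_hc_sinv_integral`), hence `x` and `t` are units there.  `s44us_smooth_chart` of main is reused.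
-/
import Mathlib
import Fermat.Agent.S44.Mono.UnitSmooth
import Fermat.Agent.M59.Hesse2.Mono.HesUnitVal
import Fermat.Agent.M59.Hesse2.Mono.HesCentre
import Fermat.Agent.M59.Hesse2.Mono.HesChart

set_option autoImplicit false
set_option linter.unusedSectionVars false
set_option linter.unusedVariables false
set_option linter.style.haveILetI false

namespace Fermat.Agent.M59

open Fermat.Agent.SS Fermat.Agent.JT3 Fermat.Agent.S35 Fermat.Agent.MZ IsLocalRing ModularCurve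
  IntermediateField Fermat.Agent.S44

section Hesse

variable {L : Type*} [Field L] [CharZero L] [Algebra L (AlgebraicClosure ℚ)] (h3 : (3 : L) ≠ 0)
  (O : ValuationSubring L) [IsDiscreteValuationRing O] (h3O : IsUnit (3 : O)) {π : O}
  (hπ : Irreducible π)
variable (N' q : ℕ) [NeZero N'] [NeZero q] [hq : Fact q.Prime] [CharP (ResidueField O) q]
  (hq3 : ¬ 3 ∣ q) (hqN' : ¬ q ∣ N')

set_option maxHeartbeats 1600000 in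
set_option synthInstance.maxHeartbeats 200000 in
/-- **(U-NODE)(b), Legendre instance**: `B = fc_chart O {λ}` the `λ`-chart of `E = hs_E L h3 (N' q)`,
`𝔫` a prime of `B` on the `∞`-component `P₁ = 𝔪(V₁) ∩ B` but not on the `0`-component
`P₂ = 𝔪(V₂) ∩ B`, with `j(q²) ∈ B_𝔫`.  For every model `U1 ∈ lg_F L (N' q)` of the modular unit
`Δ(q)/Δ(q^q)` whose image `lg_phiE U1` is a unit of the Gauss valuation ring `V₁`: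
`lg_phiE U1 ∈ (B_𝔫)ˣ`, in the form `∃ a s ∈ B ∖ 𝔫, lg_phiE U1 * s = a`. -/
theorem m59h2_s44us_smooth_leg
    (hprime : Prime (algebraMap ↥O (fc_chart ↥O ({(hs_muE h3 N' - 1)} : Set ↥(hs_E L h3 N'))) π))
    (𝔫 : Ideal ↥(fc_chart ↥O ({(hs_muE h3 (N' * q) - 1)} : Set ↥(hs_E L h3 (N' * q))))) [h𝔫 : 𝔫.IsPrime]
    (h1 : ssm_tp_P (fc_chart ↥O ({(hs_muE h3 (N' * q) - 1)} : Set ↥(hs_E L h3 (N' * q))))
      (ssm_fh_V1 h3 O h3O hπ N' q) ≤ 𝔫)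
    (h2 : ¬ ssm_tp_P (fc_chart ↥O ({(hs_muE h3 (N' * q) - 1)} : Set ↥(hs_E L h3 (N' * q))))
      (ssm_fh_V2 h3 O h3O hπ N' q hq3 hqN') ≤ 𝔫)
    (hj : ∃ a s : ↥(fc_chart ↥O ({(hs_muE h3 (N' * q) - 1)} : Set ↥(hs_E L h3 (N' * q)))), s ∉ 𝔫 ∧
      m59h2_s44mz_j2E L h3 (N' * q) * (s : ↥(hs_E L h3 (N' * q))) = (a : ↥(hs_E L h3 (N' * q))))
    (U1 : ↥(lg_F L (N' * q))) (hU1 : (U1 : LaurentSeries L) = mzb_qi_U L q)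
    (hV1 : ssl_VUnit (ssm_fh_V1 h3 O h3O hπ N' q) (hs_phiE h3 (N := N' * q) U1)) :
    ∃ a s : ↥(fc_chart ↥O ({(hs_muE h3 (N' * q) - 1)} : Set ↥(hs_E L h3 (N' * q)))), a ∉ 𝔫 ∧ s ∉ 𝔫 ∧
      hs_phiE h3 (N := N' * q) U1 * (s : ↥(hs_E L h3 (N' * q))) =
        (a : ↥(hs_E L h3 (N' * q))) := by
  haveI := ssm_go_isScalarTower O (hs_E L h3 (N' * q))
  have hx : Transcendental L ((hs_muE h3 (N' * q) - 1)) :=
    ssm_sgm_transcendental h3 (N' * q)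
  have hyA : Transcendental ↥O ((hs_muE h3 (N' * q) - 1)) := fc_ff_transcendental (L := L) hx
  haveI : IsIntegrallyClosed (Algebra.adjoin ↥O ({(hs_muE h3 (N' * q) - 1)} : Set ↥(hs_E L h3 (N' * q)))) :=
    fc_ff_isIntegrallyClosed hyA
  haveI : FaithfulSMul (Algebra.adjoin ↥O ({(hs_muE h3 (N' * q) - 1)} : Set ↥(hs_E L h3 (N' * q))))
      ↥(hs_E L h3 (N' * q)) :=
    (faithfulSMul_iff_algebraMap_injective _ _).2 Subtype.val_injective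
  haveI := ssm_glh_finite h3 (N' * q)
  haveI : IsNoetherianRing ↥(fc_chart ↥O ({(hs_muE h3 (N' * q) - 1)} : Set ↥(hs_E L h3 (N' * q)))) :=
    ssm_ths_chart_isNoetherianRing (A0 := ↥O) (L := L) hx
  haveI : IsIntegrallyClosed ↥(fc_chart ↥O ({(hs_muE h3 (N' * q) - 1)} : Set ↥(hs_E L h3 (N' * q)))) :=
    ssm_ths_chart_isIntegrallyClosed (A0 := ↥O) (L := L) _
  haveI : IsFractionRing ↥(fc_chart ↥O ({(hs_muE h3 (N' * q) - 1)} : Set ↥(hs_E L h3 (N' * q))))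
      ↥(hs_E L h3 (N' * q)) :=
    ssm_ths_chart_isFractionRing (A0 := ↥O) (L := L) _
  have H := ssm_fh_hyp h3 O h3O hπ N' q hq3 hqN' hprime
  have hC := ssm_tp_ff_chart (L := L) hπ hx
  haveI := ssl_loc_isNoetherianRing (F0 := ↥(hs_E L h3 (N' * q))) 𝔫
  haveI := ssl_loc_isIntegrallyClosed (F0 := ↥(hs_E L h3 (N' * q))) 𝔫
  -- `j(q²) ∈ B_𝔫`
  obtain ⟨aj, sj, hsj, hjs⟩ := hj
  have hjS : m59h2_s44mz_j2E L h3 (N' * q) ∈ ssl_locSub ↥(hs_E L h3 (N' * q)) 𝔫 :=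
    (ssl_mem_loc 𝔫).2 ⟨aj, sj, hsj, hjs⟩
  refine s44us_smooth_chart 𝔫 H hC
    (algebraMap ↥O ↥(fc_chart ↥O ({(hs_muE h3 (N' * q) - 1)} : Set ↥(hs_E L h3 (N' * q)))) π) rfl h1 h2 hV1 ?_
  intro 𝔮 h𝔮
  exact m59h2_s44uv_unitAt_horiz L h3 q (N' * q) (dvd_mul_left q N') (A0 := ↥O)
    (R := ↥(ssl_locSub ↥(hs_E L h3 (N' * q)) 𝔫)) hπ 𝔮 h𝔮
    (⟨m59h2_s44mz_j2E L h3 (N' * q), hjS⟩ : ↥(ssl_locSub ↥(hs_E L h3 (N' * q)) 𝔫)) rfl U1 hU1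

/-- `t = μ² + μ + 1` lies in the `x`-chart (any base field). -/
theorem m59h2_s44us_t_mem (N : ℕ) [NeZero N] :
    (hs_muE h3 N : ↥(hs_E L h3 N)) ^ 2 + hs_muE h3 N + 1 ∈
      fc_chart ↥O ({hs_muE h3 N - 1} : Set ↥(hs_E L h3 N)) := by
  have hx : (hs_muE h3 N - 1 : ↥(hs_E L h3 N)) ∈
      fc_chart ↥O ({hs_muE h3 N - 1} : Set ↥(hs_E L h3 N)) := fc_x_mem_chart _
  have hmu : (hs_muE h3 N : ↥(hs_E L h3 N)) ∈
      fc_chart ↥O ({hs_muE h3 N - 1} : Set ↥(hs_E L h3 N)) := by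
    have h := add_mem hx (one_mem (fc_chart ↥O ({hs_muE h3 N - 1} : Set ↥(hs_E L h3 N))))
    rwa [sub_add_cancel] at h
  exact add_mem (add_mem (pow_mem hmu 2) hmu) (one_mem _)

/-- `j(q³) ∈ B_𝔫` at a point of the `x`-chart with `x̄ ≠ 0`, `t̄ ≠ 0` (Hesse relation). -/
theorem m59h2_s44us_j2_of_lam (N : ℕ) [NeZero N]
    (𝔫 : Ideal ↥(fc_chart ↥O ({hs_muE h3 N - 1} : Set ↥(hs_E L h3 N)))) [h𝔫 : 𝔫.IsPrime]
    (hlam : (⟨hs_muE h3 N - 1, fc_x_mem_chart _⟩ :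
      ↥(fc_chart ↥O ({hs_muE h3 N - 1} : Set ↥(hs_E L h3 N)))) ∉ 𝔫)
    (hlam1 : (⟨(hs_muE h3 N : ↥(hs_E L h3 N)) ^ 2 + hs_muE h3 N + 1, m59h2_s44us_t_mem h3 O N⟩ :
      ↥(fc_chart ↥O ({hs_muE h3 N - 1} : Set ↥(hs_E L h3 N)))) ∉ 𝔫) :
    ∃ a s : ↥(fc_chart ↥O ({hs_muE h3 N - 1} : Set ↥(hs_E L h3 N))), s ∉ 𝔫 ∧
      m59h2_s44mz_j2E L h3 N * (s : ↥(hs_E L h3 N)) = (a : ↥(hs_E L h3 N)) := by
  set xB : ↥(fc_chart ↥O ({hs_muE h3 N - 1} : Set ↥(hs_E L h3 N))) :=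
    ⟨hs_muE h3 N - 1, fc_x_mem_chart _⟩ with hxB
  set tB : ↥(fc_chart ↥O ({hs_muE h3 N - 1} : Set ↥(hs_E L h3 N))) :=
    ⟨(hs_muE h3 N : ↥(hs_E L h3 N)) ^ 2 + hs_muE h3 N + 1, m59h2_s44us_t_mem h3 O N⟩ with htB
  refine ⟨27 * (xB + 1) ^ 3 * ((xB + 1) ^ 3 + 8) ^ 3, (xB * tB) ^ 3, ?_, ?_⟩
  · intro hmem
    rcases h𝔫.mem_or_mem (h𝔫.mem_of_pow_mem 3 hmem) with h | h
    · exact hlam h
    · exact hlam1 h
  · have h := m59h2_s44mz_legE L h3 N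
    show m59h2_s44mz_j2E L h3 N * (((hs_muE h3 N : ↥(hs_E L h3 N)) - 1) *
        ((hs_muE h3 N : ↥(hs_E L h3 N)) ^ 2 + hs_muE h3 N + 1)) ^ 3 =
      27 * (((hs_muE h3 N : ↥(hs_E L h3 N)) - 1) + 1) ^ 3 *
        ((((hs_muE h3 N : ↥(hs_E L h3 N)) - 1) + 1) ^ 3 + 8) ^ 3
    have hs : ((hs_muE h3 N : ↥(hs_E L h3 N)) - 1) *
        ((hs_muE h3 N : ↥(hs_E L h3 N)) ^ 2 + hs_muE h3 N + 1) =
        (hs_muE h3 N : ↥(hs_E L h3 N)) ^ 3 - 1 := by ring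
    rw [hs, sub_add_cancel, h]

set_option maxHeartbeats 1600000 in
set_option synthInstance.maxHeartbeats 200000 in
/-- **(U-NODE)(b), centre form** (the shape of `s44mz_centre` / `s44nd_unit_chart`): `𝒱 ≤ V₁` a
valuation subring of `E` containing `O` and `j(q²)`, `𝔫 = 𝔪(𝒱) ∩ B` its centre on the `λ`-chart, NOT
on the `0`-component.  Then `lg_phiE U1 ∈ (B_𝔫)ˣ`. -/
theorem m59h2_s44us_smooth_centre
    (hprime : Prime (algebraMap ↥O (fc_chart ↥O ({(hs_muE h3 N' - 1)} : Set ↥(hs_E L h3 N'))) π))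
    (𝒱 : ValuationSubring ↥(hs_E L h3 (N' * q))) (h𝒱 : 𝒱 ≤ ssm_fh_V1 h3 O h3O hπ N' q)
    (hO𝒱 : ∀ a : O, algebraMap ↥O ↥(hs_E L h3 (N' * q)) a ∈ 𝒱)
    (hj : m59h2_s44mz_j2E L h3 (N' * q) ∈ 𝒱)
    (𝔫 : Ideal ↥(fc_chart ↥O ({(hs_muE h3 (N' * q) - 1)} : Set ↥(hs_E L h3 (N' * q))))) [h𝔫 : 𝔫.IsPrime]
    (h𝔫eq : ∀ b : ↥(fc_chart ↥O ({(hs_muE h3 (N' * q) - 1)} : Set ↥(hs_E L h3 (N' * q)))),
      b ∈ 𝔫 ↔ (b : ↥(hs_E L h3 (N' * q))) ∈ 𝒱.nonunits)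
    (h2 : ¬ ssm_tp_P (fc_chart ↥O ({(hs_muE h3 (N' * q) - 1)} : Set ↥(hs_E L h3 (N' * q))))
      (ssm_fh_V2 h3 O h3O hπ N' q hq3 hqN') ≤ 𝔫)
    (U1 : ↥(lg_F L (N' * q))) (hU1 : (U1 : LaurentSeries L) = mzb_qi_U L q)
    (hV1 : ssl_VUnit (ssm_fh_V1 h3 O h3O hπ N' q) (hs_phiE h3 (N := N' * q) U1)) :
    ∃ a s : ↥(fc_chart ↥O ({(hs_muE h3 (N' * q) - 1)} : Set ↥(hs_E L h3 (N' * q)))), a ∉ 𝔫 ∧ s ∉ 𝔫 ∧
      hs_phiE h3 (N := N' * q) U1 * (s : ↥(hs_E L h3 (N' * q))) =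
        (a : ↥(hs_E L h3 (N' * q))) := by
  haveI := ssm_go_isScalarTower O (hs_E L h3 (N' * q))
  have hx : Transcendental L ((hs_muE h3 (N' * q) - 1)) :=
    ssm_sgm_transcendental h3 (N' * q)
  have hyA : Transcendental ↥O ((hs_muE h3 (N' * q) - 1)) := fc_ff_transcendental (L := L) hx
  haveI : IsIntegrallyClosed (Algebra.adjoin ↥O ({(hs_muE h3 (N' * q) - 1)} : Set ↥(hs_E L h3 (N' * q)))) :=
    fc_ff_isIntegrallyClosed hyA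
  haveI : FaithfulSMul (Algebra.adjoin ↥O ({(hs_muE h3 (N' * q) - 1)} : Set ↥(hs_E L h3 (N' * q))))
      ↥(hs_E L h3 (N' * q)) :=
    (faithfulSMul_iff_algebraMap_injective _ _).2 Subtype.val_injective
  have H := ssm_fh_hyp h3 O h3O hπ N' q hq3 hqN' hprime
  have hC := ssm_tp_ff_chart (L := L) hπ hx
  have hle := m59h2_s44mz_B_le_S h3 O h3O (N' * q)
  have hS𝒱 := m59h2_s44mz_S_le h3 O (N' * q) 𝒱 hO𝒱 hj
  have hB𝒱 : ∀ b ∈ fc_chart ↥O ({(hs_muE h3 (N' * q) - 1)} : Set ↥(hs_E L h3 (N' * q))), b ∈ 𝒱 :=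
    fun b hb => hS𝒱 b (hle hb)
  -- `P₁ ≤ 𝔫`
  have h1 : ssm_tp_P (fc_chart ↥O ({(hs_muE h3 (N' * q) - 1)} : Set ↥(hs_E L h3 (N' * q))))
      (ssm_fh_V1 h3 O h3O hπ N' q) ≤ 𝔫 := by
    intro b hb
    rw [H.mem_P1 hC] at hb
    rw [h𝔫eq]
    exact ValuationSubring.nonunits_le_nonunits.2 h𝒱 hb
  -- `x, t ∉ 𝔫`: `(μ³ - 1)⁻¹ ∈ S ⊆ 𝒱`
  obtain ⟨u, hu⟩ := m59h2_s44mz_exists_u O h3O
  have hleg := m59h2_s44mz_legE L h3 (N' * q)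
  have hmx : (hs_muE h3 (N' * q) : ↥(hs_E L h3 (N' * q))) = (hs_muE h3 (N' * q) - 1) + 1 :=
    (sub_add_cancel _ _).symm
  have hs0 : (hs_muE h3 (N' * q) : ↥(hs_E L h3 (N' * q))) ^ 3 - 1 ≠ 0 :=
    m59h2_hc_s_ne_zero (L := L) hx hmx
  have hsinv𝒱 : ((hs_muE h3 (N' * q) : ↥(hs_E L h3 (N' * q))) ^ 3 - 1)⁻¹ ∈ 𝒱 :=
    hS𝒱 _ (fc_mem_chart.2 (m59h2_hc_sinv_integral u hu hleg hs0))
  have hx𝒱 : (hs_muE h3 (N' * q) - 1 : ↥(hs_E L h3 (N' * q))) ∈ 𝒱 := hB𝒱 _ (fc_x_mem_chart _)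
  have ht𝒱 : (hs_muE h3 (N' * q) : ↥(hs_E L h3 (N' * q))) ^ 2 + hs_muE h3 (N' * q) + 1 ∈ 𝒱 :=
    hB𝒱 _ (m59h2_s44us_t_mem h3 O (N' * q))
  have hnot : ∀ y z : ↥(hs_E L h3 (N' * q)), y ∈ 𝒱.nonunits → z ∈ 𝒱 →
      y * z = (hs_muE h3 (N' * q) : ↥(hs_E L h3 (N' * q))) ^ 3 - 1 → False := by
    intro y z hy hz hyz
    have h1' : (hs_muE h3 (N' * q) : ↥(hs_E L h3 (N' * q))) ^ 3 - 1 ∈ 𝒱.nonunits :=
      hyz ▸ ssm_tp_nonunits_mul 𝒱 hy hz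
    have h2' := ssm_tp_nonunits_mul 𝒱 h1' hsinv𝒱
    rw [mul_inv_cancel₀ hs0, ValuationSubring.mem_nonunits_iff, map_one] at h2'
    exact lt_irrefl _ h2'
  have hlam : (⟨hs_muE h3 (N' * q) - 1, fc_x_mem_chart _⟩ :
      ↥(fc_chart ↥O ({hs_muE h3 (N' * q) - 1} : Set ↥(hs_E L h3 (N' * q))))) ∉ 𝔫 := by
    intro hmem
    rw [h𝔫eq] at hmem
    exact hnot _ _ hmem ht𝒱 (by ring)
  have hlam1 : (⟨(hs_muE h3 (N' * q) : ↥(hs_E L h3 (N' * q))) ^ 2 + hs_muE h3 (N' * q) + 1,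
      m59h2_s44us_t_mem h3 O (N' * q)⟩ :
      ↥(fc_chart ↥O ({hs_muE h3 (N' * q) - 1} : Set ↥(hs_E L h3 (N' * q))))) ∉ 𝔫 := by
    intro hmem
    rw [h𝔫eq] at hmem
    exact hnot _ _ hmem hx𝒱 (by ring)
  exact m59h2_s44us_smooth_leg h3 O h3O hπ N' q hq3 hqN' hprime 𝔫 h1 h2
    (m59h2_s44us_j2_of_lam h3 O (N' * q) 𝔫 hlam hlam1) U1 hU1 hV1

end Hesse

end Fermat.Agent.M59
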