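/-
M59 / box [C] Mazur at `q = 2`, HESSE PORT, cluster C-MONO (helper28).  Prefix `m59h2_`.

**(Z3) [MONO-tame] + (Z4) THROUGH THE HESSE COVER, ANY EXPONENT `m`** (`m ≠ 0`, `gcd(m, 6) = 1`): residue
characteristic `q` PRIME TO `3` (in the application `q = 2`), `q ∤ M`, level `M q`.  Twins of
`twfm_pairs_gen`, `twfm_mono_gen`, `twfm_compCells` (`TW/Easy/Mono/MainGen.lean`), whose hypothesis `q ≠ 2`
came only from the Legendre cover.  For `V ∈ J₀(M q)[m]` fixed by the inertia group of a place `A ∣ q`: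

* `m59h2_twfm_pairs_gen` : raw pairwise slope form (any `m ≠ 0`);
* `m59h2_twfm_mono_gen`  : `∃ c : ZMod m, ∀ i : Sg, twfh_k i · ν_i(V) = c`  = the field `mono` of
                           `twf_CompCells A M hqM m S k B` for `k = twfh_k`;
* `m59h2_twfm_compCells` : `twf_CompCells A M hqM m ∅ twfh_k twfh_B` (main's cover-free Prop, literally).
-/
import Mathlib
import Fermat.Agent.TW.Easy.Mono.MainGen
import Fermat.Agent.M59.Hesse2.Mono.HesUnif
import Fermat.Agent.M59.Hesse2.Mono.HesPair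
import Fermat.Agent.M59.Hesse2.Res.HesHeckeRes

set_option autoImplicit false
set_option linter.unusedSectionVars false
set_option linter.style.haveILetI false
set_option linter.unusedVariables false

noncomputable section

namespace Fermat.Agent.M59

open Polynomial ModularCurve AlgebraicCurve IntermediateField IsLocalRing
open Fermat.Agent.JT3 Fermat.Agent.SS Fermat.Agent.S35 Fermat.Agent.S24 Fermat.Agent.S44
  Fermat.Agent.TW

local notation "Qb" => AlgebraicClosure ℚ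

section Main

set_option synthInstance.maxHeartbeats 400000

variable (A : ValuationSubring Qb) {q : ℕ} [hq : Fact q.Prime] (hA : A.LiesOverPrime q)
  (M : ℕ) [NeZero M] [NeZero q] [NeZero (M * q)] (hqM : ¬ q ∣ M) (hq3 : ¬ 3 ∣ q)

attribute [local instance] s44kq_lsAction

include hA hq3 in
set_option maxHeartbeats 3200000 in
/-- **(Z3) [MONO-tame], raw pairwise slope form, ANY exponent `m ≠ 0`.** -/
theorem m59h2_twfm_pairs_gen {m : ℕ} (hm0 : m ≠ 0) {V : JZero (M * q)} (hV : m • V = 0)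
    (hfix : ∀ σ ∈ A.inertiaSubgroupIn ℚ, σ • V = V)
    (Q Q' : Place (s44e_kA A) (s44e_FF A M))
    (hQ : s44e_IsSS A M q hq.out hqM Q) (hQ' : s44e_IsSS A M q hq.out hqM Q') :
    ∃ (fb : s44e_FF A M) (T T' : ℤ), twfr_Fbar A M q m V fb ∧
      T * Q.ord (s44e_ubar A M q) = 12 ∧ T' * Q'.ord (s44e_ubar A M q) = 12 ∧
      T * Q.ord fb ≡ T' * Q'.ord fb [ZMOD (m : ℤ)] := by
  classical
  haveI : NeZero ((m : ℕ) : Qb) := ⟨by exact_mod_cast hm0⟩
  obtain ⟨ζ, hζ⟩ := HasEnoughRootsOfUnity.exists_primitiveRoot Qb m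
  obtain ⟨T₀, hT₀⟩ := m59h2_s44ndss_ndss A hA M hqM hq3 Q hQ
  obtain ⟨T₀', hT₀'⟩ := m59h2_s44ndss_ndss A hA M hqM hq3 Q' hQ'
  haveI : NeZero (3 * M) := ⟨Nat.mul_ne_zero (by norm_num) (NeZero.ne M)⟩
  obtain ⟨ζM, hζM⟩ := HasEnoughRootsOfUnity.exists_primitiveRoot Qb (3 * M)
  obtain ⟨T₂, fV, cbar, gbar, Φbar, hRV, hall⟩ :=
    m59h2_twfm_unif (M * q) hm0 hζ (A.inertiaSubgroupIn ℚ) V hfix hV
  obtain ⟨L', hfd, hn, hTL', -⟩ := s44b_exists_nf (M * q) ∅ (T₂ ∪ T₀ ∪ T₀' ∪ {ζM})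
  have hTL'' : ∀ x ∈ (T₂ ∪ T₀ ∪ T₀' ∪ {ζM} : Finset Qb), x ∈ L' :=
    fun x hx => hTL' (Finset.mem_coe.2 hx)
  have s1 : (↑T₂ : Set Qb) ⊆ L' := fun x hx => hTL'' x (by
    simp only [Finset.mem_union]; exact Or.inl (Or.inl (Or.inl (Finset.mem_coe.1 hx))))
  have s2 : (↑T₀ : Set Qb) ⊆ L' := fun x hx => hTL'' x (by
    simp only [Finset.mem_union]; exact Or.inl (Or.inl (Or.inr (Finset.mem_coe.1 hx))))
  have s3 : (↑T₀' : Set Qb) ⊆ L' := fun x hx => hTL'' x (by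
    simp only [Finset.mem_union]; exact Or.inl (Or.inr (Finset.mem_coe.1 hx)))
  have s4 : ζM ∈ L' := hTL'' ζM (Finset.mem_union_right _ (Finset.mem_singleton_self ζM))
  haveI := hfd
  haveI := hn
  haveI : NumberField ↥L' := { to_charZero := inferInstance, to_finiteDimensional := hfd }
  haveI hdvr : IsDiscreteValuationRing ↥(A.comap (algebraMap ↥L' Qb)) :=
    dsc_isDVR_comap_numberField A q hA hq.out.ne_zero ↥L'
  haveI : CharP (IsLocalRing.ResidueField ↥(A.comap (algebraMap ↥L' Qb))) q :=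
    ss_nfl_charP_residue (lg_natCast_mem_maximalIdeal A hA ↥L')
  obtain ⟨π, hπ⟩ := IsDiscreteValuationRing.exists_irreducible
    ↥(A.comap (algebraMap ↥L' Qb))
  have hζM' : IsPrimitiveRoot (⟨ζM, s4⟩ : ↥L') (3 * M) :=
    (IsPrimitiveRoot.map_iff_of_injective (f := algebraMap ↥L' Qb)
      (FaithfulSMul.algebraMap_injective ↥L' Qb)).1 hζM
  have h3 : (3 : ↥L') ≠ 0 := three_ne_zero
  have h3O : IsUnit (3 : ↥(A.comap (algebraMap ↥L' Qb))) :=
    ssm_fhn_isUnit_three ↥L' (A.comap (algebraMap ↥L' Qb)) q hq3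
  obtain ⟨fv1, c, g, Φ, hfv1, hc0, hg0, hΦ, hσΦ, -, -, -, hRΦ⟩ := hall L' hfd hn s1 h3
  exact m59h2_twfm_pair_nf A hA M hqM hq3 L' h3 h3O hπ hm0 ⟨ζM, s4⟩ hζM'
    (by rw [hfv1]; exact hRV) hc0 hg0 hΦ hσΦ hRΦ Q Q' (hT₀ L' s2 h3 h3O hπ) (hT₀' L' s3 h3 h3O hπ)

include hA hq3 in
/-- **(Z3) [MONO-tame], ANY exponent `m` coprime to `6`**: for `V ∈ J₀(M q)[m]` fixed by the inertia
group of `A ∣ q`, the weighted residues `k_i · ν_i(V)` at the supersingular places are all equal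
(`k = twfh_k`, `ν = twfr_nu`). -/
theorem m59h2_twfm_mono_gen {m : ℕ} (hm0 : m ≠ 0) (hm6 : Nat.Coprime m 6) {V : JZero (M * q)}
    (hV : m • V = 0) (hfix : ∀ σ ∈ A.inertiaSubgroupIn ℚ, σ • V = V) :
    ∃ c : ZMod m, ∀ i : s44e_Sg A M q hq.out hqM,
      twfh_k A M q hq.out hqM m i * twfr_nu A M q hq.out hqM m V i = c := by
  refine s44mend_exists_c _ (fun i i' => ?_)
  obtain ⟨fb, T, T', hFb, hu, hu', hc⟩ :=
    m59h2_twfm_pairs_gen A hA M hqM hq3 hm0 hV hfix i.1 i'.1 i.2 i'.2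
  have e := twfr_nuAll_eq A hq.out hA M (Nat.pos_of_ne_zero hm0) (s44rd_hmem A hA M hqM) hFb i.1
  have e' := twfr_nuAll_eq A hq.out hA M (Nat.pos_of_ne_zero hm0) (s44rd_hmem A hA M hqM) hFb i'.1
  show (((Place.ord i.1 (s44e_ubar A M q) : ℤ) : ZMod m))⁻¹ * twfr_nuAll A M q m V i.1 =
    (((Place.ord i'.1 (s44e_ubar A M q) : ℤ) : ZMod m))⁻¹ * twfr_nuAll A M q m V i'.1
  rw [e, e', twfm_inv_mul hm6 hu, twfm_inv_mul hm6 hu', (ZMod.intCast_eq_intCast_iff _ _ m).2 hc]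

include hA hq3 in
/-- **(Z3) + (Z4) for ANY exponent `m ≠ 0` coprime to `6`**: helper1's `twf_CompCells` with `S := ∅`,
`k := twfh_k`, `B := twfh_B` (helper11). -/
theorem m59h2_twfm_compCells {m : ℕ} (hm0 : m ≠ 0) (hm6 : Nat.Coprime m 6) :
    twf_CompCells A M hqM m ∅ (twfh_k A M q hq.out hqM m) (twfh_B A hA M hqM m) := by
  refine ⟨?_, ?_, ?_, ?_⟩
  · exact fun i => m59h2_twfh_k_isUnit A hA M hqM hq3 hm6 i
  · intro z hz hfix
    exact m59h2_twfm_mono_gen A hA M hqM hq3 hm0 hm6 hz hfix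
  · intro ℓ hℓN _ z hz
    exact m59h2_twfh_heckeRes A hA M hqM hq3 hm0 hm6 ℓ hℓN z hz
  · intro ℓ hℓN _
    exact m59h2_twfh_BEis A hA M hqM hq3 hm6 ℓ hℓN

end Main

end Fermat.Agent.M59
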