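/-
M59 / box [C] Mazur at `q = 2`, HESSE PORT, cluster C-MONO (helper28).  Prefix `m59h2_`.

HESSE TWINS of the chart-instance layer of S44's [H2] MONO-MAIN (`S44/Mono/CILeg.lean`, `CILegBlock.lean`,
`MainSigma.lean`, `CIDiv.lean`, `MainNorm.lean`): cover `E = hs_E L h3 (N' q)`, chart coordinate
`x = mu - 1`, Gauss rings `ssm_fh_V1`, `ssm_fh_V2`, residue characteristic `q` prime to `3`,
`L` containing a primitive `3 N'`-th root of unity.

* `m59h2_s44mci_leg_le_V`, `_leg_isAlg`, `_leg_noeth`, `_leg_ic`, `_leg_V2_isDVR`, `_leg_chartBlock`,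
  `_leg_pi_mem`;
* `m59h2_s44mx_sigmaB` : the `σ`-package of the `x`-chart for every inert `σ` (closed node clause
  `ssm_nht_nodeHyp`);
* `m59h2_s44mci_ord_cover`, `_ord_rep` : divisibility of the orders of `φ₃(f1)` on the Hesse cover;
* `m59h2_s44mm_phi_norm`, `m59h2_s44mm_nu_phi_norm`.
-/
import Mathlib
import Fermat.Agent.S44.Mono.CILegBlock
import Fermat.Agent.S44.Mono.MainSigma
import Fermat.Agent.S44.Mono.CIDiv
import Fermat.Agent.S44.Mono.MainNorm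
import Fermat.Agent.S35.FinalHes.Model
import Fermat.Agent.SS.Model.NodeHesFinal
import Fermat.Agent.SS2.DescPhi.NormCoverHes
import Fermat.Agent.M59.Hesse2.Mono.HesNodeDict

set_option autoImplicit false
set_option linter.unusedSectionVars false
set_option linter.style.haveILetI false
set_option linter.unusedVariables false

noncomputable section

namespace Fermat.Agent.M59

open ModularCurve AlgebraicCurve IntermediateField IsLocalRing Polynomial Module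
open Fermat.Agent.JT3 Fermat.Agent.SS Fermat.Agent.S35 Fermat.Agent.S24 Fermat.Agent.SS2
  Fermat.Agent.S44

local notation "Qb" => AlgebraicClosure ℚ

section NF

variable (L : Type) [Field L] [NumberField L] [Algebra L (AlgebraicClosure ℚ)] (h3 : (3 : L) ≠ 0)
  (O : ValuationSubring L) [IsDiscreteValuationRing O] (h3O : IsUnit (3 : O)) {π : O}
  (hπ : Irreducible π)
variable (N' q : ℕ) [NeZero N'] [NeZero q] [hq : Fact q.Prime] [CharP (ResidueField O) q]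
  (hq3 : ¬ 3 ∣ q) (hqN' : ¬ q ∣ N') (ζ : L) (hζ : IsPrimitiveRoot ζ (3 * N'))

include hζ in
set_option synthInstance.maxHeartbeats 400000 in
set_option maxHeartbeats 1600000 in
/-- `B12 ⊆ V1` and `B12 ⊆ V2`. -/
theorem m59h2_s44mci_leg_le_V :
    (∀ b ∈ fc_chart ↥O ({(hs_muE h3 (N' * q) - 1), ((hs_muE h3 (N' * q) - 1))⁻¹} : Set ↥(hs_E L h3 (N' * q))),
      b ∈ ssm_fh_V1 h3 O h3O hπ N' q) ∧
    (∀ b ∈ fc_chart ↥O ({(hs_muE h3 (N' * q) - 1), ((hs_muE h3 (N' * q) - 1))⁻¹} : Set ↥(hs_E L h3 (N' * q))),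
      b ∈ ssm_fh_V2 h3 O h3O hπ N' q hq3 hqN') := by
  have hp := ssm_nhh_level L h3 O hπ N' q hq3 hqN' ζ hζ
  haveI := ssm_go_isScalarTower O (hs_E L h3 (N' * q))
  have H := ssm_fh_hyp h3 O h3O hπ N' q hq3 hqN' hp.1
  have hx : Transcendental L ((hs_muE h3 (N' * q) - 1)) :=
    ssm_sgm_transcendental h3 (N' * q)
  have hC12 := ssm_tp_ff_chart12 (L := L) hπ hx
  haveI : IsIntegrallyClosed (Algebra.adjoin ↥O ({(hs_muE h3 (N' * q) - 1)} : Set ↥(hs_E L h3 (N' * q)))) :=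
    fc_ff_isIntegrallyClosed (fc_ff_transcendental (L := L) hx)
  haveI : FaithfulSMul (Algebra.adjoin ↥O ({(hs_muE h3 (N' * q) - 1)} : Set ↥(hs_E L h3 (N' * q))))
      ↥(hs_E L h3 (N' * q)) :=
    (faithfulSMul_iff_algebraMap_injective _ _).2 Subtype.val_injective
  exact ⟨fun b hb => hC12.le H.over1 hb, fun b hb => hC12.le H.over2 hb⟩

/-- `E` is algebraic over `O[λ]` (hence `IsFractionRing (fc_chart O {λ}) E` by instance). -/
theorem m59h2_s44mci_leg_isAlg (N : ℕ) [NeZero N] :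
    Algebra.IsAlgebraic (Algebra.adjoin ↥O ({(hs_muE h3 N - 1)} : Set ↥(hs_E L h3 N))) ↥(hs_E L h3 N) := by
  haveI := ssm_glh_finite h3 N
  exact fc_ff_isAlgebraic (L := L) ((hs_muE h3 N - 1))

/-- the `λ`-chart is noetherian. -/
theorem m59h2_s44mci_leg_noeth (N : ℕ) [NeZero N] :
    IsNoetherianRing (fc_chart ↥O ({(hs_muE h3 N - 1)} : Set ↥(hs_E L h3 N))) := by
  haveI := ssm_glh_finite h3 N
  have hx : Transcendental L ((hs_muE h3 N - 1)) := ssm_sgm_transcendental h3 N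
  have := fc_chart_isNoetherianRing (A0 := ↥O) (F0 := ↥(hs_E L h3 N)) {(hs_muE h3 N - 1)}
    (by rw [Finset.coe_singleton]; exact fc_ff_finite (L := L) hx)
  rwa [Finset.coe_singleton] at this

/-- the `λ`-chart is integrally closed. -/
theorem m59h2_s44mci_leg_ic (N : ℕ) [NeZero N] :
    IsIntegrallyClosed (fc_chart ↥O ({(hs_muE h3 N - 1)} : Set ↥(hs_E L h3 N))) := by
  haveI := m59h2_s44mci_leg_isAlg L h3 O N
  exact ssl_chart_isIntegrallyClosed {(hs_muE h3 N - 1)}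

/-- `V2 = W⁻¹ V1` is a discrete valuation ring. -/
theorem m59h2_s44mci_leg_V2_isDVR :
    IsDiscreteValuationRing ↥(ssm_fh_V2 h3 O h3O hπ N' q hq3 hqN') := by
  haveI : IsDiscreteValuationRing ↥(ssm_fh_V1 h3 O h3O hπ N' q) :=
    ssm_ga_isDVR π hπ.ne_zero hπ.maximalIdeal_eq _ _
  -- the ring isomorphism `V1 ≃ V2` induced by `W⁻¹`
  let W := ssm_fh_W h3 N' q hq3 hqN'
  let e : ↥(ssm_fh_V1 h3 O h3O hπ N' q) ≃+* ↥(ssm_fh_V2 h3 O h3O hπ N' q hq3 hqN') :=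
    { toFun := fun z => ⟨W.symm z, by
        show W (W.symm (z : ↥(hs_E L h3 (N' * q)))) ∈ ssm_fh_V1 h3 O h3O hπ N' q
        rw [RingEquiv.apply_symm_apply]; exact z.2⟩
      invFun := fun z => ⟨W z, z.2⟩
      left_inv := fun z => Subtype.ext (RingEquiv.apply_symm_apply W _)
      right_inv := fun z => Subtype.ext (RingEquiv.symm_apply_apply W _)
      map_mul' := fun a b => Subtype.ext (map_mul W.symm _ _)
      map_add' := fun a b => Subtype.ext (map_add W.symm _ _) }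
  exact IsDiscreteValuationRing.RingEquivClass.isDiscreteValuationRing e

include hζ in
set_option synthInstance.maxHeartbeats 400000 in
set_option maxHeartbeats 1600000 in
/-- **THE CHART BLOCK OF `s44gm_pair` FOR THE LEGENDRE `λ`-CHART.** -/
theorem m59h2_s44mci_leg_chartBlock :
    (ssm_tp_P (fc_chart ↥O ({(hs_muE h3 (N' * q) - 1), ((hs_muE h3 (N' * q) - 1))⁻¹} :
      Set ↥(hs_E L h3 (N' * q)))) (ssm_fh_V1 h3 O h3O hπ N' q)).IsPrime ∧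
    (ssm_tp_P (fc_chart ↥O ({(hs_muE h3 (N' * q) - 1), ((hs_muE h3 (N' * q) - 1))⁻¹} :
      Set ↥(hs_E L h3 (N' * q)))) (ssm_fh_V2 h3 O h3O hπ N' q hq3 hqN')).IsPrime ∧
    IsDiscreteValuationRing ↥(ssm_fh_V2 h3 O h3O hπ N' q hq3 hqN') ∧
    -- `hϖ0`
    algebraMap ↥O ↥(hs_E L h3 (N' * q)) π ≠ 0 ∧
    -- `hrad`
    Ideal.span {algebraMap ↥O (fc_chart ↥O ({(hs_muE h3 (N' * q) - 1), ((hs_muE h3 (N' * q) - 1))⁻¹} :
      Set ↥(hs_E L h3 (N' * q)))) π} =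
      ssm_tp_P (fc_chart ↥O ({(hs_muE h3 (N' * q) - 1), ((hs_muE h3 (N' * q) - 1))⁻¹} :
        Set ↥(hs_E L h3 (N' * q)))) (ssm_fh_V1 h3 O h3O hπ N' q) ⊓
      ssm_tp_P (fc_chart ↥O ({(hs_muE h3 (N' * q) - 1), ((hs_muE h3 (N' * q) - 1))⁻¹} :
        Set ↥(hs_E L h3 (N' * q)))) (ssm_fh_V2 h3 O h3O hπ N' q hq3 hqN') ∧
    -- `hξS`, `hξinv`, `hclear` for `ξ = λ`
    ((hs_muE h3 (N' * q) - 1) : ↥(hs_E L h3 (N' * q))) ∈
      sfc_S (fc_chart ↥O ({(hs_muE h3 (N' * q) - 1)} : Set ↥(hs_E L h3 (N' * q)))).toSubring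
        (algebraMap ↥O ↥(hs_E L h3 (N' * q)) π) ∧
    ((hs_muE h3 (N' * q) - 1) : ↥(hs_E L h3 (N' * q)))⁻¹ ∈
      fc_chart ↥O ({(hs_muE h3 (N' * q) - 1), ((hs_muE h3 (N' * q) - 1))⁻¹} : Set ↥(hs_E L h3 (N' * q))) ∧
    (∀ z ∈ fc_chart ↥O ({(hs_muE h3 (N' * q) - 1), ((hs_muE h3 (N' * q) - 1))⁻¹} : Set ↥(hs_E L h3 (N' * q))),
      ∃ k : ℕ, ((hs_muE h3 (N' * q) - 1) : ↥(hs_E L h3 (N' * q))) ^ k * z ∈
        fc_chart ↥O ({(hs_muE h3 (N' * q) - 1)} : Set ↥(hs_E L h3 (N' * q)))) ∧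
    -- `hOB` for `O_glob = sfc_O B12 π`
    (∀ z ∈ sfc_O (fc_chart ↥O ({(hs_muE h3 (N' * q) - 1), ((hs_muE h3 (N' * q) - 1))⁻¹} :
        Set ↥(hs_E L h3 (N' * q)))).toSubring (algebraMap ↥O ↥(hs_E L h3 (N' * q)) π),
      ∃ s ∈ sfc_S (fc_chart ↥O ({(hs_muE h3 (N' * q) - 1)} : Set ↥(hs_E L h3 (N' * q)))).toSubring
          (algebraMap ↥O ↥(hs_E L h3 (N' * q)) π),
        s * z ∈ fc_chart ↥O ({(hs_muE h3 (N' * q) - 1)} : Set ↥(hs_E L h3 (N' * q)))) ∧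
    -- `hB12V1`, `hP1V`
    (∀ b ∈ fc_chart ↥O ({(hs_muE h3 (N' * q) - 1), ((hs_muE h3 (N' * q) - 1))⁻¹} : Set ↥(hs_E L h3 (N' * q))),
      b ∈ ssm_fh_V1 h3 O h3O hπ N' q) ∧
    (∀ b : fc_chart ↥O ({(hs_muE h3 (N' * q) - 1), ((hs_muE h3 (N' * q) - 1))⁻¹} : Set ↥(hs_E L h3 (N' * q))),
      b ∈ ssm_tp_P (fc_chart ↥O ({(hs_muE h3 (N' * q) - 1), ((hs_muE h3 (N' * q) - 1))⁻¹} :
        Set ↥(hs_E L h3 (N' * q)))) (ssm_fh_V1 h3 O h3O hπ N' q) ↔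
        (b : ↥(hs_E L h3 (N' * q))) ∈ (ssm_fh_V1 h3 O h3O hπ N' q).nonunits) ∧
    -- `hB12V2`, `hP2V`, `hloc2`
    (∀ b ∈ fc_chart ↥O ({(hs_muE h3 (N' * q) - 1), ((hs_muE h3 (N' * q) - 1))⁻¹} : Set ↥(hs_E L h3 (N' * q))),
      b ∈ ssm_fh_V2 h3 O h3O hπ N' q hq3 hqN') ∧
    (∀ b : fc_chart ↥O ({(hs_muE h3 (N' * q) - 1), ((hs_muE h3 (N' * q) - 1))⁻¹} : Set ↥(hs_E L h3 (N' * q))),
      b ∈ ssm_tp_P (fc_chart ↥O ({(hs_muE h3 (N' * q) - 1), ((hs_muE h3 (N' * q) - 1))⁻¹} :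
        Set ↥(hs_E L h3 (N' * q)))) (ssm_fh_V2 h3 O h3O hπ N' q hq3 hqN') ↔
        (b : ↥(hs_E L h3 (N' * q))) ∈ (ssm_fh_V2 h3 O h3O hπ N' q hq3 hqN').nonunits) ∧
    (∀ z ∈ ssm_fh_V2 h3 O h3O hπ N' q hq3 hqN',
      ∃ b s : fc_chart ↥O ({(hs_muE h3 (N' * q) - 1), ((hs_muE h3 (N' * q) - 1))⁻¹} : Set ↥(hs_E L h3 (N' * q))),
        s ∉ ssm_tp_P (fc_chart ↥O ({(hs_muE h3 (N' * q) - 1), ((hs_muE h3 (N' * q) - 1))⁻¹} :
          Set ↥(hs_E L h3 (N' * q)))) (ssm_fh_V2 h3 O h3O hπ N' q hq3 hqN') ∧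
        z * (s : ↥(hs_E L h3 (N' * q))) = (b : ↥(hs_E L h3 (N' * q)))) := by
  have hp := ssm_nhh_level L h3 O hπ N' q hq3 hqN' ζ hζ
  haveI := ssm_go_isScalarTower O (hs_E L h3 (N' * q))
  have H := ssm_fh_hyp h3 O h3O hπ N' q hq3 hqN' hp.1
  have hx : Transcendental L ((hs_muE h3 (N' * q) - 1)) :=
    ssm_sgm_transcendental h3 (N' * q)
  have hC12 := ssm_tp_ff_chart12 (L := L) hπ hx
  haveI : IsIntegrallyClosed (Algebra.adjoin ↥O ({(hs_muE h3 (N' * q) - 1)} : Set ↥(hs_E L h3 (N' * q)))) :=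
    fc_ff_isIntegrallyClosed (fc_ff_transcendental (L := L) hx)
  haveI : FaithfulSMul (Algebra.adjoin ↥O ({(hs_muE h3 (N' * q) - 1)} : Set ↥(hs_E L h3 (N' * q))))
      ↥(hs_E L h3 (N' * q)) :=
    (faithfulSMul_iff_algebraMap_injective _ _).2 Subtype.val_injective
  have M := s35fh_model L h3 O h3O hπ N' q hq3 hqN' ζ hζ
  have hx0 := ssa_x_ne_zero M
  refine ⟨M.prime1, M.prime2, m59h2_s44mci_leg_V2_isDVR L h3 O h3O hπ N' q hq3 hqN', ssa_pi_ne_zero M, M.hrad,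
    M.hxS1, ssa_xinv_mem12, fun z hz => fc_clear1 hx0 hz, ssl_model_OB1 M,
    fun b hb => hC12.le H.over1 hb, fun b => H.mem_P1 hC12,
    fun b hb => hC12.le H.over2 hb, fun b => H.mem_P2 hC12, ?_⟩
  intro z hz
  obtain ⟨t, ht, htn, htz⟩ := (H.chart_loc2 hC12).1 hz
  refine ⟨⟨t * z, htz⟩, ⟨t, ht⟩, ?_, ?_⟩
  · rw [H.mem_P2 hC12]
    exact htn
  · show z * t = t * z
    ring

include hζ hq3 hqN' h3 h3O in
set_option synthInstance.maxHeartbeats 400000 in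
set_option maxHeartbeats 1600000 in
/-- `hπ𝔫` of `s44gm_pair` from the crossing hypothesis of `s44mu_node`. -/
theorem m59h2_s44mci_leg_pi_mem
    (𝔫 : Ideal (fc_chart ↥O ({(hs_muE h3 (N' * q) - 1)} : Set ↥(hs_E L h3 (N' * q)))))
    (h1 : ssm_tp_P (fc_chart ↥O ({(hs_muE h3 (N' * q) - 1)} : Set ↥(hs_E L h3 (N' * q))))
      (ssm_fh_V1 h3 O h3O hπ N' q) ≤ 𝔫) :
    algebraMap ↥O (fc_chart ↥O ({(hs_muE h3 (N' * q) - 1)} : Set ↥(hs_E L h3 (N' * q)))) π ∈ 𝔫 := by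
  have hp := ssm_nhh_level L h3 O hπ N' q hq3 hqN' ζ hζ
  haveI := ssm_go_isScalarTower O (hs_E L h3 (N' * q))
  have H := ssm_fh_hyp h3 O h3O hπ N' q hq3 hqN' hp.1
  obtain ⟨hV1, -⟩ := m59h2_s44mci_leg_le_V L h3 O h3O hπ N' q hq3 hqN' ζ hζ
  have hx : Transcendental L ((hs_muE h3 (N' * q) - 1)) :=
    ssm_sgm_transcendental h3 (N' * q)
  haveI : IsIntegrallyClosed (Algebra.adjoin ↥O ({(hs_muE h3 (N' * q) - 1)} : Set ↥(hs_E L h3 (N' * q)))) :=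
    fc_ff_isIntegrallyClosed (fc_ff_transcendental (L := L) hx)
  haveI : FaithfulSMul (Algebra.adjoin ↥O ({(hs_muE h3 (N' * q) - 1)} : Set ↥(hs_E L h3 (N' * q))))
      ↥(hs_E L h3 (N' * q)) :=
    (faithfulSMul_iff_algebraMap_injective _ _).2 Subtype.val_injective
  apply h1
  rw [ssm_tp_mem_P (fun b hb => hV1 b (fc_chart1_le _ hb))]
  exact H.over1.pi_mem

include hπ hq3 hqN' hζ h3 h3O in
set_option synthInstance.maxHeartbeats 400000 in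
set_option maxHeartbeats 1600000 in
/-- **the `σ`-package of the `λ`-chart for EVERY inert `σ`.** -/
theorem m59h2_s44mx_sigmaB (σ : L ≃+* L) (hσ : ss_Inert O σ) :
    ssl_SigmaB π (ssm_sgh_aut h3 (N' * q) σ)
      (fc_chart ↥O ({(hs_muE h3 (N' * q) - 1)} : Set ↥(hs_E L h3 (N' * q)))) := by
  have hE : ∀ z ∈ hs_E L h3 (N' * q), coeffMap (σ : L →+* L) z ∈ hs_E L h3 (N' * q) :=
    fun z hz => ssm_sgh_mem h3 (N' * q) _ hz
  have hE' : ∀ z ∈ hs_E L h3 (N' * q), coeffMap (σ.symm : L →+* L) z ∈ hs_E L h3 (N' * q) :=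
    fun z hz => ssm_sgh_mem h3 (N' * q) _ hz
  have h : ∀ z ∈ O, σ z ∈ O := fun z hz => ssm_gs_mem hσ hz
  have h' : ∀ z ∈ O, σ.symm z ∈ O := fun z hz => ssm_gs_mem (ssm_gs_inert_symm O σ hσ) hz
  have M := ssm_fhn_model_of_node L h3 O hπ N' q hq3 hqN' ζ hζ σ hσ h3O hE hE' h h'
    (fun 𝔫 h𝔫 h1 h2 => ssm_nht_nodeHyp L h3 O h3O hπ N' q hq3 hqN' ζ hζ σ hσ 𝔫 h𝔫 h1 h2)
  have e : ss_sigmaE σ (hs_E L h3 (N' * q)) hE hE' = ssm_sgh_aut h3 (N' * q) σ :=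
    RingEquiv.ext fun _ => rfl
  have hB := ssl_model_sigmaB1 M
  rwa [e] at hB

end NF

section Ord

variable (L1 : Type) [Field L1] [Algebra ℚ L1] [CharZero L1] [Algebra L1 Qb]
  [IsScalarTower ℚ L1 Qb] (h3 : (3 : L1) ≠ 0) (N : ℕ) [NeZero N]

/-- **divisibility of the orders on the cover**, over any subfield of `ℚ̄`. -/
theorem m59h2_s44mci_ord_cover (m : ℤ) (f : modularFunctionFieldBar N)
    (hord : ∀ v : Place Qb (modularFunctionFieldBar N), m ∣ v.ord f)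
    (f1 : lg_F L1 N) (hf1 : ssm_al_iotaF L1 N f1 = f) :
    ∀ v : Place L1 (hs_E L1 h3 N), m ∣ v.ord (hs_phiE h3 (N := N) f1) := by
  have _ : Algebra.IsAlgebraic ℚ Qb := AlgebraicClosure.isAlgebraic ℚ
  have _ : Algebra.IsAlgebraic L1 Qb := Algebra.IsAlgebraic.tower_top (K := ℚ) L1
  obtain ⟨f1', hf1'⟩ : ∃ f1' : laurentBaseChange L1 (modularFunctionFieldFull N),
      f1' = s44td_toBC L1 N f1 := ⟨_, rfl⟩
  have hf1'coe : (f1' : LaurentSeries L1) = (f1 : LaurentSeries L1) := by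
    rw [hf1', s44td_toBC_coe]
  have hιcoe : ((ssm_al_iotaF L1 N f1 : modularFunctionFieldBar N) :
      LaurentSeries Qb) = dsc_cm L1 Qb (f1 : LaurentSeries L1) := by
    rw [ssm_al_coe_iotaF, dsc_cm]
  have hbc : dsc_bcHom L1 Qb (modularFunctionFieldFull N) f1' = f := by
    apply Subtype.ext
    rw [dsc_bcHom_coe, hf1'coe, ← hf1, hιcoe]
  have hord1 : ∀ Q : Place L1 (laurentBaseChange L1 (modularFunctionFieldFull N)),
      m ∣ Q.ord f1' := fun Q =>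
    dsc_bc_dvd_ord L1 Qb (modularFunctionFieldFull N) m f1'
      (fun P => by rw [hbc]; exact hord P) Q
  intro v
  have := lg_dvd_ord_of_embedding (ss2_dp_iotaH L1 h3 N) m f1' hord1 v
  have e : ss2_dp_iotaH L1 h3 N (s44td_toBC L1 N f1) = hs_phiE h3 (N := N) f1 := by
    apply Subtype.ext
    rw [ss2_dp_iotaH_coe, s44td_toBC_coe, hs_phiE_coe, hs_phi_apply]
  rwa [hf1', e] at this

/-- **the orders of `φ(fv1)` are divisible by `p`** for every model `fv1` of a representing function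
of a `p`-torsion class. -/
theorem m59h2_s44mci_ord_rep {p : ℕ} {V : JZero N} {fV : modularFunctionFieldBar N}
    (hfV : s44f_Rep N p V fV) (fv1 : lg_F L1 N) (hfv1 : ssm_al_iotaF L1 N fv1 = fV) :
    hs_phiE h3 (N := N) fv1 ≠ 0 ∧
    ∀ v : Place L1 (hs_E L1 h3 N), (p : ℤ) ∣ v.ord (hs_phiE h3 (N := N) fv1) := by
  have hord : ∀ v : Place Qb (modularFunctionFieldBar N), (p : ℤ) ∣ v.ord fV := by
    obtain ⟨-, D, -, hD⟩ := hfV
    exact fun v => ⟨_, (hD v).symm⟩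
  refine ⟨?_, m59h2_s44mci_ord_cover L1 h3 N (p : ℤ) fV hord fv1 hfv1⟩
  rw [Ne, map_eq_zero]
  rintro rfl
  rw [map_zero] at hfv1
  exact hfV.1 hfv1.symm

end Ord

section Norm

set_option synthInstance.maxHeartbeats 400000

variable (A : ValuationSubring s44_Qb) {p : ℕ} [hp : Fact p.Prime] (hA : A.LiesOverPrime p)
  (M : ℕ) [NeZero M] [NeZero p] [NeZero (M * p)] (hpM : ¬ p ∣ M)
  (L1 : IntermediateField ℚ s44_Qb) (h3 : (3 : ↥L1) ≠ 0)
  [IsDiscreteValuationRing ↥(A.comap (algebraMap L1 s44_Qb))]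
  [CharP (ResidueField ↥(A.comap (algebraMap L1 s44_Qb))) p]
  {π : ↥(A.comap (algebraMap L1 s44_Qb))} (hπ : Irreducible π)

set_option hygiene false in
local notation "O1" => ValuationSubring.comap A (algebraMap L1 s44_Qb)

/-- `φ (π ^ n * x) = π ^ n * φ x`. -/
theorem m59h2_s44mm_phi_norm (x : ↥(lg_F L1 (M * p))) (n : ℤ) :
    hs_phiE h3 (N := M * p)
        (algebraMap L1 ↥(lg_F L1 (M * p)) ((π : ↥O1) : L1) ^ n * x) =
      algebraMap L1 ↥(hs_E L1 h3 (M * p)) ((π : ↥O1) : L1) ^ n *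
        hs_phiE h3 (N := M * p) x := by
  rw [map_mul, map_zpow₀, AlgHom.commutes]

include hπ in
/-- **a normalised order does not see the Gauss normalisation**: `ν (φ (π ^ n * x)) = ν (φ x)` for
every `ν` with `s44nu_IsNu lam u P₂ ν` over a local ring `R ⊆ E` in which `lam` is the image of
`π`. -/
theorem m59h2_s44mm_nu_phi_norm {R : Type*} [CommRing R] [IsDomain R] [IsLocalRing R]
    [IsNoetherianRing R] [Algebra R ↥(hs_E L1 h3 (M * p))] [IsFractionRing R ↥(hs_E L1 h3 (M * p))]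
    {lam u : R} {P₂ : Ideal R} {ν : ↥(hs_E L1 h3 (M * p)) → ℤ} (h : s44nu_IsNu lam u P₂ ν)
    (hlam : algebraMap R ↥(hs_E L1 h3 (M * p)) lam =
      algebraMap L1 ↥(hs_E L1 h3 (M * p)) ((π : ↥O1) : L1))
    {x : ↥(lg_F L1 (M * p))} (hx0 : x ≠ 0) (n : ℤ) :
    ν (hs_phiE h3 (N := M * p)
        (algebraMap L1 ↥(lg_F L1 (M * p)) ((π : ↥O1) : L1) ^ n * x)) =
      ν (hs_phiE h3 (N := M * p) x) := by
  have hπL : ((π : ↥O1) : L1) ≠ 0 := fun h => hπ.ne_zero (Subtype.ext h)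
  rw [m59h2_s44mm_phi_norm]
  exact s44mm_nu_norm h hlam.symm ((_root_.map_ne_zero _).2 hπL) n
    ((_root_.map_ne_zero _).2 hx0)

end Norm

end Fermat.Agent.M59
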