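/-
M59 / box [C] Mazur at `q = 2`, HESSE PORT, cluster B-UDIV (helper28).  Prefix `m59h2_`.

Twin of `s44ndss_at` (`S44/Mono/NodeDictSS.lean`): (ND-SS) = THE SUPERSINGULAR NODE PACKAGE over a given number
field `L1` (containing a primitive `3 M`-th root of unity and a model of the modular unit), Hesse cover.
-/
import Mathlib
import Fermat.Agent.S44.Mono.NodeDictSS
import Fermat.Agent.M59.Hesse2.Mono.HesNodeDict
import Fermat.Agent.M59.Hesse2.Mono.HesUnitNodeInst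

set_option autoImplicit false
set_option linter.unusedSectionVars false
set_option linter.style.haveILetI false
set_option linter.unusedVariables false
set_option synthInstance.maxHeartbeats 400000
set_option maxHeartbeats 6400000

noncomputable section

namespace Fermat.Agent.M59

open Polynomial ModularCurve AlgebraicCurve IntermediateField IsLocalRing
open Fermat.Agent.JT3 Fermat.Agent.SS Fermat.Agent.S35 Fermat.Agent.S24 Fermat.Agent.S28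
  Fermat.Agent.MZ Fermat.Agent.S44

section SS

local notation "Qb" => AlgebraicClosure ℚ

variable (A : ValuationSubring Qb) {p : ℕ} [hp : Fact p.Prime] (hA : A.LiesOverPrime p)
  (M : ℕ) [NeZero M] [NeZero p] [NeZero (M * p)] (hpM : ¬ p ∣ M) (hp3 : ¬ 3 ∣ p)

include hA in
/-- **(ND-SS) over a given number field `L1`**, from a model `U1` of the modular unit over `L1`. -/
theorem m59h2_s44ndss_at (L1 : IntermediateField ℚ Qb) [NumberField ↥L1] (h3 : (3 : ↥L1) ≠ 0)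
    [IsDiscreteValuationRing ↥(A.comap (algebraMap L1 Qb))]
    (h3O : IsUnit (3 : ↥(A.comap (algebraMap L1 Qb))))
    [CharP (ResidueField ↥(A.comap (algebraMap L1 Qb))) p]
    {π : ↥(A.comap (algebraMap L1 Qb))} (hπ : Irreducible π)
    (ζ : ↥L1) (hζ : IsPrimitiveRoot ζ (3 * M))
    (Q : Place (s44e_kA A) ↥(s44e_FF A M)) (hQ : s44e_IsSS A M p hp.out hpM Q)
    (U1 : ↥(lg_F L1 (M * p)))
    (hU1 : ssm_al_iotaF L1 (M * p) U1 = s44hu_U p (M * p) (s44hu_dvd (rfl : M * p = M * p))) :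
    ∃ (𝔫 : Ideal ↥(fc_chart ↥(A.comap (algebraMap L1 Qb))
          ({(hs_muE h3 (M * p) - 1)} : Set ↥(hs_E L1 h3 (M * p)))))
      (h𝔫 : 𝔫.IsMaximal) (u v : ↥(hs_E L1 h3 (M * p))) (T : ℕ) (ν : ↥(hs_E L1 h3 (M * p)) → ℤ),
      haveI := (m59h2_s44ndl_chart_inst h3 (A.comap (algebraMap L1 Qb)) M p (L := L1)).1
      haveI := (m59h2_s44ndl_chart_inst h3 (A.comap (algebraMap L1 Qb)) M p (L := L1)).2.1
      haveI := (m59h2_s44ndl_chart_inst h3 (A.comap (algebraMap L1 Qb)) M p (L := L1)).2.2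
      haveI := h𝔫.isPrime
      haveI := ssl_loc_isLocalRing (F0 := ↥(hs_E L1 h3 (M * p))) 𝔫
      haveI := ssl_loc_isNoetherianRing (F0 := ↥(hs_E L1 h3 (M * p))) 𝔫
      ssm_tp_P (fc_chart ↥(A.comap (algebraMap L1 Qb))
          ({(hs_muE h3 (M * p) - 1)} : Set ↥(hs_E L1 h3 (M * p))))
          (ssm_fh_V1 h3 (A.comap (algebraMap L1 Qb)) h3O hπ M p) ≤ 𝔫 ∧
      ssm_tp_P (fc_chart ↥(A.comap (algebraMap L1 Qb))
          ({(hs_muE h3 (M * p) - 1)} : Set ↥(hs_E L1 h3 (M * p))))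
          (ssm_fh_V2 h3 (A.comap (algebraMap L1 Qb)) h3O hπ M p hp3 hpM) ≤ 𝔫 ∧
      s44mu_NodeAtU π (fc_chart1_le ((hs_muE h3 (M * p) - 1) : ↥(hs_E L1 h3 (M * p))))
        (ssm_tp_P (fc_chart ↥(A.comap (algebraMap L1 Qb))
          ({(hs_muE h3 (M * p) - 1), ((hs_muE h3 (M * p) - 1))⁻¹} : Set ↥(hs_E L1 h3 (M * p))))
          (ssm_fh_V1 h3 (A.comap (algebraMap L1 Qb)) h3O hπ M p))
        (ssm_tp_P (fc_chart ↥(A.comap (algebraMap L1 Qb))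
          ({(hs_muE h3 (M * p) - 1), ((hs_muE h3 (M * p) - 1))⁻¹} : Set ↥(hs_E L1 h3 (M * p))))
          (ssm_fh_V2 h3 (A.comap (algebraMap L1 Qb)) h3O hπ M p hp3 hpM))
        𝔫 u v ((p : ℕ) : ↥(A.comap (algebraMap L1 Qb))) ∧
      (∀ (σ : ↥L1 ≃+* ↥L1), ss_Inert (A.comap (algebraMap L1 Qb)) σ →
        ssm_sgh_aut h3 (M * p) σ u = u ∧ ssm_sgh_aut h3 (M * p) σ v = v) ∧
      0 < T ∧
      (∃ huS : u ∈ ssl_locSub ↥(hs_E L1 h3 (M * p)) 𝔫,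
        s44nu_IsNu
          (algebraMap ↥(fc_chart ↥(A.comap (algebraMap L1 Qb))
              ({(hs_muE h3 (M * p) - 1)} : Set ↥(hs_E L1 h3 (M * p))))
            ↥(ssl_locSub ↥(hs_E L1 h3 (M * p)) 𝔫)
            (algebraMap ↥(A.comap (algebraMap L1 Qb))
              ↥(fc_chart ↥(A.comap (algebraMap L1 Qb))
                ({(hs_muE h3 (M * p) - 1)} : Set ↥(hs_E L1 h3 (M * p)))) π))
          (⟨u, huS⟩ : ↥(ssl_locSub ↥(hs_E L1 h3 (M * p)) 𝔫))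
          (s44tl_br 𝔫 (fc_chart1_le ((hs_muE h3 (M * p) - 1) : ↥(hs_E L1 h3 (M * p))))
            (ssm_tp_P (fc_chart ↥(A.comap (algebraMap L1 Qb))
              ({(hs_muE h3 (M * p) - 1), ((hs_muE h3 (M * p) - 1))⁻¹} : Set ↥(hs_E L1 h3 (M * p))))
              (ssm_fh_V1 h3 (A.comap (algebraMap L1 Qb)) h3O hπ M p))) ν) ∧
      (∀ b : ↥(s44mz_VF (A.comap (algebraMap L1 Qb)) hπ M p), IsUnit b →
        ν (hs_phiE h3 (N := M * p) (b : ↥(lg_F L1 (M * p)))) =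
          (T : ℤ) * Q.ord (s44nlr_red A hA M hpM L1 hπ b : ↥(s44e_FF A M))) ∧
      (T : ℤ) * Q.ord (s44e_ubar A M p) = 12 := by
  obtain ⟨𝒲, hext⟩ := m59h2_s44ndl_exists_ext A hA M hp3 hpM L1 h3 h3O hπ Q
  have hc := m59h2_s44ndl_centre_A A hA M hp3 hpM L1 h3 h3O hπ ζ hζ Q 𝒲 hext hQ.1
  have h𝔫 : (m59h2_s44ndl_n L1 h3 (A.comap (algebraMap L1 Qb)) h3O hπ M p hp3 hpM 𝒲).IsMaximal :=
    hc.2.2.2.2.1
  have hP1 := hc.2.2.2.2.2.2.2
  haveI := (m59h2_s44ndl_chart_inst h3 (A.comap (algebraMap L1 Qb)) M p (L := L1)).1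
  haveI := (m59h2_s44ndl_chart_inst h3 (A.comap (algebraMap L1 Qb)) M p (L := L1)).2.1
  haveI := (m59h2_s44ndl_chart_inst h3 (A.comap (algebraMap L1 Qb)) M p (L := L1)).2.2
  haveI := h𝔫.isPrime
  haveI := ssl_loc_isLocalRing (F0 := ↥(hs_E L1 h3 (M * p)))
    (m59h2_s44ndl_n L1 h3 (A.comap (algebraMap L1 Qb)) h3O hπ M p hp3 hpM 𝒲)
  haveI := ssl_loc_isNoetherianRing (F0 := ↥(hs_E L1 h3 (M * p)))
    (m59h2_s44ndl_n L1 h3 (A.comap (algebraMap L1 Qb)) h3O hπ M p hp3 hpM 𝒲)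
  obtain ⟨hP2, u, v, hU, hfix, huS, T, ν, hT, hν, hunit⟩ :=
    m59h2_s44ndl_node_A A hA M hp3 hpM L1 h3 h3O hπ ζ hζ Q 𝒲 hext hQ h𝔫
  refine ⟨m59h2_s44ndl_n L1 h3 (A.comap (algebraMap L1 Qb)) h3O hπ M p hp3 hpM 𝒲, h𝔫, u, v, T, ν, hP1, hP2, hU,
    hfix, hT, ⟨huS, hν⟩, hunit, ?_⟩
  -- the modular unit
  have hU1' : ((U1 : ↥(lg_F L1 (M * p))) : LaurentSeries L1) = mzb_qi_U L1 p :=
    s44eu_model_coe L1 p (M * p) (s44hu_dvd (rfl : M * p = M * p)) hU1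
  have hmem : U1 ∈ s44mz_VF (A.comap (algebraMap L1 Qb)) hπ M p :=
    (s44mm_mem_VF_iff A hA M L1 hπ U1).2 (s44eu_model_mem A hA M L1 hU1)
  have hu1 : IsUnit (⟨U1, hmem⟩ : ↥(s44mz_VF (A.comap (algebraMap L1 Qb)) hπ M p)) :=
    s44us_model_isUnit A M L1 hπ ⟨U1, hmem⟩ hU1'
  have h12 := m59h2_s44un_node ↥L1 h3 (A.comap (algebraMap L1 Qb)) h3O hπ M p hp3 hpM ζ hζ U1 hU1'
    (m59h2_s44ndl_n L1 h3 (A.comap (algebraMap L1 Qb)) h3O hπ M p hp3 hpM 𝒲) hP1 hP2 hU huS ν hν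
  have hred : s44nlr_red A hA M hpM L1 hπ ⟨U1, hmem⟩ = s44e_ubar A M p := by
    rw [s44nlr_red_apply]
    exact s44eu_red_model A hA M hpM L1 hU1 _
  rw [← hred, ← hunit _ hu1]
  exact h12

end SS

end Fermat.Agent.M59
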