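/-
M59 / box [C] Mazur at `q = 2`, HESSE PORT, cluster C-MONO (helper28).  Prefix `m59h2_`.

HESSE TWINS of the interface (ND-SS) of S44's [H2] MONO-MAIN (`S44/Mono/MainND.lean`: the Props `s44h2_NDAt`,
`s44h2_NDSS`) and of its producer (`S44/Mono/NodeDictSSDef.lean`): for a supersingular place `Q` of
`FF_M / kA`, over every large number field `L1` (containing a primitive `3 M`-th root of unity and a
model of the modular unit) there is a crossing point `𝔫` of the `x`-chart (`x = mu - 1`) of the Hesse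
cover with uniform coordinates `(u, v)`, `u` fixed by every inert automorphism, a normalised order `ν`
at `𝔫` and a multiplier `T` with `ν (φ₃ b) = T · ord_Q (red b)` on Gauss units, `T · ord_Q ū = 12`.
-/
import Mathlib
import Fermat.Agent.S44.Mono.MainND
import Fermat.Agent.S44.Mono.NodeDictSSDef
import Fermat.Agent.M59.Hesse2.Mono.HesCI
import Fermat.Agent.M59.Hesse2.Mono.HesNodeDictSS

set_option autoImplicit false
set_option linter.unusedSectionVars false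
set_option linter.style.haveILetI false
set_option linter.unusedVariables false
set_option synthInstance.maxHeartbeats 400000
set_option maxHeartbeats 1600000

noncomputable section

namespace Fermat.Agent.M59

open Polynomial ModularCurve AlgebraicCurve IntermediateField IsLocalRing
open Fermat.Agent.JT3 Fermat.Agent.SS Fermat.Agent.S35 Fermat.Agent.S24 Fermat.Agent.S28
  Fermat.Agent.MZ Fermat.Agent.S44

local notation "Qb" => AlgebraicClosure ℚ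

section ND

variable (A : ValuationSubring Qb) {p : ℕ} [hp : Fact p.Prime] (hA : A.LiesOverPrime p)
  (M : ℕ) [NeZero M] [NeZero p] [NeZero (M * p)] (hpM : ¬ p ∣ M) (hp3 : ¬ 3 ∣ p)

/-- **(ND-SS) at one number field** `L1`, for a place `Q` of `FF_M / kA`: the supersingular node
package. -/
def m59h2_s44h2_NDAt (Q : Place (s44e_kA A) (s44e_FF A M)) (L1 : IntermediateField ℚ Qb)
    [NumberField ↥L1] (h3 : (3 : ↥L1) ≠ 0) [IsDiscreteValuationRing ↥(A.comap (algebraMap L1 Qb))]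
    (h3O : IsUnit (3 : ↥(A.comap (algebraMap L1 Qb))))
    [CharP (ResidueField ↥(A.comap (algebraMap L1 Qb))) p]
    {π : ↥(A.comap (algebraMap L1 Qb))} (hπ : Irreducible π) : Prop :=
  ∃ (𝔫 : Ideal ↥(fc_chart ↥(A.comap (algebraMap L1 Qb))
        ({(hs_muE h3 (M * p) - 1)} : Set ↥(hs_E L1 h3 (M * p)))))
    (h𝔫 : 𝔫.IsMaximal) (u v : ↥(hs_E L1 h3 (M * p))) (T : ℤ) (ν : ↥(hs_E L1 h3 (M * p)) → ℤ),
    haveI := m59h2_s44mci_leg_isAlg L1 h3 (A.comap (algebraMap L1 Qb)) (M * p)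
    haveI := m59h2_s44mci_leg_noeth L1 h3 (A.comap (algebraMap L1 Qb)) (M * p)
    haveI := m59h2_s44mci_leg_ic L1 h3 (A.comap (algebraMap L1 Qb)) (M * p)
    haveI := ssl_loc_isNoetherianRing (F0 := ↥(hs_E L1 h3 (M * p))) 𝔫
    haveI := ssl_loc_isLocalRing (F0 := ↥(hs_E L1 h3 (M * p))) 𝔫
    ssm_tp_P (fc_chart ↥(A.comap (algebraMap L1 Qb))
        ({(hs_muE h3 (M * p) - 1)} : Set ↥(hs_E L1 h3 (M * p))))
      (ssm_fh_V1 h3 (A.comap (algebraMap L1 Qb)) h3O hπ M p) ≤ 𝔫 ∧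
    s44mu_NodeAtU π (fc_chart1_le ((hs_muE h3 (M * p) - 1) : ↥(hs_E L1 h3 (M * p))))
      (ssm_tp_P (fc_chart ↥(A.comap (algebraMap L1 Qb))
        ({(hs_muE h3 (M * p) - 1), ((hs_muE h3 (M * p) - 1))⁻¹} : Set ↥(hs_E L1 h3 (M * p))))
        (ssm_fh_V1 h3 (A.comap (algebraMap L1 Qb)) h3O hπ M p))
      (ssm_tp_P (fc_chart ↥(A.comap (algebraMap L1 Qb))
        ({(hs_muE h3 (M * p) - 1), ((hs_muE h3 (M * p) - 1))⁻¹} : Set ↥(hs_E L1 h3 (M * p))))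
        (ssm_fh_V2 h3 (A.comap (algebraMap L1 Qb)) h3O hπ M p hp3 hpM)) 𝔫 u v
      ((p : ℕ) : ↥(A.comap (algebraMap L1 Qb))) ∧
    (∀ σ : ↥L1 ≃+* ↥L1, ss_Inert (A.comap (algebraMap L1 Qb)) σ →
      ssm_sgh_aut h3 (M * p) σ u = u) ∧
    (∃ huS : u ∈ ssl_locSub ↥(hs_E L1 h3 (M * p)) 𝔫,
      s44nu_IsNu
        (algebraMap ↥(fc_chart ↥(A.comap (algebraMap L1 Qb))
            ({(hs_muE h3 (M * p) - 1)} : Set ↥(hs_E L1 h3 (M * p))))
          (ssl_locSub ↥(hs_E L1 h3 (M * p)) 𝔫)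
          (algebraMap ↥(A.comap (algebraMap L1 Qb))
            ↥(fc_chart ↥(A.comap (algebraMap L1 Qb))
              ({(hs_muE h3 (M * p) - 1)} : Set ↥(hs_E L1 h3 (M * p)))) π))
        (⟨u, huS⟩ : ssl_locSub ↥(hs_E L1 h3 (M * p)) 𝔫)
        (s44tl_br 𝔫 (fc_chart1_le ((hs_muE h3 (M * p) - 1) : ↥(hs_E L1 h3 (M * p))))
          (ssm_tp_P (fc_chart ↥(A.comap (algebraMap L1 Qb))
            ({(hs_muE h3 (M * p) - 1), ((hs_muE h3 (M * p) - 1))⁻¹} : Set ↥(hs_E L1 h3 (M * p))))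
            (ssm_fh_V1 h3 (A.comap (algebraMap L1 Qb)) h3O hπ M p))) ν) ∧
    (∀ b : ↥(s44mz_VF (A.comap (algebraMap L1 Qb)) hπ M p), IsUnit b →
      ν (hs_phiE h3 (N := M * p) (b : ↥(lg_F L1 (M * p)))) =
        T * Q.ord (s44nlr_red A hA M hpM L1 hπ b)) ∧
    T * Q.ord (s44e_ubar A M p) = 12

/-- **(ND-SS)**: the supersingular node package over every large number field. -/
def m59h2_s44h2_NDSS (Q : Place (s44e_kA A) (s44e_FF A M)) : Prop :=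
  ∃ T₀ : Finset Qb, ∀ (L1 : IntermediateField ℚ Qb) [NumberField ↥L1]
    [IsDiscreteValuationRing ↥(A.comap (algebraMap L1 Qb))]
    [CharP (ResidueField ↥(A.comap (algebraMap L1 Qb))) p],
    (↑T₀ : Set Qb) ⊆ L1 →
    ∀ (h3 : (3 : ↥L1) ≠ 0) (h3O : IsUnit (3 : ↥(A.comap (algebraMap L1 Qb))))
      {π : ↥(A.comap (algebraMap L1 Qb))} (hπ : Irreducible π),
      m59h2_s44h2_NDAt A hA M hpM hp3 Q L1 h3 h3O hπ


include hA in
/-- **(ND-SS) at one number field**, in the shape `m59h2_s44h2_NDAt`. -/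
theorem m59h2_s44ndss_ndAt (L1 : IntermediateField ℚ Qb) [NumberField ↥L1] (h3 : (3 : ↥L1) ≠ 0)
    [IsDiscreteValuationRing ↥(A.comap (algebraMap L1 Qb))]
    (h3O : IsUnit (3 : ↥(A.comap (algebraMap L1 Qb))))
    [CharP (ResidueField ↥(A.comap (algebraMap L1 Qb))) p]
    {π : ↥(A.comap (algebraMap L1 Qb))} (hπ : Irreducible π)
    (ζ : ↥L1) (hζ : IsPrimitiveRoot ζ (3 * M))
    (Q : Place (s44e_kA A) ↥(s44e_FF A M)) (hQ : s44e_IsSS A M p hp.out hpM Q)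
    (U1 : ↥(lg_F L1 (M * p)))
    (hU1 : ssm_al_iotaF L1 (M * p) U1 = s44hu_U p (M * p) (s44hu_dvd (rfl : M * p = M * p))) :
    m59h2_s44h2_NDAt A hA M hpM hp3 Q L1 h3 h3O hπ := by
  obtain ⟨𝔫, h𝔫, u, v, T, ν, hP1, hP2, hU, hfix, hT, ⟨huS, hν⟩, hunit, h12⟩ :=
    m59h2_s44ndss_at A hA M hpM hp3 L1 h3 h3O hπ ζ hζ Q hQ U1 hU1
  exact ⟨𝔫, h𝔫, u, v, (T : ℤ), ν, hP1, hU, fun σ hσ => (hfix σ hσ).1, ⟨huS, hν⟩, hunit, h12⟩

include hA in
/-- **(ND-SS)** in the interface shape of `Mono/MainND.lean`. -/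
theorem m59h2_s44ndss_ndss (Q : Place (s44e_kA A) ↥(s44e_FF A M))
    (hQ : s44e_IsSS A M p hp.out hpM Q) : m59h2_s44h2_NDSS A hA M hpM hp3 Q := by
  classical
  obtain ⟨T₀, hT₀⟩ := s44eu_exists_model p (M * p) (s44hu_dvd (rfl : M * p = M * p))
  haveI : NeZero (3 * M) := ⟨Nat.mul_ne_zero (by norm_num) (NeZero.ne M)⟩
  obtain ⟨ζ0, hζ0⟩ := HasEnoughRootsOfUnity.exists_primitiveRoot Qb (3 * M)
  refine ⟨insert ζ0 T₀, fun L1 _ _ _ hT h3 h3O π hπ => ?_⟩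
  have hζmem : ζ0 ∈ L1 := hT (by simp)
  have hTsub : (↑T₀ : Set Qb) ⊆ L1 := fun x hx => hT (by simp [hx])
  obtain ⟨U1, hU1⟩ := hT₀ L1 hTsub
  have hζ : IsPrimitiveRoot (⟨ζ0, hζmem⟩ : ↥L1) (3 * M) :=
    IsPrimitiveRoot.coe_submonoidClass_iff.1 hζ0
  exact m59h2_s44ndss_ndAt A hA M hpM hp3 L1 h3 h3O hπ ⟨ζ0, hζmem⟩ hζ Q hQ U1 hU1

end ND

end Fermat.Agent.M59
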