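/-
M59 / box [C] Mazur at `q = 2`, HESSE PORT, cluster C-MONO (helper28).  Prefix `m59h2_`.

HESSE TWINS of `twfm_gl_pair` (`TW/Easy/Mono/Pair.lean`: the two-node theorem at the cover for the trivial
Kummer cover, torsion exponent `m` decoupled from the residue characteristic `q`) and of `twfm_pair_nf`
(`TW/Easy/Mono/PairNF.lean`: the pairwise slope congruence at one number field `L'`), with the Hesse cover
`hs_E L h3 (N' q)`, chart coordinate `x = mu - 1`, residue characteristic `q` prime to `3`, and a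
primitive `3 N'`-th root of unity in `L`.  The abstract layer `s44gt_pair` is used verbatim.
-/
import Mathlib
import Fermat.Agent.TW.Easy.Mono.PairNF
import Fermat.Agent.M59.Hesse2.Mono.HesCI
import Fermat.Agent.M59.Hesse2.Mono.HesMainND

set_option autoImplicit false
set_option linter.unusedSectionVars false
set_option linter.unusedVariables false
set_option linter.style.haveILetI false

noncomputable section

namespace Fermat.Agent.M59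

open Polynomial ModularCurve AlgebraicCurve IntermediateField IsLocalRing
open Fermat.Agent.JT3 Fermat.Agent.SS Fermat.Agent.S35 Fermat.Agent.S24 Fermat.Agent.S44
  Fermat.Agent.TW

local notation "Qb" => AlgebraicClosure ℚ

section Leg

variable (L : Type) [Field L] [NumberField L] [Algebra L (AlgebraicClosure ℚ)] (h3 : (3 : L) ≠ 0)
  (O : ValuationSubring L) [IsDiscreteValuationRing O] (h3O : IsUnit (3 : O)) {π : O}
  (hπ : Irreducible π)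
  (N' q : ℕ) [NeZero N'] [NeZero q] [hq : Fact q.Prime] [CharP (ResidueField O) q]
  (hq3 : ¬ 3 ∣ q) (hqN' : ¬ q ∣ N') (ζ : L) (hζ : IsPrimitiveRoot ζ (3 * N'))

include hζ in
set_option synthInstance.maxHeartbeats 400000 in
set_option maxHeartbeats 3200000 in
/-- **THE TWO-NODE THEOREM AT THE HESSE COVER, TRIVIAL KUMMER COVER, EXPONENT `m`.** -/
theorem m59h2_twfm_gl_pair
    -- the inertia group
    {G : Type} [Group G] [Finite G] [MulSemiringAction G L]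
    (hin : ∀ γ : G, ss_Inert O (MulSemiringAction.toRingEquiv G L γ))
    {e' : ℕ} {w : (↥O)ˣ} (hqe : ((q : ℕ) : ↥O) = π ^ e' * (w : ↥O))
    (hbase : ∀ c : L, c ≠ 0 → (∀ γ : G, γ • c = c) →
      ∃ (n : ℤ) (ω : (↥O)ˣ), c = (π : L) ^ ((e' : ℤ) * n) * (ω : L))
    -- the data
    {m : ℕ} (hm0 : m ≠ 0)
    {fv g Φ : ↥(hs_E L h3 (N' * q))} {c : L} (hc0 : c ≠ 0) (hg : g ≠ 0)
    (hΦ : Φ = algebraMap L ↥(hs_E L h3 (N' * q)) c * fv * g ^ m)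
    (hσΦ : ∀ γ : G, coeffMap ((MulSemiringAction.toRingEquiv G L γ : L ≃+* L) : L →+* L)
      (Φ : LaurentSeries L) = (Φ : LaurentSeries L))
    (hfv : fv ≠ 0) (hordV : ∀ P : Place L ↥(hs_E L h3 (N' * q)), (m : ℤ) ∣ P.ord fv)
    (hRΦ : ∀ v : Place L ↥(hs_E L h3 (N' * q)), v.ord Φ ≠ 0 → ss_RatPlace v)
    -- the two crossing points, with their uniform coordinates
    (𝔫 𝔫' : Ideal ↥(fc_chart ↥O ({(hs_muE h3 (N' * q) - 1)} : Set ↥(hs_E L h3 (N' * q)))))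
    [h𝔫 : 𝔫.IsMaximal] [h𝔫' : 𝔫'.IsMaximal]
    (h1 : ssm_tp_P (fc_chart ↥O ({(hs_muE h3 (N' * q) - 1)} : Set ↥(hs_E L h3 (N' * q))))
      (ssm_fh_V1 h3 O h3O hπ N' q) ≤ 𝔫)
    (h1' : ssm_tp_P (fc_chart ↥O ({(hs_muE h3 (N' * q) - 1)} : Set ↥(hs_E L h3 (N' * q))))
      (ssm_fh_V1 h3 O h3O hπ N' q) ≤ 𝔫')
    {u v u' v' : ↥(hs_E L h3 (N' * q))}
    (hU : s44mu_NodeAtU π (fc_chart1_le ((hs_muE h3 (N' * q) - 1) : ↥(hs_E L h3 (N' * q))))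
      (ssm_tp_P (fc_chart ↥O ({(hs_muE h3 (N' * q) - 1), ((hs_muE h3 (N' * q) - 1))⁻¹} :
        Set ↥(hs_E L h3 (N' * q)))) (ssm_fh_V1 h3 O h3O hπ N' q))
      (ssm_tp_P (fc_chart ↥O ({(hs_muE h3 (N' * q) - 1), ((hs_muE h3 (N' * q) - 1))⁻¹} :
        Set ↥(hs_E L h3 (N' * q)))) (ssm_fh_V2 h3 O h3O hπ N' q hq3 hqN')) 𝔫 u v ((q : ℕ) : ↥O))
    (hU' : s44mu_NodeAtU π (fc_chart1_le ((hs_muE h3 (N' * q) - 1) : ↥(hs_E L h3 (N' * q))))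
      (ssm_tp_P (fc_chart ↥O ({(hs_muE h3 (N' * q) - 1), ((hs_muE h3 (N' * q) - 1))⁻¹} :
        Set ↥(hs_E L h3 (N' * q)))) (ssm_fh_V1 h3 O h3O hπ N' q))
      (ssm_tp_P (fc_chart ↥O ({(hs_muE h3 (N' * q) - 1), ((hs_muE h3 (N' * q) - 1))⁻¹} :
        Set ↥(hs_E L h3 (N' * q)))) (ssm_fh_V2 h3 O h3O hπ N' q hq3 hqN')) 𝔫' u' v' ((q : ℕ) : ↥O))
    (hσu : ∀ σ : L ≃+* L, ss_Inert O σ → ssm_sgh_aut h3 (N' * q) σ u = u)
    (hσu' : ∀ σ : L ≃+* L, ss_Inert O σ → ssm_sgh_aut h3 (N' * q) σ u' = u')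
    (ν ν' : ↥(hs_E L h3 (N' * q)) → ℤ) :
    haveI := m59h2_s44mci_leg_isAlg L h3 O (N' * q)
    haveI := m59h2_s44mci_leg_noeth L h3 O (N' * q)
    haveI := m59h2_s44mci_leg_ic L h3 O (N' * q)
    haveI := ssl_loc_isNoetherianRing (F0 := ↥(hs_E L h3 (N' * q))) 𝔫
    haveI := ssl_loc_isLocalRing (F0 := ↥(hs_E L h3 (N' * q))) 𝔫
    haveI := ssl_loc_isNoetherianRing (F0 := ↥(hs_E L h3 (N' * q))) 𝔫'
    haveI := ssl_loc_isLocalRing (F0 := ↥(hs_E L h3 (N' * q))) 𝔫'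
    ∀ (huS : u ∈ ssl_locSub ↥(hs_E L h3 (N' * q)) 𝔫) (huS' : u' ∈ ssl_locSub ↥(hs_E L h3 (N' * q)) 𝔫'),
    s44nu_IsNu
        (algebraMap ↥(fc_chart ↥O ({(hs_muE h3 (N' * q) - 1)} : Set ↥(hs_E L h3 (N' * q))))
          (ssl_locSub ↥(hs_E L h3 (N' * q)) 𝔫)
          (algebraMap ↥O ↥(fc_chart ↥O ({(hs_muE h3 (N' * q) - 1)} : Set ↥(hs_E L h3 (N' * q)))) π))
        (⟨u, huS⟩ : ssl_locSub ↥(hs_E L h3 (N' * q)) 𝔫)
        (s44tl_br 𝔫 (fc_chart1_le ((hs_muE h3 (N' * q) - 1) : ↥(hs_E L h3 (N' * q))))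
          (ssm_tp_P (fc_chart ↥O ({(hs_muE h3 (N' * q) - 1), ((hs_muE h3 (N' * q) - 1))⁻¹} :
            Set ↥(hs_E L h3 (N' * q)))) (ssm_fh_V1 h3 O h3O hπ N' q))) ν →
    s44nu_IsNu
        (algebraMap ↥(fc_chart ↥O ({(hs_muE h3 (N' * q) - 1)} : Set ↥(hs_E L h3 (N' * q))))
          (ssl_locSub ↥(hs_E L h3 (N' * q)) 𝔫')
          (algebraMap ↥O ↥(fc_chart ↥O ({(hs_muE h3 (N' * q) - 1)} : Set ↥(hs_E L h3 (N' * q)))) π))
        (⟨u', huS'⟩ : ssl_locSub ↥(hs_E L h3 (N' * q)) 𝔫')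
        (s44tl_br 𝔫' (fc_chart1_le ((hs_muE h3 (N' * q) - 1) : ↥(hs_E L h3 (N' * q))))
          (ssm_tp_P (fc_chart ↥O ({(hs_muE h3 (N' * q) - 1), ((hs_muE h3 (N' * q) - 1))⁻¹} :
            Set ↥(hs_E L h3 (N' * q)))) (ssm_fh_V1 h3 O h3O hπ N' q))) ν' →
    ν fv ≡ ν' fv [ZMOD (m : ℤ)] := by
  classical
  obtain ⟨hP1, hP2, hdvr, hϖ0, hrad, hξS, hξinv, hclear, hOB, hB12V1, hP1V, hB12V2, hP2V, hloc2⟩ :=
    m59h2_s44mci_leg_chartBlock L h3 O h3O hπ N' q hq3 hqN' ζ hζ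
  haveI := hP1
  haveI := hP2
  haveI := hdvr
  haveI := m59h2_s44mci_leg_isAlg L h3 O (N' * q)
  haveI := m59h2_s44mci_leg_noeth L h3 O (N' * q)
  haveI := m59h2_s44mci_leg_ic L h3 O (N' * q)
  haveI := ssl_loc_isNoetherianRing (F0 := ↥(hs_E L h3 (N' * q))) 𝔫
  haveI := ssl_loc_isLocalRing (F0 := ↥(hs_E L h3 (N' * q))) 𝔫
  haveI := ssl_loc_isNoetherianRing (F0 := ↥(hs_E L h3 (N' * q))) 𝔫'
  haveI := ssl_loc_isLocalRing (F0 := ↥(hs_E L h3 (N' * q))) 𝔫'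
  intro huS huS' hν hν'
  have hqO : ((q : ℕ) : O) ∈ maximalIdeal O := ssm_fln_q_mem L O q
  have he' : e' ≠ 0 := by
    rintro rfl
    rw [pow_zero, one_mul] at hqe
    have hu : IsUnit ((q : ℕ) : ↥O) := hqe ▸ w.isUnit
    exact (IsLocalRing.mem_maximalIdeal _).1 hqO hu
  have hq0 : q ≠ 0 := NeZero.ne q
  have hae : Associated ((q : ℕ) : ↥O) (π ^ e') :=
    ⟨w⁻¹, by rw [hqe, mul_assoc, Units.mul_inv, mul_one]⟩
  have hπ𝔫 := m59h2_s44mci_leg_pi_mem L h3 O h3O hπ N' q hq3 hqN' ζ hζ 𝔫 h1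
  have hπ𝔫' := m59h2_s44mci_leg_pi_mem L h3 O h3O hπ N' q hq3 hqN' ζ hζ 𝔫' h1'
  have hvS := s44mci_mem_loc_of 𝔫 hU.2.2.1
  have hvS' := s44mci_mem_loc_of 𝔫' hU'.2.2.1
  have hstab : ∀ (γ : G) (x : L), x ∈ O → γ • x ∈ O := fun γ x hx => ssm_gs_mem (hin γ) hx
  obtain ⟨Wi, hWi, hWdvd⟩ := s44glt_exists_W O (hs_E L h3 (N' * q)) (hsa_E_le_quotField h3 O (N' * q) h3O)
    hπ (fun a => rfl) hstab hbase
  -- the family
  have hσB : ∀ γ : G, ssl_SigmaB π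
      (ssm_sgh_aut h3 (N' * q) (MulSemiringAction.toRingEquiv G L γ))
      (fc_chart ↥O ({(hs_muE h3 (N' * q) - 1)} : Set ↥(hs_E L h3 (N' * q)))) :=
    fun γ => m59h2_s44mx_sigmaB L h3 O h3O hπ N' q hq3 hqN' ζ hζ _ (hin γ)
  have hσ0 : ∀ (γ : G) (a : ↥O),
      ssm_sgh_aut h3 (N' * q) (MulSemiringAction.toRingEquiv G L γ)
          (algebraMap ↥O ↥(hs_E L h3 (N' * q)) a) =
        algebraMap ↥O ↥(hs_E L h3 (N' * q))
          (ssm_sg_base O (MulSemiringAction.toRingEquiv G L γ) (hin γ) a) :=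
    fun γ a => ssm_sgh_aut_base h3 O (N' * q) _ (hin γ) a
  have hact : ∀ (γ : G) (z : LaurentSeries L),
      coeffMap ((MulSemiringAction.toRingEquiv G L γ : L ≃+* L) : L →+* L) z = s44mg_act γ z :=
    fun γ z => coeffMap_congr (RingHom.ext fun a => rfl) z
  have hσV : ∀ (γ : G) (x : ↥(hs_E L h3 (N' * q))),
      x ∈ ssm_fh_V1 h3 O h3O hπ N' q ↔
        ssm_sgh_aut h3 (N' * q) (MulSemiringAction.toRingEquiv G L γ) x ∈ ssm_fh_V1 h3 O h3O hπ N' q := by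
    intro γ x
    have hgx : s44mg_act γ (x : LaurentSeries L) ∈ hs_E L h3 (N' * q) := by
      rw [← hact]
      exact ssm_sgh_mem h3 (N' * q) _ x.2
    have h := s44glt_sigma_V O (hs_E L h3 (N' * q)) (hsa_E_le_quotField h3 O (N' * q) h3O) hπ hstab γ x hgx
    have e : ssm_sgh_aut h3 (N' * q) (MulSemiringAction.toRingEquiv G L γ) x =
        (⟨s44mg_act γ (x : LaurentSeries L), hgx⟩ : ↥(hs_E L h3 (N' * q))) :=
      Subtype.ext (hact γ _)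
    rw [e]
    exact h
  have hbase' : s44pa_Base (K := L) (F := ↥(hs_E L h3 (N' * q))) π e'
      (fun γ : G => ssm_sgh_aut h3 (N' * q) (MulSemiringAction.toRingEquiv G L γ)) := by
    intro c₀ hc₀ hfix
    refine hbase c₀ hc₀ fun γ => ?_
    have h := hfix γ
    rw [ssm_sgh_aut_algebraMap] at h
    exact (algebraMap L ↥(hs_E L h3 (N' * q))).injective h
  have hΦ0 : Φ ≠ 0 := by
    rw [hΦ]
    refine mul_ne_zero (mul_ne_zero ?_ hfv) (pow_ne_zero _ hg)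
    rw [Ne, map_eq_zero]
    exact hc0
  have hσΦ' : ∀ γ : G, ssm_sgh_aut h3 (N' * q) (MulSemiringAction.toRingEquiv G L γ) Φ = Φ :=
    fun γ => Subtype.ext (hσΦ γ)
  have hWiΦ : (e' : ℤ) ∣ Wi Φ := hWdvd Φ hΦ0 fun γ => by rw [← hact]; exact hσΦ γ
  exact s44gt_pair (K := L) 𝔫 𝔫' (fc_chart1_le _) hπ hπ𝔫 hπ𝔫' hϖ0 hrad hξS hξinv hclear hU huS hvS
    hU' huS' hvS' he' hm0 hae hae (ssm_fh_V1 h3 O h3O hπ N' q) hB12V1 hP1V Wi hWi
    (ssm_fh_V2 h3 O h3O hπ N' q hq3 hqN') hB12V2 hP2V hloc2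
    (fun γ : G => ssm_sgh_aut h3 (N' * q) (MulSemiringAction.toRingEquiv G L γ))
    (fun γ : G => ssm_sg_base O (MulSemiringAction.toRingEquiv G L γ) (hin γ))
    hσB hσ0 (fun γ => hσu _ (hin γ)) (fun γ => hσu' _ (hin γ)) hσV hbase' hfv hordV hc0 hg hΦ hRΦ
    hσΦ' hWiΦ ν ν' hν hν'

end Leg

section Pair

set_option synthInstance.maxHeartbeats 400000

variable (A : ValuationSubring Qb) {q : ℕ} [hq : Fact q.Prime] (hA : A.LiesOverPrime q)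
  (M : ℕ) [NeZero M] [NeZero q] [NeZero (M * q)] (hqM : ¬ q ∣ M) (hq3 : ¬ 3 ∣ q)
  (L' : IntermediateField ℚ Qb) [Normal ℚ L'] [NumberField ↥L'] (h3 : (3 : ↥L') ≠ 0)
  [IsDiscreteValuationRing ↥(A.comap (algebraMap ↥L' Qb))]
  (h3O : IsUnit (3 : ↥(A.comap (algebraMap ↥L' Qb))))
  [CharP (ResidueField ↥(A.comap (algebraMap ↥L' Qb))) q]
  {π : ↥(A.comap (algebraMap ↥L' Qb))} (hπ : Irreducible π)

attribute [local instance] s44kq_lsAction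

set_option maxHeartbeats 3200000 in
/-- **the pairwise slope congruence at one number field, exponent `m`.** -/
theorem m59h2_twfm_pair_nf {m : ℕ} (hm0 : m ≠ 0) (ζM : ↥L') (hζM : IsPrimitiveRoot ζM (3 * M))
    {V : JZero (M * q)}
    {fv1 : ↥(lg_F ↥L' (M * q))}
    (hrepV : s44f_Rep (M * q) m V (ssm_al_iotaF ↥L' (M * q) fv1))
    {c : ↥L'} {g Φ : ↥(hs_E ↥L' h3 (M * q))} (hc0 : c ≠ 0) (hg : g ≠ 0)
    (hΦ : (Φ : LaurentSeries ↥L') = algebraMap ↥L' (LaurentSeries ↥L') c *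
      hs_phi ↥L' (fv1 : LaurentSeries ↥L') * (g : LaurentSeries ↥L') ^ m)
    (hσΦ : ∀ σ : ↥(s44mn_G (A.inertiaSubgroupIn ℚ) L'),
      coeffMap (((σ : ↥L' ≃ₐ[ℚ] ↥L') : ↥L' ≃ₐ[ℚ] ↥L') : ↥L' →+* ↥L')
        (Φ : LaurentSeries ↥L') = (Φ : LaurentSeries ↥L'))
    (hRΦ : ∀ v : Place ↥L' ↥(hs_E ↥L' h3 (M * q)), v.ord Φ ≠ 0 → ss_RatPlace v)
    (Q Q' : Place (s44e_kA A) (s44e_FF A M))
    (hND : m59h2_s44h2_NDAt A hA M hqM hq3 Q L' h3 h3O hπ)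
    (hND' : m59h2_s44h2_NDAt A hA M hqM hq3 Q' L' h3 h3O hπ) :
    ∃ (fb : s44e_FF A M) (T T' : ℤ), twfr_Fbar A M q m V fb ∧
      T * Q.ord (s44e_ubar A M q) = 12 ∧ T' * Q'.ord (s44e_ubar A M q) = 12 ∧
      T * Q.ord fb ≡ T' * Q'.ord fb [ZMOD (m : ℤ)] := by
  classical
  obtain ⟨𝔫, h𝔫, u, v, T, ν, h1, hU, hσu, ⟨huS, hν⟩, hdict, h12⟩ := hND
  obtain ⟨𝔫', h𝔫', u', v', T', ν', h1', hU', hσu', ⟨huS', hν'⟩, hdict', h12'⟩ := hND'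
  haveI := h𝔫
  haveI := h𝔫'
  have hqq := hq.out
  -- `q = π ^ e' · unit`
  have hq0 : ((q : ℕ) : ↥(A.comap (algebraMap ↥L' Qb))) ≠ 0 := by
    intro h0
    have h2 := congrArg (fun z : ↥(A.comap (algebraMap ↥L' Qb)) => (z : ↥L')) h0
    simp only [ZeroMemClass.coe_zero] at h2
    have h3' : ((q : ℕ) : ↥L') = 0 := by
      rw [← h2]
      push_cast
      rfl
    exact hqq.ne_zero (by exact_mod_cast h3')
  obtain ⟨e', w, hw⟩ := IsDiscreteValuationRing.eq_unit_mul_pow_irreducible hq0 hπ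
  have hqe : ((q : ℕ) : ↥(A.comap (algebraMap ↥L' Qb))) = π ^ e' * (w : _) := by
    rw [hw, mul_comm]
  -- the inertia group
  have hin : ∀ γ : ↥(s44mn_G (A.inertiaSubgroupIn ℚ) L'),
      ss_Inert (A.comap (algebraMap ↥L' Qb))
        (MulSemiringAction.toRingEquiv ↥(s44mn_G (A.inertiaSubgroupIn ℚ) L') ↥L' γ) :=
    fun γ x hx => s44mi_inert A L' γ.2 x hx
  have hbase : ∀ c : ↥L', c ≠ 0 →
      (∀ γ : ↥(s44mn_G (A.inertiaSubgroupIn ℚ) L'), γ • c = c) →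
      ∃ (n : ℤ) (ω : (↥(A.comap (algebraMap ↥L' Qb)))ˣ),
        c = (π : ↥L') ^ ((e' : ℤ) * n) * (ω : ↥L') :=
    fun c hc hfix => s44mi_base q A hA L' hπ w.isUnit hqe c hc (fun γ hγ => hfix ⟨γ, hγ⟩)
  obtain ⟨hfv0, hordV⟩ := m59h2_s44mci_ord_rep ↥L' h3 (M * q) hrepV fv1 rfl
  have hΦ' : Φ = algebraMap ↥L' ↥(hs_E ↥L' h3 (M * q)) c *
      hs_phiE h3 (N := M * q) fv1 * g ^ m := Subtype.ext hΦ
  have hpair : ν (hs_phiE h3 (N := M * q) fv1) ≡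
      ν' (hs_phiE h3 (N := M * q) fv1) [ZMOD (m : ℤ)] :=
    m59h2_twfm_gl_pair ↥L' h3 (A.comap (algebraMap ↥L' Qb)) h3O hπ M q hq3 hqM ζM hζM hin hqe hbase hm0
      hc0 hg hΦ' hσΦ hfv0 hordV hRΦ 𝔫 𝔫' h1 h1' hU hU' hσu hσu' ν ν' huS huS' hν hν'
  -- Gauss normalisation of `fv1`
  have hfv10 : fv1 ≠ 0 := by
    rintro rfl
    exact hfv0 (map_zero _)
  obtain ⟨n, hmemW, hunit⟩ := s44mm_exists_norm A M L' hπ fv1 hfv10
  have hrep := twfm_rep_norm A M L' hπ n hrepV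
  haveI := m59h2_s44mci_leg_isAlg ↥L' h3 (A.comap (algebraMap ↥L' Qb)) (M * q)
  haveI := m59h2_s44mci_leg_noeth ↥L' h3 (A.comap (algebraMap ↥L' Qb)) (M * q)
  haveI := m59h2_s44mci_leg_ic ↥L' h3 (A.comap (algebraMap ↥L' Qb)) (M * q)
  haveI := ssl_loc_isNoetherianRing (F0 := ↥(hs_E ↥L' h3 (M * q))) 𝔫
  haveI := ssl_loc_isLocalRing (F0 := ↥(hs_E ↥L' h3 (M * q))) 𝔫
  haveI := ssl_loc_isNoetherianRing (F0 := ↥(hs_E ↥L' h3 (M * q))) 𝔫'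
  haveI := ssl_loc_isLocalRing (F0 := ↥(hs_E ↥L' h3 (M * q))) 𝔫'
  have e1 := m59h2_s44mm_nu_phi_norm A M L' h3 hπ hν rfl hfv10 n
  have e1' := m59h2_s44mm_nu_phi_norm A M L' h3 hπ hν' rfl hfv10 n
  have hd := hdict ⟨_, hmemW⟩ hunit
  have hd' := hdict' ⟨_, hmemW⟩ hunit
  have hFb := twfm_fbar A hA M hqM L' hπ (s44nlr_red A hA M hqM L' hπ) (fun x hb => rfl)
    hunit hrep
  refine ⟨s44nlr_red A hA M hqM L' hπ ⟨_, hmemW⟩, T, T', hFb, h12, h12', ?_⟩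
  rw [← hd, ← hd', e1, e1']
  exact hpair

end Pair

end Fermat.Agent.M59
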