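/-
M59 / box [C] Mazur at `q = 2`, HESSE PORT, cluster B-UDIV (helper28).  Prefix `m59h2_`.

Twin of `S44/Mono/UnitNodeInst.lean` ((U-NODE)(D): the node value of the modular unit at a crossing point),
Hesse cover `E = hs_E L h3 (N' q)`, chart coordinate `x = mu - 1`.  The cusps of the `x`-chart are
`x = 0` (`mu = 1`) and `t = mu^2 + mu + 1 = 0` (`mu = omega, omega^2`); both are smooth points, so at a
crossing point `x, t` are units of `B_𝔫`, and `j(q^3) = 27 mu^3 (mu^3 + 8)^3 / (x t)^3` lies in `B_𝔫`.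
-/
import Mathlib
import Fermat.Agent.S44.Mono.UnitNodeInst
import Fermat.Agent.S36.Tri.NodeInstHes
import Fermat.Agent.M59.Hesse2.Mono.HesUNode
import Fermat.Agent.M59.Hesse2.Mono.HesUNodeVert
import Fermat.Agent.M59.Hesse2.Mono.HesUnitVal

set_option autoImplicit false
set_option linter.unusedSectionVars false
set_option linter.unusedVariables false
set_option linter.style.haveILetI false

noncomputable section

open ModularCurve IntermediateField IsLocalRing Polynomial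
open Fermat.Agent.JT3 Fermat.Agent.SS Fermat.Agent.MZ Fermat.Agent.S44

namespace Fermat.Agent.M59

universe v

section Abs

variable {A0 : Type*} [CommRing A0] {F0 : Type v} [Field F0] [Algebra A0 F0]

/-- **the cusps are not crossing points**, general (two-pair) form: if both components pass through `𝔫`
then `x ∉ 𝔫` and `t ∉ 𝔫` (from the Frobenius-ratio facts `ssm_i1g_Facts`). -/
theorem m59h2_s44un_cross_not_mem_abs {q : ℕ} (hq : 2 ≤ q) {x xq t tq : F0}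
    {V1 V2 : ValuationSubring F0}
    (F : ssm_i1g_Facts A0 q x xq t tq V1 V2) (ht : t ∈ fc_chart A0 ({x} : Set F0))
    (hBV1 : ∀ b ∈ fc_chart A0 ({x} : Set F0), b ∈ V1)
    (hBV2 : ∀ b ∈ fc_chart A0 ({x} : Set F0), b ∈ V2)
    (𝔫 : Ideal (fc_chart A0 ({x} : Set F0))) [h𝔫 : 𝔫.IsPrime]
    (h1 : ssm_tp_P (fc_chart A0 ({x} : Set F0)) V1 ≤ 𝔫)
    (h2 : ssm_tp_P (fc_chart A0 ({x} : Set F0)) V2 ≤ 𝔫) :
    (⟨x, fc_x_mem_chart _⟩ : fc_chart A0 ({x} : Set F0)) ∉ 𝔫 ∧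
      (⟨t, ht⟩ : fc_chart A0 ({x} : Set F0)) ∉ 𝔫 := by
  have hneg : ∀ V : ValuationSubring F0, (0 : F0) - 1 ∉ V.nonunits := by
    intro V h
    rw [zero_sub] at h
    exact (ValuationSubring.mem_nonunits_iff_exists_mem_maximalIdeal.1 h).2
      |> fun hm => (IsLocalRing.mem_maximalIdeal _).1 hm
        ⟨⟨⟨-1, V.neg_mem _ V.one_mem⟩, ⟨-1, V.neg_mem _ V.one_mem⟩, by ext; simp, by ext; simp⟩, rfl⟩
  -- the generic step
  have key : ∀ (y yq : F0) (hy : y ∈ fc_chart A0 ({x} : Set F0))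
      (hyq : yq ∈ fc_chart A0 ({x} : Set F0))
      (ha : y ^ q / yq ∈ fc_chart A0 ({x} : Set F0))
      (hb : yq ^ q / y ∈ fc_chart A0 ({x} : Set F0)),
      y ^ q / yq - 1 ∈ V1.nonunits → yq ^ q / y - 1 ∈ V2.nonunits →
      (⟨y, hy⟩ : fc_chart A0 ({x} : Set F0)) ∉ 𝔫 := by
    intro y yq hy hyq ha hb ha1 hb1
    have hyq0 : yq ≠ 0 := by
      rintro rfl
      rw [div_zero] at ha1
      exact hneg V1 ha1
    have hy0 : y ≠ 0 := by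
      rintro rfl
      rw [div_zero] at hb1
      exact hneg V2 hb1
    refine s44un_not_mem_aux 𝔫 hq (x := ⟨y, hy⟩) (xq := ⟨yq, hyq⟩) (a := ⟨y ^ q / yq, ha⟩)
      (b := ⟨yq ^ q / y, hb⟩) (fun h => hy0 (congrArg Subtype.val h)) ?_ ?_ ?_ ?_
    · exact Subtype.ext (div_mul_cancel₀ _ hyq0)
    · exact Subtype.ext (div_mul_cancel₀ _ hy0)
    · exact h1 ((ssm_tp_mem_P hBV1).2 ha1)
    · exact h2 ((ssm_tp_mem_P hBV2).2 hb1)
  exact ⟨key x xq (fc_x_mem_chart _) F.xq_mem F.w0 F.w0' F.w0_sub F.w0'_sub,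
    key t tq ht F.tq_mem F.w1 F.w1' F.w1_sub F.w1'_sub⟩

/-- `j₃ ∈ B_𝔫` when `x, t ∉ 𝔫` (Hesse relation `27 μ³ (μ³ + 8)³ = j₃ (μ³ - 1)³`, `μ = x + 1`,
`μ³ - 1 = x t`, `t = μ² + μ + 1`). -/
theorem m59h2_s44un_j_mem_loc_abs {x mu j3 : F0}
    [IsFractionRing (fc_chart A0 ({x} : Set F0)) F0] (hmx : mu = x + 1)
    (hhes : 27 * mu ^ 3 * (mu ^ 3 + 8) ^ 3 = j3 * (mu ^ 3 - 1) ^ 3)
    (ht : mu ^ 2 + mu + 1 ∈ fc_chart A0 ({x} : Set F0))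
    (𝔫 : Ideal (fc_chart A0 ({x} : Set F0))) [h𝔫 : 𝔫.IsPrime]
    (h0 : (⟨x, fc_x_mem_chart _⟩ : fc_chart A0 ({x} : Set F0)) ∉ 𝔫)
    (h1 : (⟨mu ^ 2 + mu + 1, ht⟩ : fc_chart A0 ({x} : Set F0)) ∉ 𝔫) :
    j3 ∈ ssl_locSub F0 𝔫 := by
  rw [ssl_mem_locSub]
  set xB : fc_chart A0 ({x} : Set F0) := ⟨x, fc_x_mem_chart _⟩ with hxB
  set tB : fc_chart A0 ({x} : Set F0) := ⟨mu ^ 2 + mu + 1, ht⟩ with htB
  refine ⟨27 * (xB + 1) ^ 3 * ((xB + 1) ^ 3 + 8) ^ 3, (xB * tB) ^ 3, ?_, ?_⟩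
  · intro h
    rcases h𝔫.mem_or_mem (h𝔫.mem_of_pow_mem _ h) with h | h
    · exact h0 h
    · exact h1 h
  · show j3 * (((xB * tB) ^ 3 : fc_chart A0 ({x} : Set F0)) : F0) =
      ((27 * (xB + 1) ^ 3 * ((xB + 1) ^ 3 + 8) ^ 3 : fc_chart A0 ({x} : Set F0)) : F0)
    have e1 : ((xB : fc_chart A0 ({x} : Set F0)) : F0) = x := rfl
    have e1' : ((tB : fc_chart A0 ({x} : Set F0)) : F0) = mu ^ 2 + mu + 1 := rfl
    have e2 : ∀ n : ℕ, (((n : ℕ) : fc_chart A0 ({x} : Set F0)) : F0) = ((n : ℕ) : F0) :=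
      fun n => map_natCast (algebraMap (fc_chart A0 ({x} : Set F0)) F0) n
    have e3 : ((27 : fc_chart A0 ({x} : Set F0)) : F0) = 27 := by
      have h := e2 27
      simpa using h
    have e4 : ((8 : fc_chart A0 ({x} : Set F0)) : F0) = 8 := by
      have h := e2 8
      simpa using h
    push_cast
    rw [e1, e1', e3, e4, ← hmx]
    have hs : x * (mu ^ 2 + mu + 1) = mu ^ 3 - 1 := by rw [hmx]; ring
    rw [hs, hhes]

end Abs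

section NF

variable (L : Type) [Field L] [NumberField L] [Algebra L (AlgebraicClosure ℚ)]
  (h3 : (3 : L) ≠ 0) (O : ValuationSubring L) [IsDiscreteValuationRing O]
  (h3O : IsUnit (3 : O)) {π : O} (hπ : Irreducible π)
variable (N' q : ℕ) [NeZero N'] [NeZero q] [hq : Fact q.Prime] [CharP (ResidueField O) q]
  (hq3 : ¬ 3 ∣ q) (hqN' : ¬ q ∣ N') (ζ : L) (hζ : IsPrimitiveRoot ζ (3 * N'))

/-- `t = μ² + μ + 1` lies in the `x`-chart. -/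
theorem m59h2_s44un_t_mem (N : ℕ) [NeZero N] :
    (hs_muE h3 N : ↥(hs_E L h3 N)) ^ 2 + hs_muE h3 N + 1 ∈
      fc_chart ↥O ({hs_muE h3 N - 1} : Set ↥(hs_E L h3 N)) := by
  have hx : (hs_muE h3 N - 1 : ↥(hs_E L h3 N)) ∈
      fc_chart ↥O ({hs_muE h3 N - 1} : Set ↥(hs_E L h3 N)) := fc_x_mem_chart _
  have hmu : (hs_muE h3 N : ↥(hs_E L h3 N)) ∈
      fc_chart ↥O ({hs_muE h3 N - 1} : Set ↥(hs_E L h3 N)) := by
    have h := add_mem hx (one_mem (fc_chart ↥O ({hs_muE h3 N - 1} : Set ↥(hs_E L h3 N))))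
    rwa [sub_add_cancel] at h
  exact add_mem (add_mem (pow_mem hmu 2) hmu) (one_mem _)

include hζ in
/-- **the cusps are not crossing points** of the Hesse chart: `x ∉ 𝔫` and `t ∉ 𝔫` at every
prime `𝔫` of the `x`-chart through which both components pass. -/
theorem m59h2_s44un_cross_not_mem
    (𝔫 : Ideal (fc_chart ↥O ({hs_muE h3 (N' * q) - 1} : Set ↥(hs_E L h3 (N' * q)))))
    [h𝔫 : 𝔫.IsPrime]
    (h1 : ssm_tp_P (fc_chart ↥O ({hs_muE h3 (N' * q) - 1} : Set ↥(hs_E L h3 (N' * q))))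
      (ssm_fh_V1 h3 O h3O hπ N' q) ≤ 𝔫)
    (h2 : ssm_tp_P (fc_chart ↥O ({hs_muE h3 (N' * q) - 1} : Set ↥(hs_E L h3 (N' * q))))
      (ssm_fh_V2 h3 O h3O hπ N' q hq3 hqN') ≤ 𝔫) :
    (⟨hs_muE h3 (N' * q) - 1, fc_x_mem_chart _⟩ :
        fc_chart ↥O ({hs_muE h3 (N' * q) - 1} : Set ↥(hs_E L h3 (N' * q)))) ∉ 𝔫 ∧
      (⟨(hs_muE h3 (N' * q) : ↥(hs_E L h3 (N' * q))) ^ 2 + hs_muE h3 (N' * q) + 1,
          m59h2_s44un_t_mem L h3 O (N' * q)⟩ :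
        fc_chart ↥O ({hs_muE h3 (N' * q) - 1} : Set ↥(hs_E L h3 (N' * q)))) ∉ 𝔫 := by
  haveI := ssm_go_isScalarTower O (hs_E L h3 (N' * q))
  have hp := (ssm_nhh_level L h3 O hπ N' q hq3 hqN' ζ hζ).1
  have H := ssm_fh_hyp h3 O h3O hπ N' q hq3 hqN' hp
  have hx : Transcendental L (hs_muE h3 (N' * q) - 1 : ↥(hs_E L h3 (N' * q))) :=
    ssm_sgm_transcendental h3 (N' * q)
  have hC := ssm_tp_ff_chart (L := L) hπ hx
  haveI : IsIntegrallyClosed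
      (Algebra.adjoin ↥O ({hs_muE h3 (N' * q) - 1} : Set ↥(hs_E L h3 (N' * q)))) :=
    fc_ff_isIntegrallyClosed (fc_ff_transcendental (L := L) hx)
  haveI : FaithfulSMul (Algebra.adjoin ↥O ({hs_muE h3 (N' * q) - 1} : Set ↥(hs_E L h3 (N' * q))))
      ↥(hs_E L h3 (N' * q)) :=
    (faithfulSMul_iff_algebraMap_injective _ _).2 Subtype.val_injective
  exact m59h2_s44un_cross_not_mem_abs hq.out.two_le (ssm_fh_facts h3 O h3O hπ N' q hq3 hqN' hp)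
    (m59h2_s44un_t_mem L h3 O (N' * q))
    (fun b hb => hC.le H.over1 hb) (fun b hb => hC.le H.over2 hb) 𝔫 h1 h2

include hζ in
/-- `j(q³) ∈ B_𝔫` at a crossing point of the Hesse chart. -/
theorem m59h2_s44un_j_mem_loc
    [IsFractionRing (fc_chart ↥O ({hs_muE h3 (N' * q) - 1} : Set ↥(hs_E L h3 (N' * q))))
      ↥(hs_E L h3 (N' * q))]
    (𝔫 : Ideal (fc_chart ↥O ({hs_muE h3 (N' * q) - 1} : Set ↥(hs_E L h3 (N' * q)))))
    [h𝔫 : 𝔫.IsPrime]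
    (h1 : ssm_tp_P (fc_chart ↥O ({hs_muE h3 (N' * q) - 1} : Set ↥(hs_E L h3 (N' * q))))
      (ssm_fh_V1 h3 O h3O hπ N' q) ≤ 𝔫)
    (h2 : ssm_tp_P (fc_chart ↥O ({hs_muE h3 (N' * q) - 1} : Set ↥(hs_E L h3 (N' * q))))
      (ssm_fh_V2 h3 O h3O hπ N' q hq3 hqN') ≤ 𝔫) :
    m59h2_s44mz_j2E L h3 (N' * q) ∈ ssl_locSub ↥(hs_E L h3 (N' * q)) 𝔫 := by
  obtain ⟨h0, h1'⟩ := m59h2_s44un_cross_not_mem L h3 O h3O hπ N' q hq3 hqN' ζ hζ 𝔫 h1 h2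
  exact m59h2_s44un_j_mem_loc_abs (sub_add_cancel _ _).symm (m59h2_s44mz_legE L h3 (N' * q))
    (m59h2_s44un_t_mem L h3 O (N' * q)) 𝔫 h0 h1'

include hζ in
/-- **no horizontal divisor**: the modular unit is a unit at every horizontal prime of `B_𝔫`, `𝔫` a
crossing point of the Legendre chart. -/
theorem m59h2_s44un_hor
    [IsFractionRing (fc_chart ↥O ({(hs_muE h3 (N' * q) - 1)} : Set ↥(hs_E L h3 (N' * q)))) ↥(hs_E L h3 (N' * q))]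
    [IsNoetherianRing (fc_chart ↥O ({(hs_muE h3 (N' * q) - 1)} : Set ↥(hs_E L h3 (N' * q))))]
    [IsIntegrallyClosed (fc_chart ↥O ({(hs_muE h3 (N' * q) - 1)} : Set ↥(hs_E L h3 (N' * q))))]
    (U1 : ↥(lg_F L (N' * q))) (hU1 : (U1 : LaurentSeries L) = mzb_qi_U L q)
    (𝔫 : Ideal (fc_chart ↥O ({(hs_muE h3 (N' * q) - 1)} : Set ↥(hs_E L h3 (N' * q))))) [h𝔫 : 𝔫.IsPrime]
    (h1 : ssm_tp_P (fc_chart ↥O ({(hs_muE h3 (N' * q) - 1)} : Set ↥(hs_E L h3 (N' * q))))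
      (ssm_fh_V1 h3 O h3O hπ N' q) ≤ 𝔫)
    (h2 : ssm_tp_P (fc_chart ↥O ({(hs_muE h3 (N' * q) - 1)} : Set ↥(hs_E L h3 (N' * q))))
      (ssm_fh_V2 h3 O h3O hπ N' q hq3 hqN') ≤ 𝔫)
    (𝔮 : Ideal (ssl_locSub ↥(hs_E L h3 (N' * q)) 𝔫))
    (h𝔮 : ssl_Horiz (algebraMap (fc_chart ↥O ({(hs_muE h3 (N' * q) - 1)} : Set ↥(hs_E L h3 (N' * q))))
      (ssl_locSub ↥(hs_E L h3 (N' * q)) 𝔫)
      (algebraMap ↥O (fc_chart ↥O ({(hs_muE h3 (N' * q) - 1)} : Set ↥(hs_E L h3 (N' * q)))) π)) 𝔮) :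
    ssl_UnitAt (R := ↥(ssl_locSub ↥(hs_E L h3 (N' * q)) 𝔫)) ↥(hs_E L h3 (N' * q)) 𝔮
      (hs_phiE h3 (N := N' * q) U1) := by
  haveI := ssm_go_isScalarTower O (hs_E L h3 (N' * q))
  haveI := ssl_loc_isNoetherianRing (F0 := ↥(hs_E L h3 (N' * q))) 𝔫
  haveI := ssl_loc_isIntegrallyClosed (F0 := ↥(hs_E L h3 (N' * q))) 𝔫
  have hj := m59h2_s44un_j_mem_loc L h3 O h3O hπ N' q hq3 hqN' ζ hζ 𝔫 h1 h2
  exact m59h2_s44uv_unitAt_horiz L h3 q (N' * q) (dvd_mul_left q N') (A0 := ↥O)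
    (R := ↥(ssl_locSub ↥(hs_E L h3 (N' * q)) 𝔫)) hπ 𝔮 h𝔮
    (⟨m59h2_s44mz_j2E L h3 (N' * q), hj⟩ : ↥(ssl_locSub ↥(hs_E L h3 (N' * q)) 𝔫)) rfl U1 hU1

include hζ in
set_option synthInstance.maxHeartbeats 400000 in
set_option maxHeartbeats 3200000 in
/-- **(U-NODE), THE NODE VALUE OF THE MODULAR UNIT.**  `𝔫` a crossing point of the `λ`-chart of the
Legendre cover over `(L, O, π)`, `(u, v)` the coordinates of a uniform node at `𝔫` (`u v = q`: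
helper29's `s44mu_node`), `U1` a model over `L` of the modular unit `Δ(τ)/Δ(qτ)`.  Then EVERY
normalised order `ν` of `B_𝔫` along the branch of `P1` (the `∞`-component) with respect to the
coordinate `u` takes the value `12` at `lg_phiE U1`. -/
theorem m59h2_s44un_node
    [IsFractionRing (fc_chart ↥O ({(hs_muE h3 (N' * q) - 1)} : Set ↥(hs_E L h3 (N' * q)))) ↥(hs_E L h3 (N' * q))]
    [IsNoetherianRing (fc_chart ↥O ({(hs_muE h3 (N' * q) - 1)} : Set ↥(hs_E L h3 (N' * q))))]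
    [IsIntegrallyClosed (fc_chart ↥O ({(hs_muE h3 (N' * q) - 1)} : Set ↥(hs_E L h3 (N' * q))))]
    (U1 : ↥(lg_F L (N' * q))) (hU1 : (U1 : LaurentSeries L) = mzb_qi_U L q)
    (𝔫 : Ideal (fc_chart ↥O ({(hs_muE h3 (N' * q) - 1)} : Set ↥(hs_E L h3 (N' * q))))) [h𝔫 : 𝔫.IsPrime]
    (h1 : ssm_tp_P (fc_chart ↥O ({(hs_muE h3 (N' * q) - 1)} : Set ↥(hs_E L h3 (N' * q))))
      (ssm_fh_V1 h3 O h3O hπ N' q) ≤ 𝔫)
    (h2 : ssm_tp_P (fc_chart ↥O ({(hs_muE h3 (N' * q) - 1)} : Set ↥(hs_E L h3 (N' * q))))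
      (ssm_fh_V2 h3 O h3O hπ N' q hq3 hqN') ≤ 𝔫)
    {u v : ↥(hs_E L h3 (N' * q))}
    (h : s44mu_NodeAtU π (fc_chart1_le ((hs_muE h3 (N' * q) - 1) : ↥(hs_E L h3 (N' * q))))
      (ssm_tp_P (fc_chart ↥O ({(hs_muE h3 (N' * q) - 1), ((hs_muE h3 (N' * q) - 1))⁻¹} :
        Set ↥(hs_E L h3 (N' * q)))) (ssm_fh_V1 h3 O h3O hπ N' q))
      (ssm_tp_P (fc_chart ↥O ({(hs_muE h3 (N' * q) - 1), ((hs_muE h3 (N' * q) - 1))⁻¹} :
        Set ↥(hs_E L h3 (N' * q)))) (ssm_fh_V2 h3 O h3O hπ N' q hq3 hqN')) 𝔫 u v ((q : ℕ) : ↥O))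
    (huS : u ∈ ssl_locSub ↥(hs_E L h3 (N' * q)) 𝔫) :
    haveI := ssl_loc_isLocalRing (F0 := ↥(hs_E L h3 (N' * q))) 𝔫
    haveI := ssl_loc_isNoetherianRing (F0 := ↥(hs_E L h3 (N' * q))) 𝔫
    ∀ ν : ↥(hs_E L h3 (N' * q)) → ℤ,
      s44nu_IsNu (algebraMap (fc_chart ↥O ({(hs_muE h3 (N' * q) - 1)} : Set ↥(hs_E L h3 (N' * q))))
          (ssl_locSub ↥(hs_E L h3 (N' * q)) 𝔫)
          (algebraMap ↥O (fc_chart ↥O ({(hs_muE h3 (N' * q) - 1)} : Set ↥(hs_E L h3 (N' * q)))) π))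
        (⟨u, huS⟩ : ssl_locSub ↥(hs_E L h3 (N' * q)) 𝔫)
        (s44tl_br 𝔫 (fc_chart1_le ((hs_muE h3 (N' * q) - 1) : ↥(hs_E L h3 (N' * q))))
          (ssm_tp_P (fc_chart ↥O ({(hs_muE h3 (N' * q) - 1), ((hs_muE h3 (N' * q) - 1))⁻¹} :
            Set ↥(hs_E L h3 (N' * q)))) (ssm_fh_V1 h3 O h3O hπ N' q))) ν →
      ν (hs_phiE h3 (N := N' * q) U1) = 12 := by
  intro ν hν
  haveI := ssl_loc_isLocalRing (F0 := ↥(hs_E L h3 (N' * q))) 𝔫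
  haveI := ssl_loc_isNoetherianRing (F0 := ↥(hs_E L h3 (N' * q))) 𝔫
  haveI := ssm_go_isScalarTower O (hs_E L h3 (N' * q))
  have hp := (ssm_nhh_level L h3 O hπ N' q hq3 hqN' ζ hζ).1
  have H := ssm_fh_hyp h3 O h3O hπ N' q hq3 hqN' hp
  have hx : Transcendental L ((hs_muE h3 (N' * q) - 1)) :=
    ssm_sgm_transcendental h3 (N' * q)
  have hx0 : (hs_muE h3 (N' * q) - 1 : ↥(hs_E L h3 (N' * q))) ≠ 0 := fun h0 => hx (h0 ▸ isAlgebraic_zero)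
  have hC := ssm_tp_ff_chart (L := L) hπ hx
  have hC12 := ssm_tp_ff_chart12 (L := L) hπ hx
  haveI : IsIntegrallyClosed (Algebra.adjoin ↥O ({(hs_muE h3 (N' * q) - 1)} : Set ↥(hs_E L h3 (N' * q)))) :=
    fc_ff_isIntegrallyClosed (fc_ff_transcendental (L := L) hx)
  haveI : FaithfulSMul (Algebra.adjoin ↥O ({(hs_muE h3 (N' * q) - 1)} : Set ↥(hs_E L h3 (N' * q))))
      ↥(hs_E L h3 (N' * q)) :=
    (faithfulSMul_iff_algebraMap_injective _ _).2 Subtype.val_injective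
  haveI := ssm_glh_finite h3 (N' * q)
  obtain ⟨hP1, hP2, hrad, -, -, -⟩ := ssm_tp_ff_model (L := L) hπ hx H
  haveI := hP1
  haveI := hP2
  have hBV1 : ∀ b ∈ fc_chart ↥O ({(hs_muE h3 (N' * q) - 1)} : Set ↥(hs_E L h3 (N' * q))),
      b ∈ ssm_fh_V1 h3 O h3O hπ N' q := fun b hb => hC.le H.over1 hb
  have hB12V1 : ∀ b ∈ fc_chart ↥O ({(hs_muE h3 (N' * q) - 1), ((hs_muE h3 (N' * q) - 1))⁻¹} :
      Set ↥(hs_E L h3 (N' * q))), b ∈ ssm_fh_V1 h3 O h3O hπ N' q := fun b hb => hC12.le H.over1 hb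
  have hB12V2 : ∀ b ∈ fc_chart ↥O ({(hs_muE h3 (N' * q) - 1), ((hs_muE h3 (N' * q) - 1))⁻¹} :
      Set ↥(hs_E L h3 (N' * q))), b ∈ ssm_fh_V2 h3 O h3O hπ N' q hq3 hqN' := fun b hb => hC12.le H.over2 hb
  -- `π ∈ 𝔫`
  have hϖ0 : algebraMap ↥O ↥(hs_E L h3 (N' * q)) π ≠ 0 := H.algebraMap_ne_zero
  have hπ𝔫 : algebraMap ↥O (fc_chart ↥O ({(hs_muE h3 (N' * q) - 1)} : Set ↥(hs_E L h3 (N' * q)))) π ∈ 𝔫 :=
    h1 ((ssm_tp_mem_P hBV1).2 H.over1.pi_mem)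
  obtain ⟨huv, hu, hv, hgen, hu1, hv2⟩ := h
  -- `v ∈ B_𝔫`
  have hvS : v ∈ ssl_locSub ↥(hs_E L h3 (N' * q)) 𝔫 := by
    obtain ⟨s, t, hs, -, hst⟩ := hv
    rw [ssl_mem_locSub]
    exact ⟨t, s, hs, (mul_comm _ _).trans hst⟩
  -- the two vertical values
  have hG1 := m59h2_s44un_V1 h3 O h3O hπ N' q U1 hU1
  have hG2 := m59h2_s44un_V2 h3 O h3O hπ N' q hq3 hqN' U1 hU1
  have hcast : algebraMap L ↥(hs_E L h3 (N' * q)) ((q : L) ^ 12) =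
      algebraMap ↥O ↥(hs_E L h3 (N' * q)) ((q : ℕ) : ↥O) ^ (12 : ℤ) := by
    rw [map_natCast, map_pow, map_natCast]
    norm_cast
  rw [hcast] at hG2
  exact s44un_chart_node (hle := fc_chart1_le ((hs_muE h3 (N' * q) - 1) : ↥(hs_E L h3 (N' * q)))) hπ hϖ0 hπ𝔫
    hrad (sfc_ff_mem_S (L := L) hπ hx) (fun z hz => fc_clear1 hx0 hz) huv hu hv hgen hu1 hv2 huS hvS
    (ssm_fh_V1 h3 O h3O hπ N' q) (ssm_fh_V2 h3 O h3O hπ N' q hq3 hqN')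
    (fun b => hB12V1 b b.2) (fun b => hB12V2 b b.2)
    (fun b => ssm_tp_mem_P hB12V1) (fun b => ssm_tp_mem_P hB12V2)
    (fun 𝔮 h𝔮 => m59h2_s44un_hor L h3 O h3O hπ N' q hq3 hqN' ζ hζ U1 hU1 𝔫 h1 h2 𝔮 h𝔮) 12 hG1 hG2 hν

end NF

end Fermat.Agent.M59
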